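import Fermat.Agent.MatroidLogConcave.Flats

/-!
# Balancing and connectivity in the Bergman fan
-/

set_option autoImplicit false

noncomputable section

namespace FA.MatroidLogConcave.FlatLattice

open Finset

variable {α : Type*} [Fintype α] [DecidableEq α] [Nonempty α] (L : FlatLattice α)

open scoped Classical in
/-- The fundamental weight: the maximal chains. -/
def top (σ : Finset L.Ray) : ℝ := if L.fan.IsCone σ ∧ #σ + 1 = L.rank then 1 else 0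

/-- The ranks occurring in a chain. -/
def ranks (σ : Finset L.Ray) : Finset ℕ := σ.image fun F => L.rk F.1

open scoped Classical in
/-- The rays of rank `j` compatible with a chain. -/
def link (σ : Finset L.Ray) (j : ℕ) : Finset L.Ray :=
  univ.filter fun G => L.fan.IsCone (insert G σ) ∧ L.rk G.1 = j

/-- The ends and the members of a chain. -/
def IsLevel (σ : Finset L.Ray) (P : Finset α) : Prop := P = ∅ ∨ P = univ ∨ ∃ F ∈ σ, F.1 = P

variable {L} {σ : Finset L.Ray}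

omit [Nonempty α] in
theorem rk_pos (F : L.Ray) : 0 < L.rk F.1 :=
  L.rk_empty ▸ L.rk_lt L.cl_empty F.2.1 (empty_ssubset.2 F.2.2.1)

omit [Nonempty α] in
theorem rk_lt_rank (F : L.Ray) : L.rk F.1 < L.rank :=
  L.rk_lt F.2.1 L.cl_univ (ssubset_univ_iff.2 F.2.2.2)

omit [Nonempty α] in
theorem rk_le_rank {F : Finset α} (hF : L.cl F = F) : L.rk F ≤ L.rank :=
  L.rk_le_of_subset hF L.cl_univ (subset_univ F)

omit [Nonempty α] in
theorem subset_of_rk_le {F G : Finset α} (hF : L.cl F = F) (hG : L.cl G = G)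
    (h : F ⊆ G ∨ G ⊆ F) (hr : L.rk F ≤ L.rk G) : F ⊆ G :=
  h.elim id fun h => (L.eq_of_subset_of_rk_le hG hF h hr).ge

omit [Nonempty α] in
theorem eq_of_rk_eq {F G : L.Ray} (h : F.1 ⊆ G.1 ∨ G.1 ⊆ F.1) (hr : L.rk F.1 = L.rk G.1) :
    F = G :=
  Subtype.ext (subset_antisymm (subset_of_rk_le F.2.1 G.2.1 h hr.le)
    (subset_of_rk_le G.2.1 F.2.1 h.symm hr.ge))

omit [Nonempty α] in
theorem ray_of_rk {G : Finset α} (hG : L.cl G = G) (h0 : 0 < L.rk G) (h1 : L.rk G < L.rank) :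
    L.cl G = G ∧ G.Nonempty ∧ G ≠ univ :=
  ⟨hG, nonempty_iff_ne_empty.2 fun e => by rw [e, L.rk_empty] at h0; exact lt_irrefl 0 h0,
    fun e => by rw [e] at h1; exact lt_irrefl _ h1⟩

theorem card_ranks (hσ : L.fan.IsCone σ) : #(L.ranks σ) = #σ :=
  card_image_of_injOn fun F hF G hG h => eq_of_rk_eq (hσ F hF G hG) h

omit [Nonempty α] in
theorem ranks_subset : L.ranks σ ⊆ Ico 1 L.rank := fun k hk => by
  obtain ⟨F, -, rfl⟩ := mem_image.1 hk
  exact mem_Ico.2 ⟨rk_pos F, rk_lt_rank F⟩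

theorem card_missing (hσ : L.fan.IsCone σ) :
    #(Ico 1 L.rank \ L.ranks σ) + #σ = L.rank - 1 := by
  have h := card_le_card (ranks_subset (σ := σ))
  rw [card_sdiff_of_subset ranks_subset]
  rw [Nat.card_Ico, card_ranks hσ] at *
  omega

omit [Nonempty α] in
theorem ranks_insert (G : L.Ray) : L.ranks (insert G σ) = insert (L.rk G.1) (L.ranks σ) :=
  image_insert ..

theorem isCone_insert (hσ : L.fan.IsCone σ) {G : L.Ray}
    (h : ∀ K ∈ σ, K.1 ⊆ G.1 ∨ G.1 ⊆ K.1) : L.fan.IsCone (insert G σ) := by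
  intro A hA B hB
  rcases mem_insert.1 hA with hA' | hA' <;> rcases mem_insert.1 hB with hB' | hB'
  · rw [hA', hB']; exact Or.inl subset_rfl
  · rw [hA']; exact (h B hB').symm
  · rw [hB']; exact h A hA'
  · exact hσ A hA' B hB'

theorem comparable_of_insert {G : L.Ray} (h : L.fan.IsCone (insert G σ)) {K : L.Ray} (hK : K ∈ σ) :
    K.1 ⊆ G.1 ∨ G.1 ⊆ K.1 :=
  h K (mem_insert_of_mem hK) G (mem_insert_self _ _)

theorem mem_link {G : L.Ray} {j : ℕ} :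
    G ∈ L.link σ j ↔ L.fan.IsCone (insert G σ) ∧ L.rk G.1 = j := by
  simp [link]

omit [Nonempty α] in
theorem notMem_of_rk {G : L.Ray} (h : L.rk G.1 ∉ L.ranks σ) : G ∉ σ :=
  fun hG => h (mem_image_of_mem _ hG)

theorem rk_notMem_ranks {G : L.Ray} (hG : G ∉ σ) (hGσ : L.fan.IsCone (insert G σ)) :
    L.rk G.1 ∉ L.ranks σ := fun h => by
  obtain ⟨K, hK, e⟩ := mem_image.1 h
  exact hG (eq_of_rk_eq (comparable_of_insert hGσ hK) e ▸ hK)

omit [Nonempty α] in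
theorem IsLevel.closed {P : Finset α} (hP : L.IsLevel σ P) : L.cl P = P := by
  rcases hP with rfl | rfl | ⟨F, -, rfl⟩
  exacts [L.cl_empty, L.cl_univ, F.2.1]

theorem IsLevel.comparable {P : Finset α} (hP : L.IsLevel σ P) {G : L.Ray}
    (hG : L.fan.IsCone (insert G σ)) : P ⊆ G.1 ∨ G.1 ⊆ P := by
  rcases hP with rfl | rfl | ⟨F, hF, rfl⟩
  exacts [Or.inl (empty_subset _), Or.inr (subset_univ _), comparable_of_insert hG hF]

theorem IsLevel.subset {P : Finset α} (hP : L.IsLevel σ P) {G : L.Ray}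
    (hG : L.fan.IsCone (insert G σ)) (hr : L.rk P ≤ L.rk G.1) : P ⊆ G.1 :=
  subset_of_rk_le hP.closed G.2.1 (hP.comparable hG) hr

theorem IsLevel.subset' {P : Finset α} (hP : L.IsLevel σ P) {G : L.Ray}
    (hG : L.fan.IsCone (insert G σ)) (hr : L.rk G.1 ≤ L.rk P) : G.1 ⊆ P :=
  subset_of_rk_le G.2.1 hP.closed (hP.comparable hG).symm hr

/-- The levels around a missing rank. -/
theorem exists_gap (hσ : L.fan.IsCone σ) {k : ℕ} (hk0 : 0 < k) (hk : k < L.rank)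
    (hkσ : k ∉ L.ranks σ) :
    ∃ P Q : Finset α, L.IsLevel σ P ∧ L.IsLevel σ Q ∧ P ⊆ Q ∧ L.rk P < k ∧ k < L.rk Q ∧
      (∀ j, j ∈ L.ranks σ → j ≤ L.rk P ∨ L.rk Q ≤ j) ∧
      (∀ K ∈ σ, K.1 ⊆ P ∨ Q ⊆ K.1) := by
  classical
  have hne : ∀ K ∈ σ, L.rk K.1 ≠ k := fun K hK e => hkσ (mem_image.2 ⟨K, hK, e⟩)
  have hins : ∀ K ∈ σ, L.fan.IsCone (insert K σ) := fun K hK => by rwa [insert_eq_of_mem hK]
  obtain ⟨P, hP, hPk, hPmax⟩ : ∃ P : Finset α,
      L.IsLevel σ P ∧ L.rk P < k ∧ ∀ K ∈ σ, L.rk K.1 < k → L.rk K.1 ≤ L.rk P := by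
    rcases (σ.filter fun K => L.rk K.1 < k).eq_empty_or_nonempty with h | h
    · exact ⟨∅, Or.inl rfl, by rw [L.rk_empty]; exact hk0,
        fun K hK hlt => absurd (mem_filter.2 ⟨hK, hlt⟩) (by rw [h]; exact notMem_empty K)⟩
    · obtain ⟨F, hF, hmax⟩ := exists_max_image _ (fun K => L.rk K.1) h
      obtain ⟨hF, hFk⟩ := mem_filter.1 hF
      exact ⟨F.1, Or.inr (Or.inr ⟨F, hF, rfl⟩), hFk,
        fun K hK hlt => hmax K (mem_filter.2 ⟨hK, hlt⟩)⟩
  obtain ⟨Q, hQ, hQk, hQmin⟩ : ∃ Q : Finset α,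
      L.IsLevel σ Q ∧ k < L.rk Q ∧ ∀ K ∈ σ, k < L.rk K.1 → L.rk Q ≤ L.rk K.1 := by
    rcases (σ.filter fun K => k < L.rk K.1).eq_empty_or_nonempty with h | h
    · exact ⟨univ, Or.inr (Or.inl rfl), hk,
        fun K hK hlt => absurd (mem_filter.2 ⟨hK, hlt⟩) (by rw [h]; exact notMem_empty K)⟩
    · obtain ⟨F, hF, hmin⟩ := exists_min_image _ (fun K => L.rk K.1) h
      obtain ⟨hF, hFk⟩ := mem_filter.1 hF
      exact ⟨F.1, Or.inr (Or.inr ⟨F, hF, rfl⟩), hFk,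
        fun K hK hlt => hmin K (mem_filter.2 ⟨hK, hlt⟩)⟩
  have hdich : ∀ K ∈ σ, L.rk K.1 ≤ L.rk P ∨ L.rk Q ≤ L.rk K.1 := fun K hK =>
    (lt_or_gt_of_ne (hne K hK)).imp (hPmax K hK) (hQmin K hK)
  refine ⟨P, Q, hP, hQ, ?_, hPk, hQk, fun j hj => ?_, fun K hK => ?_⟩
  · rcases hP with rfl | rfl | ⟨F, hF, rfl⟩
    · exact empty_subset _
    · exact absurd hk (not_lt.2 hPk.le)
    · exact hQ.subset' (hins F hF) (hPk.trans hQk).le
  · obtain ⟨K, hK, rfl⟩ := mem_image.1 hj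
    exact hdich K hK
  · exact (hdich K hK).imp (hP.subset' (hins K hK)) (hQ.subset (hins K hK))

theorem isCone_insert_of_between (hσ : L.fan.IsCone σ) {P Q : Finset α}
    (hPQ : ∀ K ∈ σ, K.1 ⊆ P ∨ Q ⊆ K.1) {G : L.Ray} (hPG : P ⊆ G.1) (hGQ : G.1 ⊆ Q) :
    L.fan.IsCone (insert G σ) :=
  isCone_insert hσ fun K hK =>
    (hPQ K hK).elim (fun h => Or.inl (h.trans hPG)) fun h => Or.inr (hGQ.trans h)

theorem link_nonempty (hσ : L.fan.IsCone σ) {k : ℕ} (hk0 : 0 < k) (hk : k < L.rank)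
    (hkσ : k ∉ L.ranks σ) : (L.link σ k).Nonempty := by
  obtain ⟨P, Q, hP, hQ, hPQ, hPk, hkQ, -, hσPQ⟩ := exists_gap hσ hk0 hk hkσ
  obtain ⟨G, hG, hPG, hGQ, hGk⟩ := L.exists_between hP.closed hQ.closed hPQ k hPk.le hkQ.le
  exact ⟨⟨G, ray_of_rk hG (by omega) (by omega)⟩,
    mem_link.2 ⟨isCone_insert_of_between hσ hσPQ hPG hGQ, hGk⟩⟩

theorem exists_extension (hσ : L.fan.IsCone σ) (h : #σ + 1 < L.rank) :
    ∃ G, G ∉ σ ∧ L.fan.IsCone (insert G σ) := by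
  obtain ⟨k, hk⟩ : (Ico 1 L.rank \ L.ranks σ).Nonempty := card_pos.1 (by
    have := card_missing hσ; omega)
  obtain ⟨hk, hkσ⟩ := mem_sdiff.1 hk
  obtain ⟨hk1, hk2⟩ := mem_Ico.1 hk
  obtain ⟨G, hG⟩ := link_nonempty hσ hk1 hk2 hkσ
  obtain ⟨hG, hGk⟩ := mem_link.1 hG
  exact ⟨G, notMem_of_rk (hGk ▸ hkσ), hG⟩

/-- In a gap the flats just above the lower level are the covers. -/
theorem sum_link_gap (hσ : L.fan.IsCone σ) {P Q : Finset α} (hP : L.IsLevel σ P)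
    (hQ : L.IsLevel σ Q) (hσPQ : ∀ K ∈ σ, K.1 ⊆ P ∨ Q ⊆ K.1) {j : ℕ} (hPj : L.rk P + 1 = j)
    (hjQ : j < L.rk Q) (f : Finset α → ℝ) :
    ∑ G ∈ L.link σ j, f G.1 = ∑ G ∈ L.covers P Q, f G := by
  have hjr := rk_le_rank hQ.closed
  refine sum_bij' (fun G _ => G.1)
    (fun G hG => ⟨G, ray_of_rk (mem_filter.1 hG).2.1 ?_ ?_⟩) (fun G hG => ?_) (fun G hG => ?_)
    (fun _ _ => rfl) (fun _ _ => rfl) fun _ _ => rfl
  · rw [(mem_filter.1 hG).2.2.2.2]; omega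
  · rw [(mem_filter.1 hG).2.2.2.2]; omega
  · obtain ⟨hG, hr⟩ := mem_link.1 hG
    simp only [covers, mem_filter, mem_univ, true_and]
    exact ⟨G.2.1, hP.subset hG (by omega), hQ.subset' hG (by omega), by omega⟩
  · simp only [covers, mem_filter, mem_univ, true_and] at hG
    exact mem_link.2 ⟨isCone_insert_of_between hσ hσPQ hG.2.1 hG.2.2.1, by simp only; omega⟩

/-- The sum of an additive function over the flats just above the lower level of a gap. -/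
theorem sum_gap_additive (hσ : L.fan.IsCone σ) {P Q : Finset α} (hP : L.IsLevel σ P)
    (hQ : L.IsLevel σ Q) (hPQ : P ⊆ Q) (hσPQ : ∀ K ∈ σ, K.1 ⊆ P ∨ Q ⊆ K.1) {j : ℕ}
    (hPj : L.rk P + 1 = j) (hjQ : j < L.rk Q) (z : α → ℝ) :
    ∑ G ∈ L.link σ j, ∑ i ∈ G.1, z i =
      #(L.link σ j) * ∑ i ∈ P, z i + (∑ i ∈ Q, z i - ∑ i ∈ P, z i) := by
  have hcard : (#(L.link σ j) : ℝ) = #(L.covers P Q) := by
    have := sum_link_gap hσ hP hQ hσPQ hPj hjQ fun _ => 1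
    simpa using this
  rw [sum_link_gap hσ hP hQ hσPQ hPj hjQ fun G => ∑ i ∈ G, z i, hcard,
    sum_congr rfl fun G hG => (sum_sdiff (f := z) (mem_filter.1 hG).2.2.1).symm,
    sum_add_distrib, L.sum_covers_eq hP.closed hQ.closed hPQ, sum_const, nsmul_eq_mul,
    ← sum_sdiff (f := z) hPQ]
  ring

omit [Nonempty α] in
theorem IsLevel.sum_eq_zero {P : Finset α} (hP : L.IsLevel σ P) {z : α → ℝ} (hz : ∑ i, z i = 0)
    (h : ∀ F ∈ σ, ∑ i ∈ F.1, z i = 0) : ∑ i ∈ P, z i = 0 := by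
  rcases hP with rfl | rfl | ⟨F, hF, rfl⟩
  exacts [sum_empty, hz, h F hF]

/-- Cap products of weights supported on the chains with given ranks. -/
theorem cap_chains {c : Finset L.Ray → ℝ} (hc : L.fan.IsWeight c) {S : Finset ℕ}
    (hsupp : ∀ τ, c τ ≠ 0 → L.fan.IsCone τ ∧ L.ranks τ = S) (hσ : L.fan.IsCone σ) {u m : L.Ray → ℝ}
    (hm : m ∈ L.linear) (heq : ∀ G ∈ σ, m G = u G) {j : ℕ}
    (hr : L.ranks σ = S.erase j) :
    L.fan.cap u c σ = ∑ G ∈ L.link σ j, c (insert G σ) * (u G - m G) := by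
  rw [RayFan.cap_eq hc hσ hm heq]
  refine (sum_subset (fun G hG => ?_) fun G hG hG' => ?_).symm
  · obtain ⟨-, hGj⟩ := mem_link.1 hG
    exact mem_compl.2 (notMem_of_rk (by rw [hGj, hr]; exact notMem_erase j S))
  · by_contra h
    obtain ⟨hcone, hS⟩ := hsupp _ (left_ne_zero_of_mul h)
    have hne := rk_notMem_ranks (mem_compl.1 hG) hcone
    have hmem : L.rk G.1 ∈ S := by rw [← hS, ranks_insert]; exact mem_insert_self _ _
    rw [hr] at hne
    exact hG' (mem_link.2 ⟨hcone, by by_contra hne'; exact hne (mem_erase.2 ⟨hne', hmem⟩)⟩)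

/-- Cap products of weights supported on chains with given ranks live on the chains with one rank
less. -/
theorem support_cap {c : Finset L.Ray → ℝ} (hc : L.fan.IsWeight c) {S : Finset ℕ}
    (hsupp : ∀ τ, c τ ≠ 0 → L.fan.IsCone τ ∧ L.ranks τ = S) {u : L.Ray → ℝ} {τ : Finset L.Ray}
    (h : L.fan.cap u c τ ≠ 0) : L.fan.IsCone τ ∧ ∃ j ∈ S, L.ranks τ = S.erase j := by
  have hτ : L.fan.IsCone τ := by
    by_contra hτ; exact h (RayFan.cap_of_not hτ)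
  obtain ⟨m, hm, hm'⟩ := L.fan.exists_interp τ hτ u
  rw [RayFan.cap_eq hc hτ hm hm'] at h
  obtain ⟨G, hG, hne⟩ := exists_ne_zero_of_sum_ne_zero h
  obtain ⟨hcone, hS⟩ := hsupp _ (left_ne_zero_of_mul hne)
  refine ⟨hτ, L.rk G.1, ?_, ?_⟩
  · rw [← hS, ranks_insert]; exact mem_insert_self _ _
  · rw [← hS, ranks_insert, erase_insert (rk_notMem_ranks (mem_compl.1 hG) hcone)]

variable (L)

theorem top_supp {τ : Finset L.Ray} (h : L.top τ ≠ 0) :
    L.fan.IsCone τ ∧ L.ranks τ = Ico 1 L.rank := by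
  classical
  obtain ⟨hτ, hcard⟩ : L.fan.IsCone τ ∧ #τ + 1 = L.rank := by
    by_contra h'; exact h (if_neg h')
  refine ⟨hτ, eq_of_subset_of_card_le ranks_subset ?_⟩
  rw [card_ranks hτ, Nat.card_Ico]; omega

theorem top_eq_one {τ : Finset L.Ray} (hτ : L.fan.IsCone τ) (h : #τ + 1 = L.rank) :
    L.top τ = 1 := by
  classical
  exact if_pos ⟨hτ, h⟩

theorem isWeight_top : L.fan.IsWeight L.top := by
  classical
  refine ⟨fun σ hσ => if_neg fun h => hσ h.1, fun σ hσ m hm hm0 => ?_⟩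
  by_cases hcard : #σ + 2 = L.rank
  swap
  · refine sum_eq_zero fun G hG => ?_
    rw [top, if_neg fun h => ?_, zero_mul]
    rw [card_insert_of_notMem (mem_compl.1 hG)] at h
    exact hcard h.2
  obtain ⟨k, hk⟩ := card_eq_one.1 (show #(Ico 1 L.rank \ L.ranks σ) = 1 by
    have := card_missing hσ; omega)
  have hk' : ∀ j, j ∈ Ico 1 L.rank ∧ j ∉ L.ranks σ ↔ j = k := fun j => by
    rw [← mem_sdiff, hk, mem_singleton]
  obtain ⟨hkmem, hkσ⟩ := (hk' k).2 rfl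
  obtain ⟨hk1, hk2⟩ := mem_Ico.1 hkmem
  obtain ⟨P, Q, hP, hQ, hPQ, hPk, hkQ, hdich, hσPQ⟩ := exists_gap hσ hk1 hk2 hkσ
  have hPj : L.rk P + 1 = k := by
    by_contra hne
    rcases hdich (k - 1) (by
      by_contra h
      have := (hk' (k - 1)).1 ⟨mem_Ico.2 ⟨by omega, by omega⟩, h⟩
      omega) with h | h <;> omega
  obtain ⟨x, hx, hmx⟩ := hm
  have hzero : ∀ F ∈ σ, ∑ i ∈ F.1, x i = 0 := fun F hF => by rw [← hmx F, hm0 F hF]
  rw [← sum_subset (s₁ := L.link σ k) (fun G hG => mem_compl.2 (notMem_of_rk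
    ((mem_link.1 hG).2 ▸ hkσ))) fun G hG hG' => ?_]
  · rw [sum_congr rfl fun G hG => by
      rw [L.top_eq_one (mem_link.1 hG).1 (by
        rw [card_insert_of_notMem (notMem_of_rk ((mem_link.1 hG).2 ▸ hkσ))]; omega), one_mul,
        hmx G],
      sum_gap_additive hσ hP hQ hPQ hσPQ hPj hkQ, hP.sum_eq_zero hx hzero,
      hQ.sum_eq_zero hx hzero]
    simp
  · by_contra h
    obtain ⟨hcone, -⟩ := L.top_supp (left_ne_zero_of_mul h)
    exact hG' (mem_link.2 ⟨hcone, (hk' _).1 ⟨mem_Ico.2 ⟨rk_pos G, rk_lt_rank G⟩,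
      rk_notMem_ranks (mem_compl.1 hG) hcone⟩⟩)

/-- Connectivity of the links. -/
theorem link_connected (hσ : L.fan.IsCone σ) (h : #σ + 3 < L.rank) {f : L.Ray → ℝ}
    (hf : ∀ G K, G ∉ σ → K ∉ σ → G ≠ K → L.fan.IsCone (insert G (insert K σ)) → f G = f K)
    {G K : L.Ray} (hG : G ∉ σ) (hK : K ∉ σ) (hGσ : L.fan.IsCone (insert G σ))
    (hKσ : L.fan.IsCone (insert K σ)) : f G = f K := by
  classical
  have heq : ∀ {G K : L.Ray}, L.fan.IsCone (insert G σ) → L.fan.IsCone (insert K σ) → G ∉ σ →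
      K ∉ σ → (G.1 ⊆ K.1 ∨ K.1 ⊆ G.1) → f G = f K := by
    intro G K hG hK hGσ hKσ hc
    by_cases e : G = K
    · rw [e]
    refine hf G K hGσ hKσ e (isCone_insert hK fun A hA => ?_)
    rcases mem_insert.1 hA with rfl | hA
    exacts [hc.symm, comparable_of_insert hG hA]
  have hmiss := rk_notMem_ranks hG hGσ
  obtain ⟨P, Q, hP, hQ, hPQ, hPk, hkQ, hdich, hσPQ⟩ :=
    exists_gap hσ (rk_pos G) (rk_lt_rank G) hmiss
  have hQr := rk_le_rank hQ.closed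
  have hcomp : ∀ {A B : L.Ray}, L.fan.IsCone (insert A σ) → L.fan.IsCone (insert B σ) →
      L.rk P ≤ L.rk A.1 → L.rk A.1 ≤ L.rk Q → L.rk B.1 ≤ L.rk P ∨ L.rk Q ≤ L.rk B.1 →
        A.1 ⊆ B.1 ∨ B.1 ⊆ A.1 := fun {A B} hA hB h1 h2 h3 => by
    rcases h3 with h3 | h3
    · exact Or.inr ((hP.subset' hB h3).trans (hP.subset hA h1))
    · exact Or.inl ((hQ.subset' hA h2).trans (hQ.subset hB h3))
  by_cases hKgap : L.rk P < L.rk K.1 ∧ L.rk K.1 < L.rk Q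
  swap
  · exact heq hGσ hKσ hG hK (hcomp hGσ hKσ hPk.le hkQ.le (by omega))
  by_cases hw : L.rk P + 3 ≤ L.rk Q
  · have hatom : ∀ A : L.Ray, A ∉ σ → L.fan.IsCone (insert A σ) → L.rk P < L.rk A.1 →
        L.rk A.1 < L.rk Q → ∃ a : L.Ray, L.rk a.1 = L.rk P + 1 ∧ P ⊆ a.1 ∧ a.1 ⊆ Q ∧
          a ∉ σ ∧ L.fan.IsCone (insert a σ) ∧ f A = f a := by
      intro A hA hAσ h1 h2
      obtain ⟨a, ha, hPa, haA, har⟩ := L.exists_between hP.closed A.2.1
        (hP.subset hAσ h1.le) (L.rk P + 1) (Nat.le_succ _) h1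
      have haQ : a ⊆ Q := haA.trans (hQ.subset' hAσ h2.le)
      obtain ⟨a', rfl⟩ : ∃ a' : L.Ray, a'.1 = a :=
        ⟨⟨a, ray_of_rk ha (by omega) (by omega)⟩, rfl⟩
      have hnot : a' ∉ σ := notMem_of_rk fun hj => by
        rcases hdich _ hj with h | h <;> omega
      have hcone := isCone_insert_of_between hσ hσPQ hPa haQ
      exact ⟨a', har, hPa, haQ, hnot, hcone, heq hAσ hcone hA hnot (Or.inr haA)⟩
    obtain ⟨a, har, hPa, haQ, ha, haσ, hfa⟩ := hatom G hG hGσ hPk hkQ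
    obtain ⟨b, hbr, hPb, hbQ, hb, hbσ, hfb⟩ := hatom K hK hKσ hKgap.1 hKgap.2
    rw [hfa, hfb]
    by_cases e : b.1 ⊆ a.1
    · exact heq haσ hbσ ha hb (Or.inr e)
    obtain ⟨i, hib, hia⟩ := not_subset.1 e
    have hiP : i ∉ P := fun hi => hia (hPa hi)
    obtain ⟨J, hJ⟩ : ∃ J : L.Ray, J.1 = L.cl (insert i a.1) :=
      ⟨⟨_, ray_of_rk (L.cl_cl _) (by rw [L.rk_cl_insert a.2.1 hia]; omega)
        (by rw [L.rk_cl_insert a.2.1 hia]; omega)⟩, rfl⟩
    have hJr : L.rk J.1 = L.rk P + 2 := by rw [hJ, L.rk_cl_insert a.2.1 hia, har]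
    have haJ : a.1 ⊆ J.1 := hJ ▸ (subset_insert i a.1).trans (L.subset_cl _)
    have hbJ : b.1 ⊆ J.1 := by
      rw [hJ, ← L.cl_insert_eq hP.closed b.2.1 hPb hbr hib hiP]
      exact L.cl_mono (insert_subset_insert i hPa)
    have hJQ : J.1 ⊆ Q := by
      rw [hJ, ← hQ.closed]
      exact L.cl_mono (insert_subset (hbQ hib) haQ)
    have hnot : J ∉ σ := notMem_of_rk fun hj => by
      rcases hdich _ hj with h | h <;> omega
    have hJσ := isCone_insert_of_between hσ hσPQ (hPa.trans haJ) hJQ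
    exact (heq haσ hJσ ha hnot (Or.inl haJ)).trans (heq hbσ hJσ hb hnot (Or.inl hbJ)).symm
  · obtain ⟨j, hj⟩ : ((Ico 1 L.rank \ L.ranks σ).erase (L.rk G.1)).Nonempty := card_pos.1 (by
      rw [card_erase_of_mem (mem_sdiff.2
        ⟨mem_Ico.2 ⟨Nat.one_le_iff_ne_zero.2 (rk_pos G).ne', rk_lt_rank G⟩, hmiss⟩)]
      have := card_missing hσ
      omega)
    obtain ⟨hjk, hj⟩ := mem_erase.1 hj
    obtain ⟨hj, hjσ⟩ := mem_sdiff.1 hj
    obtain ⟨hj1, hj2⟩ := mem_Ico.1 hj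
    obtain ⟨H, hH⟩ := link_nonempty hσ hj1 hj2 hjσ
    obtain ⟨hH, hHj⟩ := mem_link.1 hH
    have hHnot : H ∉ σ := notMem_of_rk (hHj ▸ hjσ)
    exact (heq hGσ hH hG hHnot (hcomp hGσ hH hPk.le hkQ.le (by omega))).trans
      (heq hKσ hH hK hHnot (hcomp hKσ hH hKgap.1.le hKgap.2.le (by omega))).symm

/-- Piecewise linear functions bounded below by their interpolations, plus `ε |G| (n - |G|)`, are
ample. -/
theorem isAmple_add {u : L.Ray → ℝ}
    (hu : ∀ σ, L.fan.IsCone σ → ∃ m ∈ L.linear, (∀ G ∈ σ, m G = u G) ∧ ∀ G, m G ≤ u G)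
    {ε : ℝ} (hε : 0 < ε) :
    L.fan.IsAmple fun G => u G + ε * (#G.1 * ((Fintype.card α : ℝ) - #G.1)) := by
  intro σ hσ
  obtain ⟨m, hm, hm', hle⟩ := hu σ hσ
  obtain ⟨t, ht, ht', hlt⟩ := L.exists_linear σ hσ
    (fun K => (#K : ℝ) * ((Fintype.card α : ℝ) - #K)) (by simp)
  refine ⟨m + ε • t, add_mem hm (Submodule.smul_mem _ ε ht), fun G hG => ?_,
    fun G hG hGσ => ?_⟩
  · simp [hm' G hG, ht' G hG]
  · simp only [Pi.add_apply, Pi.smul_apply, smul_eq_mul]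
    have h := hlt (fun _ => rfl) G hG fun K hK => comparable_of_insert hGσ hK
    have := mul_lt_mul_of_pos_left h hε
    linarith [hle G]

end FA.MatroidLogConcave.FlatLattice
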