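import Fermat.Agent.MatroidLogConcave.Bergman

/-!
# The Alexandrov–Fenchel inequality in the Bergman fan

In codimension two the pairing is either a product of two sums, or comes from the incidence
between points and lines of a geometric lattice of rank three; both are negative on a hyperplane.
-/

set_option autoImplicit false

noncomputable section

namespace FA.MatroidLogConcave

open Finset

/-- Two points lie on one line: the pairing is negative where the sum over the points vanishes. -/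
theorem incidence_form_le {ι : Type*} [DecidableEq ι] (A B : Finset ι) (R : ι → ι → Prop)
    [∀ a b, Decidable (R a b)]
    (h : ∀ p ∈ A, ∀ p' ∈ A, p ≠ p' → #(B.filter fun q => R p q ∧ R p' q) = 1) (u : ι → ℝ)
    (hu : ∑ p ∈ A, u p = 0) :
    ∑ p ∈ A, ((∑ q ∈ B.filter (R p), u q) - ((#(B.filter (R p)) : ℝ) - 1) * u p) * u p +
      ∑ q ∈ B, ((∑ p ∈ A.filter (fun p => R p q), u p) - u q) * u q ≤ 0 := by
  have hcross : ∑ q ∈ B, (∑ p ∈ A.filter (fun p => R p q), u p) * u q =
      ∑ p ∈ A, (∑ q ∈ B.filter (R p), u q) * u p := by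
    simp only [sum_mul, sum_filter, ite_mul, zero_mul]
    rw [sum_comm]
    exact sum_congr rfl fun p _ => sum_congr rfl fun q _ => by split <;> ring
  have hsq : ∑ q ∈ B, (∑ p ∈ A.filter (fun p => R p q), u p) ^ 2 =
      ∑ p ∈ A, ((#(B.filter (R p)) : ℝ) - 1) * u p * u p := by
    have e : ∀ p ∈ A, ∀ p' ∈ A,
        ∑ q ∈ B, (if R p q ∧ R p' q then u p * u p' else 0) =
          u p * u p' + if p = p' then ((#(B.filter (R p)) : ℝ) - 1) * u p * u p' else 0 := by
      intro p hp p' hp'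
      rw [← sum_filter, sum_const, nsmul_eq_mul]
      by_cases e : p = p'
      · subst e; simp only [and_self, if_true]; ring
      · rw [h p hp p' hp' e, if_neg e]; simp
    calc ∑ q ∈ B, (∑ p ∈ A.filter (fun p => R p q), u p) ^ 2
        = ∑ q ∈ B, ∑ p ∈ A, ∑ p' ∈ A, if R p q ∧ R p' q then u p * u p' else 0 :=
          sum_congr rfl fun q _ => by
            rw [sq, sum_filter, sum_mul_sum]
            refine sum_congr rfl fun p _ => sum_congr rfl fun p' _ => ?_
            by_cases h1 : R p q <;> by_cases h2 : R p' q <;> simp [h1, h2]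
      _ = ∑ p ∈ A, ∑ p' ∈ A, ∑ q ∈ B, if R p q ∧ R p' q then u p * u p' else 0 := by
          rw [sum_comm]; exact sum_congr rfl fun p _ => sum_comm
      _ = _ := sum_congr rfl fun p hp => by
          rw [sum_congr rfl fun p' hp' => e p hp p' hp', sum_add_distrib, ← mul_sum, hu,
            sum_ite_eq, if_pos hp]
          ring
  have h0 : 0 ≤ ∑ q ∈ B, ((∑ p ∈ A.filter (fun p => R p q), u p) - u q) ^ 2 :=
    sum_nonneg fun q _ => sq_nonneg _
  have h1 : ∑ q ∈ B, ((∑ p ∈ A.filter (fun p => R p q), u p) - u q) ^ 2 =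
      ∑ q ∈ B, (∑ p ∈ A.filter (fun p => R p q), u p) ^ 2 -
        2 * ∑ q ∈ B, (∑ p ∈ A.filter (fun p => R p q), u p) * u q + ∑ q ∈ B, u q * u q := by
    rw [mul_sum, ← sum_sub_distrib, ← sum_add_distrib]
    exact sum_congr rfl fun q _ => by ring
  simp only [sub_mul, sum_sub_distrib] at hsq ⊢
  rw [h1, hcross] at h0
  rw [hcross]
  linarith

namespace FlatLattice

variable {α : Type*} [Fintype α] [DecidableEq α] [Nonempty α] {L : FlatLattice α}
  {σ : Finset L.Ray}

omit [Nonempty α] in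
theorem IsLevel.rk_mem {P : Finset α} (hP : L.IsLevel σ P) :
    L.rk P = 0 ∨ L.rk P = L.rank ∨ L.rk P ∈ L.ranks σ := by
  rcases hP with rfl | rfl | ⟨F, hF, rfl⟩
  exacts [Or.inl L.rk_empty, Or.inr (Or.inl rfl), Or.inr (Or.inr (mem_image_of_mem _ hF))]

omit [Nonempty α] in
variable (L) in
/-- A linear function with values `1` and `-1` at flats containing exactly one of two elements. -/
theorem pair_mem_linear (a b : α) (c : ℝ) :
    (fun K : L.Ray => c * ((if a ∈ K.1 then 1 else 0) - if b ∈ K.1 then 1 else 0)) ∈ L.linear := by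
  refine ⟨fun i => c * ((if i = a then 1 else 0) - if i = b then 1 else 0), ?_, fun G => ?_⟩
  · rw [← mul_sum, sum_sub_distrib]; simp
  · rw [← mul_sum, sum_sub_distrib]; simp

omit [Nonempty α] in
theorem exists_pair {G : L.Ray} {P Q : Finset α}
    (hPG : P ⊆ G.1) (hGQ : G.1 ⊆ Q) (h1 : L.rk P < L.rk G.1) (h2 : L.rk G.1 < L.rk Q) :
    ∃ a b : α, a ∈ G.1 ∧ a ∉ P ∧ b ∈ Q ∧ b ∉ G.1 := by
  obtain ⟨a, ha, ha'⟩ := exists_of_ssubset
    (lt_of_le_of_ne hPG fun e => absurd h1 (by rw [e]; exact lt_irrefl _) : P ⊂ G.1)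
  obtain ⟨b, hb, hb'⟩ := exists_of_ssubset
    (lt_of_le_of_ne hGQ fun e => absurd h2 (by rw [e]; exact lt_irrefl _) : G.1 ⊂ Q)
  exact ⟨a, b, ha, ha', hb, hb'⟩

open scoped Classical in
/-- The row of the pairing at `G`. -/
theorem cap_top_insert {u : L.Ray → ℝ} (hu : ∀ F ∈ σ, u F = 0)
    (hr : #σ + 3 = L.rank) {G : L.Ray} {j l : ℕ} (hG : G ∈ L.link σ j) (hjl : j ≠ l)
    (hmiss : Ico 1 L.rank \ L.ranks σ = {j, l}) {P Q : Finset α} (hPG : P ⊆ G.1)
    (hσPQ : ∀ K ∈ σ, K.1 ⊆ P ∨ Q ⊆ K.1) {a b : α} (ha : a ∈ G.1) (ha' : a ∉ P) (hb : b ∈ Q)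
    (hb' : b ∉ G.1) (haQ : a ∈ Q) :
    L.fan.cap u L.top (insert G σ) =
      ∑ K ∈ (L.link σ l).filter (fun K => G.1 ⊆ K.1 ∨ K.1 ⊆ G.1),
        (u K - u G * ((if a ∈ K.1 then 1 else 0) - if b ∈ K.1 then 1 else 0)) := by
  obtain ⟨hcone, hGj⟩ := mem_link.1 hG
  have hmem : ∀ i, i ∈ Ico 1 L.rank ∧ i ∉ L.ranks σ ↔ i = j ∨ i = l := fun i => by
    rw [← mem_sdiff, hmiss, mem_insert, mem_singleton]
  obtain ⟨hj, hjσ⟩ := (hmem j).2 (Or.inl rfl)
  obtain ⟨hl, hlσ⟩ := (hmem l).2 (Or.inr rfl)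
  have hGσ : G ∉ σ := notMem_of_rk (hGj ▸ hjσ)
  rw [cap_chains L.isWeight_top (fun τ h => L.top_supp h) hcone
    (m := fun K => u G * ((if a ∈ K.1 then 1 else 0) - if b ∈ K.1 then 1 else 0))
    (L.pair_mem_linear a b (u G)) (fun K hK => ?_) (j := l) ?_]
  · refine sum_congr ?_ fun K hK => ?_
    · ext K
      rw [mem_link, mem_filter, mem_link]
      constructor
      · rintro ⟨h1, h2⟩
        exact ⟨⟨L.fan.cone_down (insert_subset_insert _ (subset_insert _ _)) h1, h2⟩,
          comparable_of_insert h1 (mem_insert_self _ _)⟩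
      · rintro ⟨⟨h1, h2⟩, h3⟩
        refine ⟨isCone_insert hcone fun A hA => ?_, h2⟩
        rcases mem_insert.1 hA with rfl | hA
        exacts [h3, comparable_of_insert h1 hA]
    · obtain ⟨hK, hKl⟩ := mem_filter.1 hK
      obtain ⟨hK, hKl'⟩ := mem_link.1 hK
      rw [L.top_eq_one, one_mul]
      · refine isCone_insert hcone fun A hA => ?_
        rcases mem_insert.1 hA with rfl | hA
        exacts [hKl, comparable_of_insert hK hA]
      · rw [card_insert_of_notMem, card_insert_of_notMem hGσ]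
        · omega
        · rw [mem_insert, not_or]
          exact ⟨fun e => hjl (by rw [← hGj, ← hKl', e]), notMem_of_rk (hKl' ▸ hlσ)⟩
  · rw [ranks_insert, hGj]
    ext i
    rw [mem_insert, mem_erase]
    constructor
    · rintro (rfl | hi)
      · exact ⟨hjl, hj⟩
      · exact ⟨fun e => hlσ (e ▸ hi), ranks_subset hi⟩
    · rintro ⟨hil, hi⟩
      by_contra hcon
      rw [not_or] at hcon
      exact ((hmem i).1 ⟨hi, hcon.2⟩).elim hcon.1 hil
  · rcases mem_insert.1 hK with rfl | hK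
    · simp [ha, hb']
    · rw [hu K hK]
      rcases hσPQ K hK with h | h
      · rw [if_neg fun hh => ha' (h hh), if_neg fun hh => hb' (hPG (h hh))]; simp
      · simp [h haQ, h hb]

open scoped Classical in
/-- The pairing in codimension two is negative on a hyperplane. -/
theorem hyperplane_top (hσ : L.fan.IsCone σ) (hr : #σ + 3 = L.rank) :
    ∃ ℓ : L.Ray → ℝ, ∀ u : L.Ray → ℝ, (∀ G ∈ σ, u G = 0) →
      (∀ G, G ∉ σ → ¬L.fan.IsCone (insert G σ) → u G = 0) → ∑ G, ℓ G * u G = 0 →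
        L.fan.cap u (L.fan.cap u L.top) σ ≤ 0 := by
  obtain ⟨k, l, hkl, hmiss⟩ : ∃ k l, k < l ∧ Ico 1 L.rank \ L.ranks σ = {k, l} := by
    obtain ⟨k, l, hne, e⟩ := card_eq_two.1 (show #(Ico 1 L.rank \ L.ranks σ) = 2 by
      have := card_missing hσ; omega)
    rcases lt_or_gt_of_ne hne with h | h
    exacts [⟨k, l, h, e⟩, ⟨l, k, h, e.trans (pair_comm k l)⟩]
  have hmem : ∀ i, i ∈ Ico 1 L.rank ∧ i ∉ L.ranks σ ↔ i = k ∨ i = l := fun i => by
    rw [← mem_sdiff, hmiss, mem_insert, mem_singleton]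
  obtain ⟨hk, hkσ⟩ := (hmem k).2 (Or.inl rfl)
  obtain ⟨hl, hlσ⟩ := (hmem l).2 (Or.inr rfl)
  obtain ⟨hk1, hk2⟩ := mem_Ico.1 hk
  obtain ⟨hl1, hl2⟩ := mem_Ico.1 hl
  have hother : ∀ i, 1 ≤ i → i < L.rank → i ≠ k → i ≠ l → i ∈ L.ranks σ := fun i h1 h2 h3 h4 => by
    by_contra h
    exact ((hmem i).1 ⟨mem_Ico.2 ⟨h1, h2⟩, h⟩).elim h3 h4
  obtain ⟨P, Q, hP, hQ, hPQ, hPk, hkQ, hdich, hσPQ⟩ := exists_gap hσ hk1 hk2 hkσ
  have hP1 : L.rk P + 1 = k := by
    by_contra hne
    rcases hdich _ (hother (k - 1) (by omega) (by omega) (by omega) (by omega)) with h | h <;>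
      omega
  have hQr := rk_le_rank hQ.closed
  have hdisj : Disjoint (L.link σ k) (L.link σ l) := disjoint_left.2 fun G h1 h2 =>
    hkl.ne ((mem_link.1 h1).2.symm.trans (mem_link.1 h2).2)
  refine ⟨fun G => if k + 1 < l ∨ L.rk G.1 = k then 1 else 0, fun u hu hoff hℓ => ?_⟩
  have hsplit : ∀ (f : L.Ray → ℝ) (T : Finset L.Ray), (∀ G, G ∉ σ → G ∈ T) →
      (∀ G, u G = 0 → f G = 0) →
      ∑ G ∈ T, f G = ∑ G ∈ L.link σ k, f G + ∑ G ∈ L.link σ l, f G := by
    intro f T hT hf
    rw [← sum_union hdisj]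
    refine (sum_subset (fun G hG => hT G ?_) fun G _ hG => hf G ?_).symm
    · rcases mem_union.1 hG with h | h <;> exact notMem_of_rk ((mem_link.1 h).2 ▸ ‹_›)
    · by_cases h : G ∈ σ
      · exact hu G h
      refine hoff G h fun hc => hG ?_
      rcases (hmem _).1 ⟨mem_Ico.2 ⟨rk_pos G, rk_lt_rank G⟩, rk_notMem_ranks h hc⟩ with e | e
      exacts [mem_union_left _ (mem_link.2 ⟨hc, e⟩), mem_union_right _ (mem_link.2 ⟨hc, e⟩)]
  rw [RayFan.cap_of_vanish (L.isWeight_top.cap u) hσ hu,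
    hsplit _ _ (fun G hG => mem_compl.2 hG) fun G h => by rw [h, mul_zero]]
  rw [hsplit _ _ (fun G _ => mem_univ G) fun G h => by rw [h, mul_zero]] at hℓ
  simp only at hℓ
  by_cases hcase : k + 1 < l
  · simp only [hcase, true_or, if_true, one_mul] at hℓ
    obtain ⟨P', Q', hP', hQ', -, hPl, hlQ, hdich', hσPQ'⟩ := exists_gap hσ hl1 hl2 hlσ
    have hsucc := hother (k + 1) (by omega) (by omega) (by omega) (by omega)
    have hQk : L.rk Q = k + 1 := by rcases hdich _ hsucc with h | h <;> omega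
    have hPk' : k + 1 ≤ L.rk P' := by rcases hdich' _ hsucc with h | h <;> omega
    have h1 : ∀ G ∈ L.link σ k,
        L.fan.cap u L.top (insert G σ) = ∑ K ∈ L.link σ l, u K := fun G hG => by
      obtain ⟨hc, hr'⟩ := mem_link.1 hG
      have hPG := hP.subset hc (by omega)
      have hGQ := hQ.subset' hc (by omega)
      obtain ⟨a, b, ha, ha', hb, hb'⟩ := exists_pair hPG hGQ (by omega)
        (by omega)
      rw [cap_top_insert hu hr hG hkl.ne hmiss hPG hσPQ ha ha' hb hb' (hGQ ha),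
        filter_true_of_mem fun K hK => ?_]
      · refine sum_congr rfl fun K hK => ?_
        obtain ⟨hcK, hKl⟩ := mem_link.1 hK
        have hQK := hQ.subset hcK (by omega)
        simp [hQK (hGQ ha), hQK hb]
      · obtain ⟨hcK, hKl⟩ := mem_link.1 hK
        exact Or.inl (hGQ.trans (hQ.subset hcK (by omega)))
    have h2 : ∀ G ∈ L.link σ l,
        L.fan.cap u L.top (insert G σ) = ∑ K ∈ L.link σ k, u K := fun G hG => by
      obtain ⟨hc, hr'⟩ := mem_link.1 hG
      have hPG := hP'.subset hc (by omega)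
      have hGQ := hQ'.subset' hc (by omega)
      obtain ⟨a, b, ha, ha', hb, hb'⟩ := exists_pair hPG hGQ (by omega)
        (by omega)
      rw [cap_top_insert hu hr hG hkl.ne' (hmiss.trans (pair_comm k l)) hPG hσPQ' ha ha' hb
        hb' (hGQ ha), filter_true_of_mem fun K hK => ?_]
      · refine sum_congr rfl fun K hK => ?_
        obtain ⟨hcK, hKk⟩ := mem_link.1 hK
        have hKP := hP'.subset' hcK (by omega)
        rw [if_neg fun h => ha' (hKP h), if_neg fun h => hb' (hPG (hKP h))]; simp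
      · obtain ⟨hcK, hKk⟩ := mem_link.1 hK
        exact Or.inr ((hP'.subset' hcK (by omega)).trans hPG)
    have e1 : ∑ G ∈ L.link σ k, L.fan.cap u L.top (insert G σ) * u G =
        (∑ K ∈ L.link σ l, u K) * ∑ G ∈ L.link σ k, u G := by
      rw [mul_sum]; exact sum_congr rfl fun G hG => by rw [h1 G hG]
    have e2 : ∑ G ∈ L.link σ l, L.fan.cap u L.top (insert G σ) * u G =
        (∑ K ∈ L.link σ k, u K) * ∑ G ∈ L.link σ l, u G := by
      rw [mul_sum]; exact sum_congr rfl fun G hG => by rw [h2 G hG]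
    rw [e1, e2, eq_neg_of_add_eq_zero_left hℓ]
    nlinarith [sq_nonneg (∑ G ∈ L.link σ l, u G)]
  · have hlk : l = k + 1 := by omega
    subst hlk
    have hQk : L.rk Q = k + 2 := by
      have h1 : k + 1 < L.rk Q := by
        rcases hQ.rk_mem with h | h | h
        · omega
        · omega
        · by_contra hcon
          exact hlσ (by rwa [show L.rk Q = k + 1 by omega] at h)
      by_contra hne
      rcases hdich _ (hother (k + 2) (by omega) (by omega) (by omega) (by omega)) with h | h <;>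
        omega
    have hu0 : ∑ p ∈ L.link σ k, u p = 0 := by
      rw [← hℓ, ← add_zero (∑ p ∈ L.link σ k, u p)]
      refine congrArg₂ (· + ·) (sum_congr rfl fun G hG => ?_) (sum_eq_zero fun G hG => ?_).symm
      · rw [if_pos (Or.inr (mem_link.1 hG).2), one_mul]
      · rw [if_neg, zero_mul]
        rw [(mem_link.1 hG).2]
        omega
    have hbetw : ∀ {G : L.Ray} {i : ℕ}, G ∈ L.link σ i → k ≤ i → i ≤ k + 1 →
        P ⊆ G.1 ∧ G.1 ⊆ Q ∧ L.rk G.1 = i := fun {G i} hG h1 h2 => by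
      obtain ⟨hc, hi⟩ := mem_link.1 hG
      exact ⟨hP.subset hc (by omega), hQ.subset' hc (by omega), hi⟩
    have hlink : ∀ {A : Finset α}, L.cl A = A → P ⊆ A → A ⊆ Q → ∀ i, k ≤ i → i ≤ k + 1 →
        L.rk A = i → ∃ K ∈ L.link σ i, K.1 = A := fun {A} hA h1 h2 i hi hi' hr' =>
      ⟨⟨A, ray_of_rk hA (by omega) (by omega)⟩,
        mem_link.2 ⟨isCone_insert_of_between hσ hσPQ h1 h2, hr'⟩, rfl⟩
    -- the row of a point
    have h1 : ∀ p ∈ L.link σ k, L.fan.cap u L.top (insert p σ) =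
        (∑ q ∈ (L.link σ (k + 1)).filter (fun q => p.1 ⊆ q.1), u q) -
          ((#((L.link σ (k + 1)).filter fun q => p.1 ⊆ q.1) : ℝ) - 1) * u p := fun p hp => by
      obtain ⟨hPp, hpQ, hpk⟩ := hbetw hp le_rfl (Nat.le_succ k)
      obtain ⟨a, b, ha, ha', hb, hb'⟩ := exists_pair hPp hpQ (by omega)
        (by omega)
      have hfilter : (L.link σ (k + 1)).filter (fun q => p.1 ⊆ q.1 ∨ q.1 ⊆ p.1) =
          (L.link σ (k + 1)).filter fun q => p.1 ⊆ q.1 := filter_congr fun q hq => by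
        refine or_iff_left fun h => ?_
        have := L.rk_le_of_subset q.2.1 p.2.1 h
        have := (hbetw hq (Nat.le_succ k) le_rfl).2.2
        omega
      have hone : (((L.link σ (k + 1)).filter fun q => p.1 ⊆ q.1).filter fun q => b ∈ q.1).card
          = 1 := by
        obtain ⟨q, hq, hq'⟩ := hlink (L.cl_cl (insert b p.1))
          (hPp.trans ((subset_insert b p.1).trans (L.subset_cl _)))
          (hQ.closed ▸ L.cl_mono (insert_subset hb hpQ)) (k + 1) (Nat.le_succ k) le_rfl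
          (by rw [L.rk_cl_insert p.2.1 hb', hpk])
        refine card_eq_one.2 ⟨q, ?_⟩
        ext K
        simp only [mem_filter, mem_singleton]
        constructor
        · rintro ⟨⟨hK, hpK⟩, hbK⟩
          refine Subtype.ext ((L.cl_insert_eq p.2.1 K.2.1 hpK ?_ hbK hb').symm.trans hq'.symm)
          rw [(hbetw hK (Nat.le_succ k) le_rfl).2.2, hpk]
        · rintro rfl
          rw [hq']
          exact ⟨⟨hq, (subset_insert b p.1).trans (L.subset_cl _)⟩,
            L.subset_cl _ (mem_insert_self _ _)⟩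
      rw [cap_top_insert hu hr hp hkl.ne hmiss hPp hσPQ ha ha' hb hb' (hpQ ha), hfilter,
        sum_congr rfl fun q hq => by rw [if_pos ((mem_filter.1 hq).2 ha)],
        sum_sub_distrib, ← mul_sum, sum_sub_distrib, sum_boole, hone]
      simp [mul_comm]
    -- the row of a line
    have h2 : ∀ q ∈ L.link σ (k + 1), L.fan.cap u L.top (insert q σ) =
        (∑ p ∈ (L.link σ k).filter (fun p => p.1 ⊆ q.1), u p) - u q := fun q hq => by
      obtain ⟨hPq, hqQ, hqk⟩ := hbetw hq (Nat.le_succ k) le_rfl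
      obtain ⟨a, b, ha, ha', hb, hb'⟩ := exists_pair hPq hqQ (by omega)
        (by omega)
      have hfilter : (L.link σ k).filter (fun p => q.1 ⊆ p.1 ∨ p.1 ⊆ q.1) =
          (L.link σ k).filter fun p => p.1 ⊆ q.1 := filter_congr fun p hp => by
        refine or_iff_right fun h => ?_
        have := L.rk_le_of_subset q.2.1 p.2.1 h
        have := (hbetw hp le_rfl (Nat.le_succ k)).2.2
        omega
      have hone : (((L.link σ k).filter fun p => p.1 ⊆ q.1).filter fun p => a ∈ p.1).card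
          = 1 := by
        have hsub : L.cl (insert a P) ⊆ q.1 :=
          q.2.1 ▸ L.cl_mono (insert_subset ha hPq)
        obtain ⟨p, hp, hp'⟩ := hlink (L.cl_cl (insert a P))
          ((subset_insert a P).trans (L.subset_cl _)) (hsub.trans hqQ) k le_rfl (Nat.le_succ k)
          (by rw [L.rk_cl_insert hP.closed ha', hP1])
        refine card_eq_one.2 ⟨p, ?_⟩
        ext K
        simp only [mem_filter, mem_singleton]
        constructor
        · rintro ⟨⟨hK, -⟩, haK⟩
          obtain ⟨hPK, -, hKk⟩ := hbetw hK le_rfl (Nat.le_succ k)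
          refine Subtype.ext ((L.cl_insert_eq hP.closed K.2.1 hPK ?_ haK ha').symm.trans hp'.symm)
          rw [hKk, hP1]
        · rintro rfl
          rw [hp']
          exact ⟨⟨hp, hsub⟩, L.subset_cl _ (mem_insert_self _ _)⟩
      rw [cap_top_insert hu hr hq hkl.ne' (hmiss.trans (pair_comm _ _)) hPq hσPQ ha ha' hb hb'
        (hqQ ha), hfilter,
        sum_congr rfl fun p hp => by rw [if_neg fun h => hb' ((mem_filter.1 hp).2 h), sub_zero],
        sum_sub_distrib, ← mul_sum, sum_boole, hone]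
      simp
    rw [sum_congr rfl fun G hG => by rw [h1 G hG],
      sum_congr (s₁ := L.link σ (k + 1)) rfl fun G hG => by rw [h2 G hG]]
    refine incidence_form_le (L.link σ k) (L.link σ (k + 1)) (fun p q => p.1 ⊆ q.1)
      (fun p hp p' hp' hne => ?_) u hu0
    obtain ⟨hPp, hpQ, hpk⟩ := hbetw hp le_rfl (Nat.le_succ k)
    obtain ⟨hPp', hpQ', hpk'⟩ := hbetw hp' le_rfl (Nat.le_succ k)
    obtain ⟨i, hi', hi⟩ := not_subset.1 fun h : p'.1 ⊆ p.1 => hne
      (eq_of_rk_eq (Or.inr h) (hpk.trans hpk'.symm))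
    obtain ⟨q, hq, hq'⟩ := hlink (L.cl_cl (insert i p.1))
      (hPp.trans ((subset_insert i p.1).trans (L.subset_cl _)))
      (hQ.closed ▸ L.cl_mono (insert_subset (hpQ' hi') hpQ)) (k + 1) (Nat.le_succ k) le_rfl
      (by rw [L.rk_cl_insert p.2.1 hi, hpk])
    refine card_eq_one.2 ⟨q, ?_⟩
    ext K
    simp only [mem_filter, mem_singleton]
    constructor
    · rintro ⟨hK, hpK, hpK'⟩
      refine Subtype.ext ((L.cl_insert_eq p.2.1 K.2.1 hpK ?_ (hpK' hi') hi).symm.trans hq'.symm)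
      rw [(hbetw hK (Nat.le_succ k) le_rfl).2.2, hpk]
    · rintro rfl
      rw [hq']
      refine ⟨hq, (subset_insert i p.1).trans (L.subset_cl _), ?_⟩
      rw [← L.cl_insert_eq hP.closed p'.2.1 hPp' (hpk'.trans hP1.symm) hi' fun h => hi (hPp h)]
      exact L.cl_mono (insert_subset_insert i hPp)

variable (L) in
/-- **The Alexandrov–Fenchel inequality in the Bergman fan.** -/
theorem alexandrov_fenchel (Ls : List (L.Ray → ℝ)) (hLs : ∀ f ∈ Ls, L.fan.IsAmple f)
    (hlen : Ls.length + 3 = L.rank) {W : L.Ray → ℝ} (hW : L.fan.IsAmple W) (v : L.Ray → ℝ) :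
    L.fan.cap v (L.fan.cap v (L.fan.capList L.top Ls)) ∅ *
        L.fan.cap W (L.fan.cap W (L.fan.capList L.top Ls)) ∅ ≤
      L.fan.cap W (L.fan.cap v (L.fan.capList L.top Ls)) ∅ ^ 2 := by
  refine RayFan.alexandrov_fenchel L.isWeight_top (d := L.rank - 1)
    (fun σ hσ h => by rw [L.top_eq_one hσ (by omega)]; exact one_pos)
    (fun σ hσ h => exists_extension hσ (by omega))
    (fun σ hσ h f hf G K hG hK hGσ hKσ => L.link_connected hσ (by omega) hf hG hK hGσ hKσ)
    (fun σ hσ h => hyperplane_top hσ (by omega)) Ls hLs ∅ ?_ ?_ W hW v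
  · exact fun F hF => absurd hF (notMem_empty F)
  · rw [card_empty]; omega

end FlatLattice

end FA.MatroidLogConcave
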