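import Fermat.Agent.MatroidLogConcave.CodimTwo
import Mathlib.Data.Nat.Choose.Sum
import Mathlib.Topology.Order.Real

/-!
# Degrees of the products of `α` and `β`

`deg (α ^ a β ^ b)` is the alternating sum over the sets of rank at most `b`; the
Alexandrov–Fenchel inequality makes it log-concave in `b`.
-/

set_option autoImplicit false

noncomputable section

namespace FA.MatroidLogConcave.FlatLattice

open Finset

variable {α : Type*} [Fintype α] [DecidableEq α] (L : FlatLattice α)

/-- The flats of rank `b` inside a set. -/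
def flatsBelow (Q : Finset α) (b : ℕ) : Finset (Finset α) :=
  univ.filter fun G => L.cl G = G ∧ G ⊆ Q ∧ L.rk G = b

/-- The alternating sum over the subsets of rank at most `b`, with sign `(-1) ^ b`. -/
def bal (Q : Finset α) (b : ℕ) : ℤ :=
  (-1) ^ b * ∑ A ∈ Q.powerset.filter (fun A => L.rk (L.cl A) ≤ b), (-1) ^ #A

variable {L} {Q : Finset α}

theorem cl_subset_of_subset {A : Finset α} (hQ : L.cl Q = Q) (h : A ⊆ Q) : L.cl A ⊆ Q :=
  hQ ▸ L.cl_mono h

theorem cl_insert_cl (A : Finset α) (i : α) : L.cl (insert i (L.cl A)) = L.cl (insert i A) := by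
  refine subset_antisymm ?_ (L.cl_mono (insert_subset_insert i (L.subset_cl A)))
  rw [← L.cl_cl (insert i A)]
  exact L.cl_mono (insert_subset (L.subset_cl _ (mem_insert_self i A))
    (L.cl_mono (subset_insert i A)))

theorem bal_zero : L.bal Q 0 = 1 := by
  rw [bal, show Q.powerset.filter (fun A => L.rk (L.cl A) ≤ 0) = {∅} from ?_]
  · simp
  ext A
  simp only [mem_filter, mem_powerset, mem_singleton]
  refine ⟨fun ⟨_, h⟩ => ?_, fun h => by simp [h, L.cl_empty, L.rk_empty]⟩
  refine subset_empty.1 ((L.subset_cl A).trans ?_)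
  rw [L.eq_of_subset_of_rk_le L.cl_empty (L.cl_cl A) (empty_subset _) (by rw [L.rk_empty]; omega)]

theorem bal_full (hQ : L.cl Q = Q) (hne : Q.Nonempty) {b : ℕ} (hb : L.rk Q ≤ b) :
    L.bal Q b = 0 := by
  rw [bal, filter_true_of_mem fun A hA =>
    (L.rk_le_of_subset (L.cl_cl A) hQ (cl_subset_of_subset hQ (mem_powerset.1 hA))).trans hb,
    sum_powerset_neg_one_pow_card_of_nonempty hne, mul_zero]

/-- The sets whose rank is at most `b` also after adding `i` contribute nothing. -/
theorem sum_avoid {i : α} (hi : i ∈ Q) (b : ℕ) :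
    ∑ A ∈ Q.powerset.filter (fun A => L.rk (L.cl (insert i A)) ≤ b), (-1 : ℤ) ^ #A = 0 := by
  refine sum_involution (fun A _ => if i ∈ A then A.erase i else insert i A) (fun A _ => ?_)
    (fun A _ _ => ?_) (fun A hA => ?_) fun A _ => ?_
  · split
    · rename_i h
      rw [← card_erase_add_one h, pow_succ]; ring
    · rename_i h
      rw [card_insert_of_notMem h, pow_succ]; ring
  · split
    · rename_i h
      exact fun e => notMem_erase i A (by rw [e]; exact h)
    · rename_i h
      exact fun e => h (e ▸ mem_insert_self i A)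
  · simp only [mem_filter, mem_powerset] at hA ⊢
    split
    · rename_i h
      rw [insert_erase h]
      exact ⟨(erase_subset i A).trans hA.1, by rw [insert_eq_of_mem h] at hA; exact hA.2⟩
    · rw [insert_idem]
      exact ⟨insert_subset hi hA.1, hA.2⟩
  · by_cases h : i ∈ A
    · simp [h]
    · simp [h]

theorem bal_eq_avoid {i : α} (hi : i ∈ Q) (b : ℕ) :
    L.bal Q b = (-1) ^ b *
      ∑ A ∈ Q.powerset.filter (fun A => i ∉ L.cl A ∧ L.rk (L.cl A) = b), (-1) ^ #A := by
  rw [bal]
  congr 1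
  have h1 : ∀ A : Finset α, i ∈ L.cl A → L.rk (L.cl (insert i A)) = L.rk (L.cl A) :=
    fun A h => by rw [← cl_insert_cl, insert_eq_of_mem h, L.cl_cl]
  have h2 : ∀ A : Finset α, i ∉ L.cl A → L.rk (L.cl (insert i A)) = L.rk (L.cl A) + 1 :=
    fun A h => by rw [← cl_insert_cl, L.rk_cl_insert (L.cl_cl A) h]
  rw [← sum_filter_add_sum_filter_not (Q.powerset.filter fun A => L.rk (L.cl A) ≤ b)
    (fun A => L.rk (L.cl (insert i A)) ≤ b), filter_filter, filter_filter]
  have e1 : Q.powerset.filter (fun A => L.rk (L.cl A) ≤ b ∧ L.rk (L.cl (insert i A)) ≤ b) =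
      Q.powerset.filter fun A => L.rk (L.cl (insert i A)) ≤ b := filter_congr fun A _ => by
    by_cases h : i ∈ L.cl A
    · rw [h1 A h, and_self]
    · rw [h2 A h]; constructor <;> intro h' <;> omega
  have e2 : Q.powerset.filter (fun A => L.rk (L.cl A) ≤ b ∧ ¬L.rk (L.cl (insert i A)) ≤ b) =
      Q.powerset.filter fun A => i ∉ L.cl A ∧ L.rk (L.cl A) = b := filter_congr fun A _ => by
    by_cases h : i ∈ L.cl A
    · rw [h1 A h]; simp [h]
    · rw [h2 A h]
      simp only [h, not_false_eq_true, true_and]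
      omega
  rw [e1, e2, sum_avoid hi b, zero_add]

/-- The recursion over the flats avoiding a point. -/
theorem bal_succ (hQ : L.cl Q = Q) {i : α} (hi : i ∈ Q) (b : ℕ) :
    L.bal Q (b + 1) = ∑ G ∈ (L.flatsBelow Q (b + 1)).filter (fun G => i ∉ G), L.bal G b := by
  rw [bal_eq_avoid hi, ← sum_fiberwise_of_maps_to (g := L.cl)
    (t := (L.flatsBelow Q (b + 1)).filter fun G => i ∉ G) (fun A hA => ?_), mul_sum]
  · refine sum_congr rfl fun G hG => ?_
    simp only [flatsBelow, mem_filter, mem_univ, true_and] at hG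
    obtain ⟨⟨hG, hGQ, hr⟩, hiG⟩ := hG
    have hne : G.Nonempty := nonempty_iff_ne_empty.2 fun e => by
      rw [e, L.rk_empty] at hr; omega
    have hfib : (Q.powerset.filter fun A => i ∉ L.cl A ∧ L.rk (L.cl A) = b + 1).filter
        (fun A => L.cl A = G) = G.powerset.filter fun A => ¬L.rk (L.cl A) ≤ b := by
      ext A
      simp only [mem_filter, mem_powerset]
      constructor
      · rintro ⟨⟨-, -, h3⟩, h4⟩
        exact ⟨h4 ▸ L.subset_cl A, by omega⟩
      · rintro ⟨h1, h2⟩
        have h3 : L.cl A = G := L.eq_of_subset_of_rk_le (L.cl_cl A) hG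
          (cl_subset_of_subset hG h1) (by omega)
        exact ⟨⟨h1.trans hGQ, by rw [h3]; exact hiG, by rw [h3, hr]⟩, h3⟩
    have h := sum_filter_add_sum_filter_not G.powerset (fun A => L.rk (L.cl A) ≤ b)
      fun A => (-1 : ℤ) ^ #A
    rw [sum_powerset_neg_one_pow_card_of_nonempty hne] at h
    rw [hfib, bal, pow_succ, eq_neg_of_add_eq_zero_left h]
    ring
  · simp only [flatsBelow, mem_filter, mem_powerset, mem_univ, true_and] at hA ⊢
    exact ⟨⟨L.cl_cl A, cl_subset_of_subset hQ hA.1, hA.2.2⟩, hA.2.1⟩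

theorem exists_avoid (hQ : L.cl Q = Q) {i : α} (hi : i ∈ Q) :
    ∀ j, j < L.rk Q → ∃ G ∈ L.flatsBelow Q j, i ∉ G := by
  intro j
  induction j with
  | zero =>
    exact fun _ => ⟨∅, by simp [flatsBelow, L.cl_empty, L.rk_empty], notMem_empty i⟩
  | succ j ih =>
    intro hj
    obtain ⟨G, hG, hiG⟩ := ih (by omega)
    simp only [flatsBelow, mem_filter, mem_univ, true_and] at hG ⊢
    obtain ⟨hG, hGQ, hr⟩ := hG
    have hH := L.rk_cl_insert hG hiG
    have hHQ := cl_subset_of_subset hQ (insert_subset hi hGQ)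
    obtain ⟨i', hi'Q, hi'H⟩ := exists_of_ssubset
      (lt_of_le_of_ne hHQ fun e => by rw [e] at hH; omega : L.cl (insert i G) ⊂ Q)
    have hi'G : i' ∉ G := fun h => hi'H (L.subset_cl _ (mem_insert_of_mem h))
    refine ⟨L.cl (insert i' G), ⟨L.cl_cl _, cl_subset_of_subset hQ (insert_subset hi'Q hGQ),
      by rw [L.rk_cl_insert hG hi'G, hr]⟩, fun h => hi'H ?_⟩
    rw [L.cl_insert_eq hG (L.cl_cl _) ((subset_insert i' G).trans (L.subset_cl _))
      (L.rk_cl_insert hG hi'G) h hiG]
    exact L.subset_cl _ (mem_insert_self i' G)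

theorem bal_pos : ∀ (b : ℕ) {Q : Finset α}, L.cl Q = Q → b < L.rk Q → 0 < L.bal Q b := by
  intro b
  induction b with
  | zero => intro Q _ _; rw [bal_zero]; exact one_pos
  | succ b ih =>
    intro Q hQ hb
    obtain ⟨i, hi⟩ : Q.Nonempty := nonempty_iff_ne_empty.2 fun e => by
      rw [e, L.rk_empty] at hb; omega
    rw [bal_succ hQ hi]
    refine sum_pos (fun G hG => ?_) ?_
    · simp only [flatsBelow, mem_filter, mem_univ, true_and] at hG
      exact ih hG.1.1 (by omega)
    · obtain ⟨G, hG, hiG⟩ := exists_avoid hQ hi (b + 1) hb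
      exact ⟨G, mem_filter.2 ⟨hG, hiG⟩⟩

variable [Nonempty α] (L)

/-- The least member of a chain. -/
def bot (σ : Finset L.Ray) : Finset α := σ.inf fun F => F.1

open scoped Classical in
/-- The weight of `α ^ a β ^ b`. -/
def chainWeight (b k : ℕ) (σ : Finset L.Ray) : ℝ :=
  if L.fan.IsCone σ ∧ L.ranks σ = Ioc b k then (L.bal (L.bot σ) b : ℝ) else 0

/-- The class `α`. -/
def alphaClass (i : α) (G : L.Ray) : ℝ := if i ∈ G.1 then 1 else 0

/-- The class `β`. -/
def betaClass (i : α) (G : L.Ray) : ℝ := if i ∈ G.1 then 0 else 1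

variable {L} {σ : Finset L.Ray}

omit [Nonempty α] in
theorem bot_subset {F : L.Ray} (hF : F ∈ σ) : L.bot σ ⊆ F.1 :=
  Finset.inf_le (f := fun F : L.Ray => F.1) hF

theorem bot_level (hσ : L.fan.IsCone σ) : L.IsLevel σ (L.bot σ) := by
  rcases σ.eq_empty_or_nonempty with rfl | h
  · exact Or.inr (Or.inl inf_empty)
  · obtain ⟨F, hF, hmin⟩ := exists_min_image σ (fun K => L.rk K.1) h
    exact Or.inr (Or.inr ⟨F, hF, subset_antisymm (Finset.le_inf (f := fun F : L.Ray => F.1)
      fun K hK => subset_of_rk_le F.2.1 K.2.1 (hσ F hF K hK) (hmin K hK)) (bot_subset hF)⟩)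

theorem chainWeight_supp {b k : ℕ} {τ : Finset L.Ray} (h : L.chainWeight b k τ ≠ 0) :
    L.fan.IsCone τ ∧ L.ranks τ = Ioc b k := by
  classical
  by_contra h'
  exact h (if_neg h')

theorem chainWeight_eq {b k : ℕ} {τ : Finset L.Ray} (h : L.fan.IsCone τ)
    (h' : L.ranks τ = Ioc b k) : L.chainWeight b k τ = (L.bal (L.bot τ) b : ℝ) := by
  classical
  exact if_pos ⟨h, h'⟩

theorem ranks_insert_eq {G : L.Ray} {S : Finset ℕ} {j : ℕ} (hj : j ∈ S) (hG : G ∈ L.link σ j)
    (hr : L.ranks σ = S.erase j) : L.ranks (insert G σ) = S := by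
  rw [ranks_insert, (mem_link.1 hG).2, hr, insert_erase hj]

/-- A function equals `chainWeight` when it does so on the chains missing one rank. -/
theorem eq_chainWeight {c : Finset L.Ray → ℝ} {S : Finset ℕ} {b k j₀ : ℕ} (hj₀ : j₀ ∈ S)
    (hS : S.erase j₀ = Ioc b k)
    (hsupp : ∀ τ, c τ ≠ 0 → L.fan.IsCone τ ∧ ∃ j ∈ S, L.ranks τ = S.erase j)
    (h : ∀ τ, L.fan.IsCone τ → ∀ j ∈ S, L.ranks τ = S.erase j →
      c τ = if j = j₀ then (L.bal (L.bot τ) b : ℝ) else 0) :
    c = L.chainWeight b k := by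
  classical
  funext τ
  by_cases hτ : L.fan.IsCone τ ∧ L.ranks τ = Ioc b k
  · rw [chainWeight_eq hτ.1 hτ.2, h τ hτ.1 j₀ hj₀ (hτ.2.trans hS.symm), if_pos rfl]
  · rw [chainWeight, if_neg hτ]
    by_contra hc
    obtain ⟨hcone, j, hj, hr⟩ := hsupp τ hc
    rw [h τ hcone j hj hr] at hc
    split at hc
    · rename_i e
      exact hτ ⟨hcone, by rw [hr, e, hS]⟩
    · exact hc rfl

variable (L) in
theorem top_eq_chainWeight : L.top = L.chainWeight 0 (L.rank - 1) := by
  funext τ
  by_cases hτ : L.fan.IsCone τ ∧ L.ranks τ = Ioc 0 (L.rank - 1)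
  · rw [chainWeight_eq hτ.1 hτ.2, bal_zero, Int.cast_one, L.top_eq_one hτ.1]
    rw [← card_ranks hτ.1, hτ.2, Nat.card_Ioc]
    have := L.rk_lt L.cl_empty L.cl_univ (empty_ssubset.2 univ_nonempty)
    rw [L.rk_empty] at this
    unfold rank
    omega
  · have h1 : L.chainWeight 0 (L.rank - 1) τ = 0 := by
      by_contra h; exact hτ (chainWeight_supp h)
    rw [h1]
    by_contra h
    obtain ⟨hc, hr⟩ := L.top_supp h
    exact hτ ⟨hc, by rw [hr]; ext; simp only [mem_Ico, mem_Ioc]; omega⟩

/-- One step with `α`. -/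
theorem cap_alpha (i₀ : α) {k : ℕ} (hk : k + 1 < L.rank)
    (hw : L.fan.IsWeight (L.chainWeight 0 (k + 1))) :
    L.fan.cap (L.alphaClass i₀) (L.chainWeight 0 (k + 1)) = L.chainWeight 0 k := by
  classical
  refine eq_chainWeight (S := Ioc 0 (k + 1)) (j₀ := k + 1) (by simp)
    (by ext; simp only [mem_erase, mem_Ioc]; omega)
    (fun τ h => support_cap hw (fun τ h => chainWeight_supp h) h) fun τ hτ j hj hr => ?_
  obtain ⟨m, hm, hm'⟩ := L.fan.exists_interp τ hτ (L.alphaClass i₀)
  rw [cap_chains hw (fun τ h => chainWeight_supp h) hτ hm hm' hr]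
  obtain ⟨x, hx, hmx⟩ := hm
  obtain ⟨z, hz⟩ : ∃ z : α → ℝ, z = fun i => (if i = i₀ then 1 else 0) - x i := ⟨_, rfl⟩
  have hzG : ∀ G : L.Ray, ∑ i ∈ G.1, z i = L.alphaClass i₀ G - m G := fun G => by
    rw [hz, sum_sub_distrib, hmx, alphaClass, sum_ite_eq']
  have hzuniv : ∑ i, z i = 1 := by rw [hz, sum_sub_distrib, hx]; simp
  have hzσ : ∀ F ∈ τ, ∑ i ∈ F.1, z i = 0 := fun F hF => by rw [hzG, hm' F hF, sub_self]
  rw [mem_Ioc] at hj
  have hjτ : j ∉ L.ranks τ := by rw [hr]; exact notMem_erase _ _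
  obtain ⟨P, Q, hP, hQ, hPQ, hPj, hjQ, hdich, hσPQ⟩ := exists_gap hτ hj.1 (by omega) hjτ
  have hmem : ∀ i, i ∈ L.ranks τ ↔ i ≠ j ∧ 0 < i ∧ i ≤ k + 1 := fun i => by
    rw [hr, mem_erase, mem_Ioc]
  have hP1 : L.rk P + 1 = j := by
    by_contra hne
    rcases hdich (j - 1) ((hmem _).2 ⟨by omega, by omega, by omega⟩) with h | h <;> omega
  have hPz : ∑ i ∈ P, z i = 0 := by
    rcases hP with rfl | rfl | ⟨F, hF, rfl⟩
    · exact sum_empty
    · exact absurd hPj (not_lt.2 (by change j ≤ L.rank; omega))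
    · exact hzσ F hF
  rw [sum_congr rfl fun G hG => by
    rw [chainWeight_eq (mem_link.1 hG).1 (ranks_insert_eq (mem_Ioc.2 hj) hG hr), bal_zero,
      Int.cast_one, one_mul, ← hzG G],
    sum_gap_additive hτ hP hQ hPQ hσPQ hP1 hjQ, hPz, bal_zero, Int.cast_one]
  simp only [mul_zero, zero_add, sub_zero]
  rcases hQ with rfl | rfl | ⟨F, hF, rfl⟩
  · exact absurd hjQ (by rw [L.rk_empty]; omega)
  · rw [hzuniv, if_pos]
    by_contra hne
    rcases hdich (k + 1) ((hmem _).2 ⟨fun e => hne e.symm, by omega, le_rfl⟩) with h | h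
    · omega
    · change L.rank ≤ k + 1 at h; omega
  · rw [hzσ F hF, if_neg]
    have := (hmem _).1 (mem_image_of_mem _ hF)
    omega

/-- One step with `β`. -/
theorem cap_beta (i₀ : α) {b k : ℕ} (hb : b < k) (hk : k < L.rank)
    (hw : L.fan.IsWeight (L.chainWeight b k)) :
    L.fan.cap (L.betaClass i₀) (L.chainWeight b k) = L.chainWeight (b + 1) k := by
  classical
  refine eq_chainWeight (S := Ioc b k) (j₀ := b + 1) (by simp only [mem_Ioc]; omega)
    (by ext; simp only [mem_erase, mem_Ioc]; omega)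
    (fun τ h => support_cap hw (fun τ h => chainWeight_supp h) h) fun τ hτ j hj hr => ?_
  obtain ⟨m, hm, hm'⟩ := L.fan.exists_interp τ hτ (L.betaClass i₀)
  rw [cap_chains hw (fun τ h => chainWeight_supp h) hτ hm hm' hr]
  obtain ⟨x, hx, hmx⟩ := hm
  obtain ⟨z, hz⟩ : ∃ z : α → ℝ, z = fun i => (if i = i₀ then 1 else 0) + x i := ⟨_, rfl⟩
  have hzG : ∀ G : L.Ray, L.betaClass i₀ G - m G = 1 - ∑ i ∈ G.1, z i := fun G => by
    rw [hz, sum_add_distrib, ← hmx, sum_ite_eq', betaClass]
    split <;> ring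
  have hzuniv : ∑ i, z i = 1 := by rw [hz, sum_add_distrib, hx]; simp
  have hzσ : ∀ F ∈ τ, ∑ i ∈ F.1, z i = 1 := fun F hF => by
    have := hzG F
    rw [hm' F hF, sub_self] at this
    linarith
  have hlev : ∀ {A : Finset α}, L.IsLevel τ A → 0 < L.rk A → ∑ i ∈ A, z i = 1 := by
    rintro A (rfl | rfl | ⟨F, hF, rfl⟩) h
    · rw [L.rk_empty] at h; exact absurd h (lt_irrefl 0)
    · exact hzuniv
    · exact hzσ F hF
  rw [mem_Ioc] at hj
  have hjτ : j ∉ L.ranks τ := by rw [hr]; exact notMem_erase _ _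
  have hmem : ∀ i, i ∈ L.ranks τ ↔ i ≠ j ∧ b < i ∧ i ≤ k := fun i => by
    rw [hr, mem_erase, mem_Ioc]
  have hc : ∀ G ∈ L.link τ j, L.chainWeight b k (insert G τ) = (L.bal (G.1 ⊓ L.bot τ) b : ℝ) :=
    fun G hG => by
      rw [chainWeight_eq (mem_link.1 hG).1 (ranks_insert_eq (mem_Ioc.2 hj) hG hr), bot, bot,
        inf_insert]
  split
  · rename_i e
    subst e
    have hQ := bot_level hτ
    have hQr : b + 1 < L.rk (L.bot τ) := by
      rcases τ.eq_empty_or_nonempty with rfl | hne
      · rw [bot, inf_empty]; change b + 1 < L.rank; omega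
      · obtain ⟨F, hF, hmin⟩ := exists_min_image τ (fun K => L.rk K.1) hne
        have h1 := (hmem _).1 (mem_image_of_mem _ hF)
        rcases hQ with h | h | ⟨F', hF', h⟩
        · have := bot_subset (σ := τ) hF
          exfalso
          obtain ⟨G, hG, e⟩ : ∃ G ∈ τ, G.1 = L.bot τ := ⟨F, hF, subset_antisymm
            (Finset.le_inf (f := fun F : L.Ray => F.1) fun K hK =>
              subset_of_rk_le F.2.1 K.2.1 (hτ F hF K hK) (hmin K hK)) this⟩
          exact G.2.2.1.ne_empty (e.trans h)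
        · rw [h]; change b + 1 < L.rank; omega
        · rw [← h]
          have := (hmem _).1 (mem_image_of_mem _ hF')
          omega
    have hQz := hlev hQ (by omega)
    have hsum : ∑ G ∈ L.link τ (b + 1), L.chainWeight b k (insert G τ) *
        (L.betaClass i₀ G - m G) =
          ∑ G ∈ L.flatsBelow (L.bot τ) (b + 1), ∑ i ∈ L.bot τ \ G, (L.bal G b : ℝ) * z i := by
      have e : ∀ G ∈ L.link τ (b + 1), L.chainWeight b k (insert G τ) *
          (L.betaClass i₀ G - m G) = ∑ i ∈ L.bot τ \ G.1, (L.bal G.1 b : ℝ) * z i := fun G hG => by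
        obtain ⟨hGc, hGr⟩ := mem_link.1 hG
        have hGQ : G.1 ⊆ L.bot τ := hQ.subset' hGc (by omega)
        rw [hc G hG, inf_eq_left.2 hGQ, hzG, ← hQz, ← sum_sdiff (f := z) hGQ, ← mul_sum]
        ring
      rw [sum_congr rfl e]
      refine sum_bij' (fun G _ => G.1)
        (fun G hG => ⟨G, ray_of_rk (mem_filter.1 hG).2.1 ?_ ?_⟩) (fun G hG => ?_) (fun G hG => ?_)
        (fun _ _ => rfl) (fun _ _ => rfl) fun _ _ => rfl
      · rw [(mem_filter.1 hG).2.2.2]; omega
      · rw [(mem_filter.1 hG).2.2.2]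
        exact hQr.trans_le (rk_le_rank hQ.closed)
      · obtain ⟨hGc, hGr⟩ := mem_link.1 hG
        simp only [flatsBelow, mem_filter, mem_univ, true_and]
        exact ⟨G.2.1, hQ.subset' hGc (by omega), hGr⟩
      · simp only [flatsBelow, mem_filter, mem_univ, true_and] at hG
        exact mem_link.2 ⟨isCone_insert hτ fun K hK => Or.inr (hG.2.1.trans (bot_subset hK)),
          hG.2.2⟩
    rw [hsum, sum_comm' (t' := L.bot τ) (s' := fun i => (L.flatsBelow (L.bot τ) (b + 1)).filter
      fun G => i ∉ G) fun G i => by simp only [mem_sdiff, mem_filter]; tauto]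
    rw [sum_congr rfl fun i hi => by
      rw [← sum_mul, ← Int.cast_sum, ← bal_succ hQ.closed hi], ← mul_sum, hQz, mul_one]
  · rename_i hne
    obtain ⟨F, hF, hFr⟩ := mem_image.1 ((hmem (b + 1)).2 ⟨Ne.symm hne, by omega, by omega⟩)
    obtain ⟨P, Q, hP, hQ, hPQ, hPj, hjQ, hdich, hσPQ⟩ := exists_gap hτ (by omega) (by omega) hjτ
    have hP1 : L.rk P + 1 = j := by
      by_contra hne'
      rcases hdich (j - 1) ((hmem _).2 ⟨by omega, by omega, by omega⟩) with h | h <;> omega
    rw [sum_congr rfl fun G hG => by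
      rw [hc G hG, inf_eq_right.2 ((bot_subset hF).trans (subset_of_rk_le F.2.1 G.2.1
        (comparable_of_insert (mem_link.1 hG).1 hF) (by rw [hFr, (mem_link.1 hG).2]; omega))),
        hzG],
      ← mul_sum, sum_sub_distrib, sum_gap_additive hτ hP hQ hPQ hσPQ hP1 hjQ,
      hlev hP (by omega), hlev hQ (by omega)]
    simp

variable (L)

theorem capList_alpha (i₀ : α) : ∀ a, a ≤ L.rank - 1 →
    L.fan.capList L.top (List.replicate a (L.alphaClass i₀)) =
      L.chainWeight 0 (L.rank - 1 - a) := by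
  intro a
  induction a with
  | zero => exact fun _ => L.top_eq_chainWeight
  | succ a ih =>
    intro ha
    have hw := RayFan.isWeight_capList L.isWeight_top (List.replicate a (L.alphaClass i₀))
    rw [ih (by omega)] at hw
    change L.fan.cap _ (L.fan.capList L.top (List.replicate a (L.alphaClass i₀))) = _
    rw [ih (by omega)]
    rw [show L.rank - 1 - a = L.rank - 1 - (a + 1) + 1 by omega] at hw ⊢
    exact cap_alpha i₀ (by omega) hw

theorem capList_alpha_beta (i₀ : α) {a : ℕ} : ∀ b, a + b ≤ L.rank - 1 →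
    L.fan.capList L.top (List.replicate b (L.betaClass i₀) ++
      List.replicate a (L.alphaClass i₀)) = L.chainWeight b (L.rank - 1 - a) := by
  intro b
  induction b with
  | zero => exact fun h => L.capList_alpha i₀ a (by omega)
  | succ b ih =>
    intro h
    have hw := RayFan.isWeight_capList L.isWeight_top
      (List.replicate b (L.betaClass i₀) ++ List.replicate a (L.alphaClass i₀))
    rw [ih (by omega)] at hw
    change L.fan.cap _ (L.fan.capList L.top
      (List.replicate b (L.betaClass i₀) ++ List.replicate a (L.alphaClass i₀))) = _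
    rw [ih (by omega)]
    exact cap_beta i₀ (by omega) (by omega) hw

/-- The degree of `α ^ a β ^ b`. -/
theorem degree_alpha_beta (i₀ : α) {a b : ℕ} (h : a + b = L.rank - 1) :
    L.fan.capList L.top (List.replicate b (L.betaClass i₀) ++
      List.replicate a (L.alphaClass i₀)) ∅ = (L.bal univ b : ℝ) := by
  rw [L.capList_alpha_beta i₀ b h.le, chainWeight_eq (fun F hF => absurd hF (notMem_empty F))
    (by rw [ranks, image_empty, show L.rank - 1 - a = b by omega, Ioc_self])]
  rw [bot, inf_empty]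
  rfl

theorem nef_alpha (i₀ : α) (σ : Finset L.Ray) (hσ : L.fan.IsCone σ) :
    ∃ m ∈ L.linear, (∀ G ∈ σ, m G = L.alphaClass i₀ G) ∧ ∀ G, m G ≤ L.alphaClass i₀ G := by
  obtain ⟨j, hj⟩ : ∃ j : α, ∀ F ∈ σ, j ∉ F.1 := by
    rcases σ.eq_empty_or_nonempty with rfl | h
    · exact ⟨i₀, fun F hF => absurd hF (notMem_empty F)⟩
    · obtain ⟨F, hF, hmax⟩ := exists_max_image σ (fun K => L.rk K.1) h
      obtain ⟨j, -, hj⟩ := exists_of_ssubset (ssubset_univ_iff.2 F.2.2.2)
      exact ⟨j, fun K hK hjK =>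
        hj (subset_of_rk_le K.2.1 F.2.1 (hσ K hK F hF) (hmax K hK) hjK)⟩
  refine ⟨_, L.pair_mem_linear i₀ j 1, fun G hG => ?_, fun G => ?_⟩
  · rw [one_mul, if_neg (hj G hG), sub_zero, alphaClass]
  · rw [one_mul, alphaClass, sub_le_self_iff]
    split <;> norm_num

theorem nef_beta (i₀ : α) (σ : Finset L.Ray) (hσ : L.fan.IsCone σ) :
    ∃ m ∈ L.linear, (∀ G ∈ σ, m G = L.betaClass i₀ G) ∧ ∀ G, m G ≤ L.betaClass i₀ G := by
  obtain ⟨j, hj⟩ : ∃ j : α, ∀ F ∈ σ, j ∈ F.1 := by
    rcases σ.eq_empty_or_nonempty with rfl | h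
    · exact ⟨i₀, fun F hF => absurd hF (notMem_empty F)⟩
    · obtain ⟨F, hF, hmin⟩ := exists_min_image σ (fun K => L.rk K.1) h
      obtain ⟨j, hj⟩ := F.2.2.1
      exact ⟨j, fun K hK => subset_of_rk_le F.2.1 K.2.1 (hσ F hF K hK) (hmin K hK) hj⟩
  refine ⟨_, L.pair_mem_linear j i₀ 1, fun G hG => ?_, fun G => ?_⟩
  · rw [one_mul, if_pos (hj G hG), betaClass]
    split <;> norm_num
  · rw [one_mul, betaClass]
    split <;> split <;> norm_num

/-- Products of the classes `u + e t` are continuous in `e`. -/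
theorem continuous_capList (P : List ((L.Ray → ℝ) × (L.Ray → ℝ))) : ∀ σ : Finset L.Ray,
    Continuous fun e : ℝ =>
      L.fan.capList L.top (P.map fun p G => p.1 G + e * p.2 G) σ := by
  induction P with
  | nil => exact fun σ => continuous_const
  | cons p P ih =>
    intro σ
    have hfix : ∀ u : L.Ray → ℝ, Continuous fun e : ℝ =>
        L.fan.cap u (L.fan.capList L.top (P.map fun p G => p.1 G + e * p.2 G)) σ := fun u => by
      classical
      simp only [RayFan.cap]
      split
      · exact continuous_finsetSum _ fun G _ => (ih _).mul continuous_const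
      · exact continuous_const
    refine ((hfix p.1).add (continuous_id.mul (hfix p.2))).congr fun e => ?_
    have hw := RayFan.isWeight_capList L.isWeight_top (P.map fun p G => p.1 G + e * p.2 G)
    have h := RayFan.cap_sum (σ := σ) hw (univ : Finset (Fin 2)) ![1, e] ![p.1, p.2]
    simp only [Fin.sum_univ_two, Matrix.cons_val_zero, Matrix.cons_val_one, one_mul] at h
    exact h.symm

/-- **Log-concavity of the reduced characteristic polynomial.** -/
theorem bal_logConcave (j : ℕ) :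
    L.bal univ j * L.bal univ (j + 2) ≤ L.bal univ (j + 1) ^ 2 := by
  by_cases hj : j + 3 ≤ L.rank
  swap
  · rw [bal_full L.cl_univ univ_nonempty (show L.rank ≤ j + 2 by omega), mul_zero]
    exact sq_nonneg _
  obtain ⟨i₀⟩ := ‹Nonempty α›
  obtain ⟨t, ht⟩ : ∃ t : L.Ray → ℝ, t = fun G => #G.1 * ((Fintype.card α : ℝ) - #G.1) :=
    ⟨_, rfl⟩
  obtain ⟨A, hA⟩ : ∃ A, A = L.alphaClass i₀ := ⟨_, rfl⟩
  obtain ⟨B, hB⟩ : ∃ B, B = L.betaClass i₀ := ⟨_, rfl⟩
  obtain ⟨a, ha⟩ : ∃ a, a + (j + 3) = L.rank := ⟨L.rank - (j + 3), by omega⟩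
  obtain ⟨P, hP⟩ : ∃ P, P = List.replicate j (B, t) ++ List.replicate a (A, t) := ⟨_, rfl⟩
  obtain ⟨D, hD⟩ : ∃ D : List ((L.Ray → ℝ) × (L.Ray → ℝ)) → ℝ → ℝ,
      D = fun Q e => L.fan.capList L.top (Q.map fun p G => p.1 G + e * p.2 G) ∅ := ⟨_, rfl⟩
  have hcont : ∀ Q, Continuous (D Q) := fun Q => hD ▸ L.continuous_capList Q ∅
  have hineq : ∀ e ∈ Set.Ioi (0 : ℝ), D ((B, t) :: (B, t) :: P) e * D ((A, t) :: (A, t) :: P) e ≤
      D ((A, t) :: (B, t) :: P) e ^ 2 := by
    intro e he
    have hA' : L.fan.IsAmple fun G => A G + e * t G := by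
      rw [hA, ht]; exact L.isAmple_add (L.nef_alpha i₀) he
    have hB' : L.fan.IsAmple fun G => B G + e * t G := by
      rw [hB, ht]; exact L.isAmple_add (L.nef_beta i₀) he
    simp only [hD, List.map_cons]
    refine L.alexandrov_fenchel _ (fun f hf => ?_) ?_ hA' _
    · simp only [hP, List.map_append, List.map_replicate, List.mem_append,
        List.mem_replicate] at hf
      rcases hf with ⟨-, rfl⟩ | ⟨-, rfl⟩ <;> assumption
    · simp only [hP, List.length_map, List.length_append, List.length_replicate]; omega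
  have h := le_on_closure hineq (((hcont _).mul (hcont _)).continuousOn)
    (((hcont _).pow 2).continuousOn) (x := 0) (by rw [closure_Ioi]; exact Set.self_mem_Ici)
  have hpush : ∀ (T : List (L.Ray → ℝ)) (n : ℕ),
      L.fan.cap A (L.fan.capList L.top (List.replicate n B ++ T)) =
        L.fan.capList L.top (List.replicate n B ++ A :: T) := by
    intro T n
    induction n with
    | zero => rfl
    | succ n ih =>
      change L.fan.cap A (L.fan.cap B (L.fan.capList L.top (List.replicate n B ++ T))) =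
        L.fan.cap B (L.fan.capList L.top (List.replicate n B ++ A :: T))
      rw [RayFan.cap_comm (RayFan.isWeight_capList L.isWeight_top _), ih]
  have hmap : P.map (fun p G => p.1 G + (0 : ℝ) * p.2 G) =
      List.replicate j B ++ List.replicate a A := by
    simp [hP, List.map_replicate]
  have e2 : L.fan.cap B (L.fan.cap B (L.fan.capList L.top (List.replicate j B ++
      List.replicate a A))) ∅ = (L.bal univ (j + 2) : ℝ) := by
    rw [hA, hB]
    exact L.degree_alpha_beta i₀ (a := a) (b := j + 2) (by omega)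
  have e0 : L.fan.cap A (L.fan.cap A (L.fan.capList L.top (List.replicate j B ++
      List.replicate a A))) ∅ = (L.bal univ j : ℝ) := by
    rw [hpush, hpush, hA, hB]
    exact L.degree_alpha_beta i₀ (a := a + 2) (b := j) (by omega)
  have e1 : L.fan.cap A (L.fan.cap B (L.fan.capList L.top (List.replicate j B ++
      List.replicate a A))) ∅ = (L.bal univ (j + 1) : ℝ) := by
    rw [RayFan.cap_comm (RayFan.isWeight_capList L.isWeight_top _), hpush, hA, hB]
    exact L.degree_alpha_beta i₀ (a := a + 1) (b := j + 1) (by omega)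
  simp only [hD, List.map_cons, zero_mul, add_zero] at h
  simp only [zero_mul, add_zero] at hmap
  rw [hmap] at h
  change L.fan.cap B (L.fan.cap B (L.fan.capList L.top (List.replicate j B ++
      List.replicate a A))) ∅ * L.fan.cap A (L.fan.cap A (L.fan.capList L.top
      (List.replicate j B ++ List.replicate a A))) ∅ ≤ L.fan.cap A (L.fan.cap B
      (L.fan.capList L.top (List.replicate j B ++ List.replicate a A))) ∅ ^ 2 at h
  rw [e0, e1, e2, mul_comm] at h
  exact_mod_cast h

end FA.MatroidLogConcave.FlatLattice
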