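import Fermat.Agent.MatroidLogConcave.Signature
import Mathlib.Algebra.Module.Submodule.Defs
import Mathlib.Data.Fintype.Sets

/-!
# Balanced weights and the Alexandrov–Fenchel inequality

Weights on the cones of a simplicial fan, cap products with piecewise linear functions, and the
Alexandrov–Fenchel inequality for products of strictly convex functions: it follows from the
signature lemma once it holds in codimension two and the links are connected.
-/

set_option autoImplicit false

noncomputable section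

namespace FA.MatroidLogConcave

open Finset

/-- A simplicial fan given by its rays, its cones and its linear functions. -/
structure RayFan (V : Type*) where
  IsCone : Finset V → Prop
  cone_down : ∀ {σ τ : Finset V}, τ ⊆ σ → IsCone σ → IsCone τ
  linFun : Submodule ℝ (V → ℝ)
  exists_interp : ∀ σ, IsCone σ → ∀ u : V → ℝ, ∃ m ∈ linFun, ∀ G ∈ σ, m G = u G

namespace RayFan

variable {V : Type*} [Fintype V] [DecidableEq V] (X : RayFan V)

open scoped Classical in
/-- The cap product with a piecewise linear function. -/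
def cap (u : V → ℝ) (c : Finset V → ℝ) (σ : Finset V) : ℝ :=
  if h : X.IsCone σ then
    ∑ G ∈ σᶜ, c (insert G σ) * (u G - (X.exists_interp σ h u).choose G) else 0

/-- A balanced weight on cones. -/
structure IsWeight (c : Finset V → ℝ) : Prop where
  support : ∀ σ, ¬X.IsCone σ → c σ = 0
  balanced : ∀ σ, X.IsCone σ → ∀ m ∈ X.linFun, (∀ G ∈ σ, m G = 0) →
    ∑ G ∈ σᶜ, c (insert G σ) * m G = 0

/-- Strict convexity. -/
def IsAmple (L : V → ℝ) : Prop :=
  ∀ σ, X.IsCone σ → ∃ m ∈ X.linFun, (∀ G ∈ σ, m G = L G) ∧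
    ∀ G, G ∉ σ → X.IsCone (insert G σ) → m G < L G

/-- The iterated cap product. -/
def capList (top : Finset V → ℝ) (Ls : List (V → ℝ)) : Finset V → ℝ := Ls.foldr X.cap top

/-- Extension by zero from the link of a cone. -/
def extLink {σ : Finset V} [DecidablePred fun G => G ∉ σ ∧ X.IsCone (insert G σ)]
    (f : {G // G ∉ σ ∧ X.IsCone (insert G σ)} → ℝ) (G : V) : ℝ :=
  if h : G ∉ σ ∧ X.IsCone (insert G σ) then f ⟨G, h⟩ else 0

variable {X} {c top : Finset V → ℝ} {σ : Finset V} {u v : V → ℝ}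

theorem cap_of_not (h : ¬X.IsCone σ) : X.cap u c σ = 0 := by rw [cap, dif_neg h]

theorem cap_eq (hc : X.IsWeight c) (hσ : X.IsCone σ) {m : V → ℝ} (hm : m ∈ X.linFun)
    (heq : ∀ G ∈ σ, m G = u G) :
    X.cap u c σ = ∑ G ∈ σᶜ, c (insert G σ) * (u G - m G) := by
  rw [cap, dif_pos hσ]
  obtain ⟨h1, h2⟩ := (X.exists_interp σ hσ u).choose_spec
  have h := hc.balanced σ hσ _ (sub_mem hm h1) fun G hG => by
    rw [Pi.sub_apply, heq G hG, h2 G hG, sub_self]
  rw [← sub_eq_zero, ← sum_sub_distrib]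
  rw [← h]
  exact sum_congr rfl fun G _ => by rw [Pi.sub_apply]; ring

theorem cap_of_vanish (hc : X.IsWeight c) (hσ : X.IsCone σ) (hu : ∀ G ∈ σ, u G = 0) :
    X.cap u c σ = ∑ G ∈ σᶜ, c (insert G σ) * u G := by
  rw [cap_eq hc hσ (zero_mem _) fun G hG => (hu G hG).symm]
  simp

theorem cap_sub_lin (hc : X.IsWeight c) {m : V → ℝ} (hm : m ∈ X.linFun) :
    X.cap (u - m) c = X.cap u c := by
  funext σ
  by_cases hσ : X.IsCone σ
  · obtain ⟨a, ha, ha'⟩ := X.exists_interp σ hσ u
    rw [cap_eq hc hσ ha ha', cap_eq hc hσ (sub_mem ha hm) fun G hG => by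
      simp only [Pi.sub_apply, ha' G hG]]
    simp
  · rw [cap_of_not hσ, cap_of_not hσ]

theorem cap_lin (hc : X.IsWeight c) {m : V → ℝ} (hm : m ∈ X.linFun) (τ : Finset V) :
    X.cap m c τ = 0 := by
  by_cases hτ : X.IsCone τ
  · rw [cap_eq hc hτ hm fun _ _ => rfl]; simp
  · exact cap_of_not hτ

theorem cap_congr (hc : X.IsWeight c) (hσ : X.IsCone σ) {u' : V → ℝ}
    (h : ∀ G, G ∈ σ ∨ X.IsCone (insert G σ) → u G = u' G) : X.cap u c σ = X.cap u' c σ := by
  obtain ⟨a, ha, ha'⟩ := X.exists_interp σ hσ u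
  rw [cap_eq hc hσ ha ha', cap_eq hc hσ ha fun G hG => (ha' G hG).trans (h G (Or.inl hG))]
  refine sum_congr rfl fun G _ => ?_
  by_cases hG : X.IsCone (insert G σ)
  · rw [h G (Or.inr hG)]
  · rw [hc.support _ hG, zero_mul, zero_mul]

theorem cap_sum (hc : X.IsWeight c) {ι : Type*} (s : Finset ι) (a : ι → ℝ) (f : ι → V → ℝ) :
    X.cap (fun G => ∑ i ∈ s, a i * f i G) c σ = ∑ i ∈ s, a i * X.cap (f i) c σ := by
  by_cases hσ : X.IsCone σ
  · choose m hm hm' using fun i => X.exists_interp σ hσ (f i)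
    rw [cap_eq hc hσ (sum_mem (t := s) fun i _ => X.linFun.smul_mem (a i) (hm i)) fun G hG => by
      simp only [Finset.sum_apply, Pi.smul_apply, smul_eq_mul, hm' _ G hG]]
    simp only [cap_eq hc hσ (hm _) (hm' _), Finset.sum_apply, Pi.smul_apply, smul_eq_mul,
      ← sum_sub_distrib, mul_sum]
    rw [sum_comm]
    exact sum_congr rfl fun i _ => sum_congr rfl fun G _ => by ring
  · simp [cap_of_not hσ]

theorem cap_swap (hc : X.IsWeight c) (_hσ : X.IsCone σ) (hu : ∀ G ∈ σ, u G = 0)
    (hv : ∀ G ∈ σ, v G = 0) :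
    ∑ G ∈ σᶜ, X.cap v c (insert G σ) * u G = ∑ G ∈ σᶜ, X.cap u c (insert G σ) * v G := by
  classical
  obtain ⟨A, hA⟩ : ∃ A : V → ℝ, ∀ G ∈ σᶜ, ∀ w : V → ℝ, (∀ K ∈ σ, w K = 0) →
      X.cap w c (insert G σ) =
        ∑ K ∈ σᶜ.erase G, c (insert K (insert G σ)) * w K - w G * A G := by
    refine ⟨fun G => if h : X.IsCone (insert G σ) then
      ∑ K ∈ σᶜ.erase G, c (insert K (insert G σ)) *
        (X.exists_interp _ h (Pi.single G 1)).choose K else 0, fun G hG w hw => ?_⟩
    rw [mem_compl] at hG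
    by_cases h : X.IsCone (insert G σ)
    · simp only [dif_pos h]
      obtain ⟨h1, h2⟩ := (X.exists_interp _ h (Pi.single G 1)).choose_spec
      rw [cap_eq hc h (X.linFun.smul_mem (w G) h1) fun K hK => by
        rw [Pi.smul_apply, h2 K hK, smul_eq_mul]
        rcases mem_insert.1 hK with rfl | hK
        · simp
        · rw [Pi.single_eq_of_ne (ne_of_mem_of_not_mem hK hG), mul_zero, hw K hK],
        compl_insert, mul_sum, ← sum_sub_distrib]
      exact sum_congr rfl fun K _ => by rw [Pi.smul_apply, smul_eq_mul]; ring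
    · simp only [dif_neg h]
      rw [cap_of_not h, mul_zero, sub_zero]
      exact (sum_eq_zero fun K _ => by
        rw [hc.support _ fun h' => h (X.cone_down (subset_insert _ _) h'), zero_mul]).symm
  have key : ∀ u v : V → ℝ, (∀ G ∈ σ, v G = 0) → ∑ G ∈ σᶜ, X.cap v c (insert G σ) * u G =
      (∑ G ∈ σᶜ, ∑ K ∈ σᶜ.erase G, c (insert K (insert G σ)) * v K * u G) -
        ∑ G ∈ σᶜ, v G * A G * u G := fun u v hv => by
    rw [← sum_sub_distrib]
    exact sum_congr rfl fun G hG => by rw [hA G hG v hv, sub_mul, sum_mul]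
  rw [key u v hv, key v u hu]
  congr 1
  · rw [sum_comm' (t' := σᶜ) (s' := fun K => σᶜ.erase K) fun G K => by
      simp only [mem_erase]; tauto]
    refine sum_congr rfl fun K _ => sum_congr rfl fun G _ => ?_
    rw [Finset.insert_comm]; ring
  · exact sum_congr rfl fun G _ => by ring

theorem IsWeight.cap (hc : X.IsWeight c) (u : V → ℝ) : X.IsWeight (X.cap u c) := by
  refine ⟨fun σ hσ => cap_of_not hσ, fun σ hσ m hm hm0 => ?_⟩
  obtain ⟨a, ha, ha'⟩ := X.exists_interp σ hσ u
  rw [← cap_sub_lin hc ha, cap_swap hc hσ hm0 fun G hG => by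
    rw [Pi.sub_apply, ha' G hG, sub_self]]
  simp [cap_lin hc hm]

theorem cap_comm (hc : X.IsWeight c) (u v : V → ℝ) :
    X.cap u (X.cap v c) = X.cap v (X.cap u c) := by
  funext σ
  by_cases hσ : X.IsCone σ
  · obtain ⟨a, ha, ha'⟩ := X.exists_interp σ hσ u
    obtain ⟨b, hb, hb'⟩ := X.exists_interp σ hσ v
    have hu : ∀ G ∈ σ, (u - a) G = 0 := fun G hG => by rw [Pi.sub_apply, ha' G hG, sub_self]
    have hv : ∀ G ∈ σ, (v - b) G = 0 := fun G hG => by rw [Pi.sub_apply, hb' G hG, sub_self]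
    rw [← cap_sub_lin (u := u) (hc.cap v) ha, ← cap_sub_lin (u := v) hc hb,
      ← cap_sub_lin (u := v) (hc.cap u) hb, ← cap_sub_lin (u := u) hc ha,
      cap_of_vanish (hc.cap _) hσ hu, cap_of_vanish (hc.cap _) hσ hv]
    exact cap_swap hc hσ hu hv
  · rw [cap_of_not hσ, cap_of_not hσ]

theorem cap_cap_sub (hc : X.IsWeight c) {a b : V → ℝ} (ha : a ∈ X.linFun) (hb : b ∈ X.linFun) :
    X.cap u (X.cap v c) σ = X.cap (u - a) (X.cap (v - b) c) σ := by
  rw [cap_sub_lin (hc.cap _) ha, cap_sub_lin hc hb]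

theorem isWeight_capList (htop : X.IsWeight top) :
    ∀ Ls : List (V → ℝ), X.IsWeight (X.capList top Ls)
  | [] => htop
  | L :: Ls => (isWeight_capList htop Ls).cap L

theorem capList_pos (htop : X.IsWeight top) {d : ℕ}
    (hpos : ∀ σ, X.IsCone σ → #σ = d → 0 < top σ)
    (hext : ∀ σ, X.IsCone σ → #σ < d → ∃ G, G ∉ σ ∧ X.IsCone (insert G σ)) :
    ∀ Ls : List (V → ℝ), (∀ L ∈ Ls, X.IsAmple L) → ∀ σ, X.IsCone σ → #σ + Ls.length = d →
      0 < X.capList top Ls σ := by
  intro Ls
  induction Ls with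
  | nil => exact fun _ σ hσ hd => hpos σ hσ hd
  | cons L Ls ih =>
    intro hL σ hσ hd
    obtain ⟨hL, hLs⟩ := List.forall_mem_cons.1 hL
    obtain ⟨m, hm, hm', hlt⟩ := hL σ hσ
    rw [List.length_cons] at hd
    change 0 < X.cap L (X.capList top Ls) σ
    rw [cap_eq (isWeight_capList htop Ls) hσ hm hm']
    obtain ⟨G, hG, hGσ⟩ := hext σ hσ (by omega)
    refine sum_pos' (fun K hK => ?_) ⟨G, mem_compl.2 hG, mul_pos
      (ih hLs _ hGσ (by rw [card_insert_of_notMem hG]; omega)) (sub_pos.2 (hlt G hG hGσ))⟩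
    rw [mem_compl] at hK
    by_cases hKσ : X.IsCone (insert K σ)
    · exact mul_nonneg (ih hLs _ hKσ (by rw [card_insert_of_notMem hK]; omega)).le
        (sub_nonneg.2 (hlt K hK hKσ).le)
    · rw [(isWeight_capList htop Ls).support _ hKσ, zero_mul]

/-- The matrix of the pairing on the link of `σ`. -/
def linkMatrix (X : RayFan V) (c : Finset V → ℝ) (σ : Finset V)
    (i j : {G // G ∉ σ ∧ X.IsCone (insert G σ)}) : ℝ :=
  X.cap (Pi.single i.1 1) c (insert j.1 σ)

variable [DecidablePred fun G => G ∉ σ ∧ X.IsCone (insert G σ)]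

omit [Fintype V] [DecidablePred fun G => G ∉ σ ∧ X.IsCone (insert G σ)] in
theorem single_vanish (i : {G // G ∉ σ ∧ X.IsCone (insert G σ)}) :
    ∀ G ∈ σ, (Pi.single i.1 1 : V → ℝ) G = 0 :=
  fun _ hG => Pi.single_eq_of_ne (ne_of_mem_of_not_mem hG i.2.1) _

omit [DecidablePred fun G => G ∉ σ ∧ X.IsCone (insert G σ)] in
theorem linkMatrix_comm (hc : X.IsWeight c) (hσ : X.IsCone σ)
    (i j : {G // G ∉ σ ∧ X.IsCone (insert G σ)}) :
    X.linkMatrix c σ i j = X.linkMatrix c σ j i := by
  have h := cap_swap hc hσ (single_vanish j) (single_vanish i)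
  rw [sum_eq_single_of_mem j.1 (mem_compl.2 j.2.1), sum_eq_single_of_mem i.1 (mem_compl.2 i.2.1)]
    at h
  · simpa [linkMatrix] using h
  · intro G _ hG; simp [hG]
  · intro G _ hG; simp [hG]

omit [DecidablePred fun G => G ∉ σ ∧ X.IsCone (insert G σ)] in
theorem cap_single (hc : X.IsWeight c) (hσ : X.IsCone σ)
    (i : {G // G ∉ σ ∧ X.IsCone (insert G σ)}) :
    X.cap (Pi.single i.1 1) c σ = c (insert i.1 σ) := by
  rw [cap_of_vanish hc hσ (single_vanish i), sum_eq_single_of_mem i.1 (mem_compl.2 i.2.1)]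
  · simp
  · intro G _ hG; simp [hG]

omit [Fintype V] in
theorem extLink_val (f : {G // G ∉ σ ∧ X.IsCone (insert G σ)} → ℝ)
    (i : {G // G ∉ σ ∧ X.IsCone (insert G σ)}) : X.extLink f i.1 = f i := dif_pos i.2

omit [Fintype V] in
theorem extLink_vanish (f : {G // G ∉ σ ∧ X.IsCone (insert G σ)} → ℝ) :
    ∀ G ∈ σ, X.extLink f G = 0 := fun _ hG => dif_neg fun h => h.1 hG

theorem extLink_eq_sum (f : {G // G ∉ σ ∧ X.IsCone (insert G σ)} → ℝ) :
    X.extLink f = fun G => ∑ i, f i * (Pi.single i.1 1 : V → ℝ) G := by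
  funext G
  by_cases h : G ∉ σ ∧ X.IsCone (insert G σ)
  · rw [sum_eq_single_of_mem (⟨G, h⟩ : {G // G ∉ σ ∧ X.IsCone (insert G σ)}) (mem_univ _)]
    · rw [extLink, dif_pos h]; simp
    · intro i _ hi
      rw [Pi.single_eq_of_ne fun e => hi (Subtype.ext e.symm), mul_zero]
  · rw [extLink, dif_neg h]
    refine (sum_eq_zero fun i _ => ?_).symm
    rw [Pi.single_eq_of_ne fun e => h (by rw [e]; exact i.2), mul_zero]

theorem sum_compl_eq (hc : X.IsWeight c) (u : V → ℝ) :
    ∑ G ∈ σᶜ, c (insert G σ) * u G =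
      ∑ i : {G // G ∉ σ ∧ X.IsCone (insert G σ)}, c (insert i.1 σ) * u i.1 := by
  rw [← sum_subtype (σᶜ.filter fun G => G ∉ σ ∧ X.IsCone (insert G σ)) (by simp)
    (f := fun G => c (insert G σ) * u G)]
  refine (sum_filter_of_ne fun G hG hne => ⟨mem_compl.1 hG, ?_⟩).symm
  by_contra h
  exact hne (by rw [hc.support _ h, zero_mul])

/-- The pairing on the link is the form of `linkMatrix`. -/
theorem cap_cap_eq_form (hc : X.IsWeight c) (hσ : X.IsCone σ) (hu : ∀ G ∈ σ, u G = 0)
    (hv : ∀ G ∈ σ, v G = 0) :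
    X.cap u (X.cap v c) σ = form (X.linkMatrix c σ) (fun i => u i.1) fun i => v i.1 := by
  have hrow : ∀ i : {G // G ∉ σ ∧ X.IsCone (insert G σ)},
      X.cap v c (insert i.1 σ) = ∑ j, X.linkMatrix c σ i j * v j.1 := fun i => by
    have h := cap_swap hc hσ (single_vanish i) hv
    rw [sum_eq_single_of_mem i.1 (mem_compl.2 i.2.1) fun G _ hG => by simp [hG],
      sum_compl_eq (hc.cap _)] at h
    simpa [linkMatrix] using h
  rw [cap_of_vanish (hc.cap v) hσ hu, sum_compl_eq (hc.cap v), form]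
  refine sum_congr rfl fun i _ => ?_
  rw [hrow, sum_mul]
  exact sum_congr rfl fun j _ => by ring

omit [DecidablePred fun G => G ∉ σ ∧ X.IsCone (insert G σ)] in
/-- **The Alexandrov–Fenchel inequality.** -/
theorem alexandrov_fenchel (htop : X.IsWeight top) {d : ℕ}
    (hpos : ∀ σ, X.IsCone σ → #σ = d → 0 < top σ)
    (hext : ∀ σ, X.IsCone σ → #σ < d → ∃ G, G ∉ σ ∧ X.IsCone (insert G σ))
    (hconn : ∀ σ, X.IsCone σ → #σ + 3 ≤ d → ∀ f : V → ℝ,
      (∀ G K, G ∉ σ → K ∉ σ → G ≠ K → X.IsCone (insert G (insert K σ)) → f G = f K) →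
      ∀ G K, G ∉ σ → K ∉ σ → X.IsCone (insert G σ) → X.IsCone (insert K σ) → f G = f K)
    (hbase : ∀ σ, X.IsCone σ → #σ + 2 = d → ∃ ℓ : V → ℝ, ∀ u : V → ℝ, (∀ G ∈ σ, u G = 0) →
      (∀ G, G ∉ σ → ¬X.IsCone (insert G σ) → u G = 0) → ∑ G, ℓ G * u G = 0 →
        X.cap u (X.cap u top) σ ≤ 0) :
    ∀ Ls : List (V → ℝ), (∀ L ∈ Ls, X.IsAmple L) → ∀ σ, X.IsCone σ → #σ + 2 + Ls.length = d →
      ∀ W, X.IsAmple W → ∀ v,
        X.cap v (X.cap v (X.capList top Ls)) σ * X.cap W (X.cap W (X.capList top Ls)) σ ≤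
          X.cap W (X.cap v (X.capList top Ls)) σ ^ 2 := by
  classical
  intro Ls
  induction Ls with
  | nil =>
    intro _ σ hσ hd W hW v
    change X.cap v (X.cap v top) σ * X.cap W (X.cap W top) σ ≤ X.cap W (X.cap v top) σ ^ 2
    obtain ⟨a, ha, ha'⟩ := X.exists_interp σ hσ v
    obtain ⟨b, hb, hb'⟩ := X.exists_interp σ hσ W
    have hv0 : ∀ G ∈ σ, (v - a) G = 0 := fun G hG => by rw [Pi.sub_apply, ha' G hG, sub_self]
    have hW0 : ∀ G ∈ σ, (W - b) G = 0 := fun G hG => by rw [Pi.sub_apply, hb' G hG, sub_self]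
    have hWW : 0 < X.cap W (X.cap W top) σ :=
      capList_pos htop hpos hext [W, W] (by simp [hW]) σ hσ (by simpa using hd)
    rw [cap_cap_sub (u := v) (v := v) htop ha ha, cap_cap_sub (u := W) (v := W) htop hb hb,
      cap_cap_sub (u := W) (v := v) htop hb ha, cap_cap_eq_form htop hσ hv0 hv0,
      cap_cap_eq_form htop hσ hW0 hW0, cap_cap_eq_form htop hσ hW0 hv0]
    rw [cap_cap_sub (u := W) (v := W) htop hb hb, cap_cap_eq_form htop hσ hW0 hW0] at hWW
    obtain ⟨ℓ, hℓ⟩ := hbase σ hσ (by simpa using hd)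
    refine form_le_of_hyperplane (linkMatrix_comm htop hσ) (fun i => ℓ i.1) (fun f hf => ?_) hWW _
    have h := hℓ (X.extLink f) (extLink_vanish f)
      (fun G hG hGσ => dif_neg fun h => hGσ h.2) ?_
    · rw [cap_cap_eq_form htop hσ (extLink_vanish f) (extLink_vanish f)] at h
      simpa only [extLink_val] using h
    · rw [← hf, extLink_eq_sum]
      simp only [mul_sum]
      rw [sum_comm]
      refine sum_congr rfl fun i _ => ?_
      rw [sum_eq_single_of_mem i.1 (mem_univ _) fun G _ hG => by simp [hG]]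
      simp
  | cons L Ls ih =>
    intro hL σ hσ hd W hW v
    obtain ⟨hLa, hLs⟩ := List.forall_mem_cons.1 hL
    rw [List.length_cons] at hd
    obtain ⟨c', hc'def⟩ : ∃ c', c' = X.capList top Ls := ⟨_, rfl⟩
    have hc' : X.IsWeight c' := hc'def ▸ isWeight_capList htop Ls
    obtain ⟨c, hcdef⟩ : ∃ c, c = X.cap L c' := ⟨_, rfl⟩
    have hc : X.IsWeight c := hcdef ▸ hc'.cap L
    change X.cap v (X.cap v (X.cap L (X.capList top Ls))) σ *
      X.cap W (X.cap W (X.cap L (X.capList top Ls))) σ ≤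
        X.cap W (X.cap v (X.cap L (X.capList top Ls))) σ ^ 2
    rw [← hc'def, ← hcdef]
    obtain ⟨a, ha, ha'⟩ := X.exists_interp σ hσ v
    obtain ⟨b, hb, hb'⟩ := X.exists_interp σ hσ W
    obtain ⟨m, hm, hm', hlt⟩ := hLa σ hσ
    have hv0 : ∀ G ∈ σ, (v - a) G = 0 := fun G hG => by rw [Pi.sub_apply, ha' G hG, sub_self]
    have hW0 : ∀ G ∈ σ, (W - b) G = 0 := fun G hG => by rw [Pi.sub_apply, hb' G hG, sub_self]
    have hWW : 0 < X.cap W (X.cap W c) σ := by
      rw [hcdef, hc'def]
      exact capList_pos htop hpos hext (W :: W :: L :: Ls)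
        (by simp only [List.forall_mem_cons]; exact ⟨hW, hW, hLa, hLs⟩) σ hσ
        (by simp only [List.length_cons]; omega)
    rw [cap_cap_sub (u := v) (v := v) hc ha ha, cap_cap_sub (u := W) (v := W) hc hb hb,
      cap_cap_sub (u := W) (v := v) hc hb ha, cap_cap_eq_form hc hσ hv0 hv0,
      cap_cap_eq_form hc hσ hW0 hW0, cap_cap_eq_form hc hσ hW0 hv0]
    rw [cap_cap_sub (u := W) (v := W) hc hb hb, cap_cap_eq_form hc hσ hW0 hW0] at hWW
    obtain ⟨w, hw⟩ : ∃ w : {G // G ∉ σ ∧ X.IsCone (insert G σ)} → ℝ,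
        w = fun i => L i.1 - m i.1 := ⟨_, rfl⟩
    have hwL : ∀ {C : Finset V → ℝ}, X.IsWeight C → ∀ τ, σ ⊆ τ →
        X.cap (X.extLink w) C τ = X.cap L C τ := fun {C} hC τ hτσ => by
      by_cases hτ : X.IsCone τ
      · rw [← cap_sub_lin hC hm (u := L)]
        refine cap_congr hC hτ fun G hG => ?_
        by_cases hGσ : G ∈ σ
        · rw [extLink_vanish w G hGσ, Pi.sub_apply, hm' G hGσ, sub_self]
        have h : X.IsCone (insert G σ) := by
          rcases hG with hG | hG
          · exact X.cone_down (insert_subset hG hτσ) hτ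
          · exact X.cone_down (insert_subset_insert _ hτσ) hG
        rw [extLink, dif_pos ⟨hGσ, h⟩, hw, Pi.sub_apply]
      · rw [cap_of_not hτ, cap_of_not hτ]
    obtain ⟨T, hT⟩ : ∃ T : {G // G ∉ σ ∧ X.IsCone (insert G σ)} →
        {G // G ∉ σ ∧ X.IsCone (insert G σ)} → {G // G ∉ σ ∧ X.IsCone (insert G σ)} → ℝ,
        T = fun k i j => X.cap (Pi.single i.1 1) (X.cap (Pi.single j.1 1) c') (insert k.1 σ) :=
      ⟨_, rfl⟩
    have hTform : ∀ k f f', X.cap (X.extLink f) (X.cap (X.extLink f') c') (insert k.1 σ) =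
        form (T k) f f' := fun k f f' => by
      rw [extLink_eq_sum f, cap_sum (hc'.cap _), form]
      refine sum_congr rfl fun i _ => ?_
      rw [cap_comm hc', extLink_eq_sum f', cap_sum (hc'.cap _), mul_sum]
      refine sum_congr rfl fun j _ => ?_
      rw [hT, cap_comm hc']
      ring
    have hne : Nonempty {G // G ∉ σ ∧ X.IsCone (insert G σ)} := by
      obtain ⟨G, hG⟩ := hext σ hσ (by omega)
      exact ⟨⟨G, hG⟩⟩
    have hdeg : ∀ i : {G // G ∉ σ ∧ X.IsCone (insert G σ)}, 0 < X.cap L c (insert i.1 σ) :=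
      fun i => by
      rw [hcdef, hc'def]
      exact capList_pos htop hpos hext (L :: L :: Ls)
        (by simp only [List.forall_mem_cons]; exact ⟨hLa, hLa, hLs⟩) _ i.2.2
        (by rw [card_insert_of_notMem i.2.1]; simp only [List.length_cons]; omega)
    have hkey : ∀ f, form (X.linkMatrix c σ) f f * form (X.linkMatrix c σ) w w ≤
        form (X.linkMatrix c σ) w f ^ 2 := by
      refine signature_connected (X.linkMatrix c σ) T w
        (fun i => X.cap L c (insert i.1 σ) / 2) one_lt_two (linkMatrix_comm hc hσ)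
        (fun i j hij => ?_) (fun i => hw ▸ sub_pos.2 (hlt i.1 i.2.1 i.2.2))
        (fun i => half_pos (hdeg i)) (fun i => ?_) (fun k i => ?_) (fun i j => ?_)
        (fun k i j => by rw [hT]; exact congrFun (cap_comm hc' _ _) _) (fun k f => ?_)
        (fun f hf i j => ?_)
      · have hne : j.1 ≠ i.1 := fun e => hij (Subtype.ext e.symm)
        rw [linkMatrix]
        by_cases hcone : X.IsCone (insert i.1 (insert j.1 σ))
        · have hnot : i.1 ∉ insert j.1 σ := by simp [i.2.1, Ne.symm hne]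
          rw [cap_of_vanish hc j.2.2 fun G hG => Pi.single_eq_of_ne
            (ne_of_mem_of_not_mem hG hnot) _, sum_eq_single_of_mem i.1 (mem_compl.2 hnot)
            fun G _ hG => by simp [hG], hcdef, hc'def, Pi.single_eq_same, mul_one]
          exact (capList_pos htop hpos hext (L :: Ls) hL _ hcone (by
            rw [card_insert_of_notMem hnot, card_insert_of_notMem j.2.1]
            simp only [List.length_cons]; omega)).le
        · refine le_of_eq (Eq.symm ?_)
          rw [cap_congr hc j.2.2 (u' := fun _ => 0) fun G hG => ?_,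
            cap_of_vanish hc j.2.2 fun _ _ => rfl]
          · simp
          · refine Pi.single_eq_of_ne (fun e => ?_) _
            subst e
            rcases hG with hG | hG
            · simp [i.2.1, Ne.symm hne] at hG
            · exact hcone hG
      · rw [mul_div_cancel₀ _ two_ne_zero, ← hwL hc _ (subset_insert _ _), extLink_eq_sum,
          cap_sum hc]
        refine sum_congr rfl fun j _ => ?_
        rw [linkMatrix_comm hc hσ, linkMatrix]
        ring
      · rw [show (2 : ℝ) - 1 = 1 by norm_num, one_mul, linkMatrix_comm hc hσ, linkMatrix, hcdef,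
          cap_comm hc', ← hwL (hc'.cap _) _ (subset_insert _ _), extLink_eq_sum,
          cap_sum (hc'.cap _)]
        refine sum_congr rfl fun j _ => ?_
        rw [hT, cap_comm hc']
        ring
      · rw [show (2 : ℝ) - 1 = 1 by norm_num, one_mul]
        have hC : X.IsWeight (X.cap (Pi.single i.1 1) (X.cap (Pi.single j.1 1) c')) :=
          (hc'.cap _).cap _
        have h := hwL hC σ subset_rfl
        have e : X.cap L (X.cap (Pi.single i.1 1) (X.cap (Pi.single j.1 1) c')) =
            X.cap (Pi.single i.1 1) (X.cap (Pi.single j.1 1) c) := by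
          rw [cap_comm (hc'.cap _) L, cap_comm hc' L, ← hcdef]
        rw [e, cap_single (hc.cap _) hσ i, cap_of_vanish hC hσ (extLink_vanish w),
          sum_compl_eq hC] at h
        rw [linkMatrix_comm hc hσ, linkMatrix, ← h]
        refine sum_congr rfl fun k _ => ?_
        rw [hT, extLink_val]
        ring
      · have h := ih hLs (insert k.1 σ) k.2.2
          (by rw [card_insert_of_notMem k.2.1]; omega) L hLa (X.extLink f)
        rw [← hc'def, ← hwL (hc'.cap L) _ (subset_insert _ _),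
          ← hwL (hc'.cap (X.extLink f)) _ (subset_insert _ _), cap_comm hc' (X.extLink w) L,
          ← hwL (hc'.cap (X.extLink w)) _ (subset_insert _ _), hTform, hTform, hTform] at h
        exact h
      · refine (extLink_val f i).symm.trans
          ((hconn σ hσ (by omega) (X.extLink f) (fun G K hG hK hne hcone => ?_) i.1 j.1 i.2.1
            j.2.1 i.2.2 j.2.2).trans (extLink_val f j))
        have hG' : X.IsCone (insert G σ) :=
          X.cone_down (insert_subset_insert _ (subset_insert _ _)) hcone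
        have hK' : X.IsCone (insert K σ) := X.cone_down (subset_insert _ _) hcone
        have hnot : G ∉ insert K σ := by simp [hG, hne]
        rw [extLink, dif_pos ⟨hG, hG'⟩, extLink, dif_pos ⟨hK, hK'⟩]
        refine hf ⟨G, hG, hG'⟩ ⟨K, hK, hK'⟩ (fun e => hne (congrArg Subtype.val e)) ?_
        rw [linkMatrix, cap_of_vanish hc hK' fun A hA => Pi.single_eq_of_ne
          (ne_of_mem_of_not_mem hA hnot) _, sum_eq_single_of_mem G (mem_compl.2 hnot)
          fun A _ hA => by simp [hA], hcdef, hc'def, Pi.single_eq_same, mul_one]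
        exact capList_pos htop hpos hext (L :: Ls) hL _ hcone (by
          rw [card_insert_of_notMem hnot, card_insert_of_notMem hK]
          simp only [List.length_cons]; omega)
    have hww : 0 < form (X.linkMatrix c σ) w w := by
      have h : 0 < X.cap L (X.cap L c) σ := by
        rw [hcdef, hc'def]
        exact capList_pos htop hpos hext (L :: L :: L :: Ls)
          (by simp only [List.forall_mem_cons]; exact ⟨hLa, hLa, hLa, hLs⟩) σ hσ
          (by simp only [List.length_cons]; omega)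
      rw [← hwL (hc.cap L) σ subset_rfl, cap_comm hc, ← hwL (hc.cap _) σ subset_rfl,
        cap_cap_eq_form hc hσ (extLink_vanish w) (extLink_vanish w)] at h
      simpa only [extLink_val] using h
    refine form_le_of_hyperplane (linkMatrix_comm hc hσ)
      (fun j => ∑ i, w i * X.linkMatrix c σ i j) (fun f hf => ?_) hWW _
    have h0 : form (X.linkMatrix c σ) w f = 0 := by
      rw [← hf, form, sum_comm]
      simp only [sum_mul]
    have h := hkey f
    rw [h0] at h
    nlinarith

end RayFan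

end FA.MatroidLogConcave
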