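import Fermat.Agent.MatroidLogConcave.Fan
import Mathlib.Data.Fintype.Powerset
import Mathlib.Order.Interval.Finset.Nat

/-!
# The Bergman fan of a geometric lattice

The chains of proper nonempty flats form a balanced fan with connected links, in which `|G| (n -
|G|)` is strictly convex and whose codimension two pairings have one positive square at most.
-/

set_option autoImplicit false

noncomputable section

namespace FA.MatroidLogConcave

open Finset

/-- A rank function on the flats of a closure operator with closed empty set, with the covering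
property. -/
structure FlatLattice (α : Type*) [Fintype α] [DecidableEq α] where
  cl : Finset α → Finset α
  rk : Finset α → ℕ
  subset_cl : ∀ A, A ⊆ cl A
  cl_cl : ∀ A, cl (cl A) = cl A
  cl_mono : ∀ {A B : Finset α}, A ⊆ B → cl A ⊆ cl B
  cl_empty : cl ∅ = ∅
  rk_empty : rk ∅ = 0
  rk_lt : ∀ {F G : Finset α}, cl F = F → cl G = G → F ⊂ G → rk F < rk G
  rk_cl_insert : ∀ {F : Finset α} {i : α}, cl F = F → i ∉ F → rk (cl (insert i F)) = rk F + 1

namespace FlatLattice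

variable {α : Type*} [Fintype α] [DecidableEq α] (L : FlatLattice α)

/-- The rank of the lattice. -/
def rank : ℕ := L.rk univ

/-- The proper nonempty flats. -/
abbrev Ray : Type _ := {F : Finset α // L.cl F = F ∧ F.Nonempty ∧ F ≠ univ}

/-- The flats of rank one more between two flats. -/
def covers (P Q : Finset α) : Finset (Finset α) :=
  univ.filter fun G => L.cl G = G ∧ P ⊆ G ∧ G ⊆ Q ∧ L.rk G = L.rk P + 1

theorem cl_univ : L.cl univ = univ := eq_univ_of_forall fun i => L.subset_cl univ (mem_univ i)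

theorem rk_le_of_subset {F G : Finset α} (hF : L.cl F = F) (hG : L.cl G = G) (h : F ⊆ G) :
    L.rk F ≤ L.rk G := by
  rcases eq_or_lt_of_le h with rfl | h
  · exact le_rfl
  · exact (L.rk_lt hF hG h).le

theorem eq_of_subset_of_rk_le {F G : Finset α} (hF : L.cl F = F) (hG : L.cl G = G) (h : F ⊆ G)
    (hr : L.rk G ≤ L.rk F) : F = G :=
  (eq_or_lt_of_le h).resolve_right fun h => absurd (L.rk_lt hF hG h) (not_lt.2 hr)

theorem cl_insert_eq {P G : Finset α} {i : α} (hP : L.cl P = P) (hG : L.cl G = G) (hPG : P ⊆ G)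
    (hr : L.rk G = L.rk P + 1) (hi : i ∈ G) (hiP : i ∉ P) : L.cl (insert i P) = G := by
  refine L.eq_of_subset_of_rk_le (L.cl_cl _) hG ?_ (by rw [L.rk_cl_insert hP hiP, hr])
  rw [← hG]
  exact L.cl_mono (insert_subset hi hPG)

theorem exists_between {P Q : Finset α} (hP : L.cl P = P) (hQ : L.cl Q = Q) (hPQ : P ⊆ Q) :
    ∀ k, L.rk P ≤ k → k ≤ L.rk Q → ∃ G, L.cl G = G ∧ P ⊆ G ∧ G ⊆ Q ∧ L.rk G = k := by
  intro k
  induction k with
  | zero => exact fun h _ => ⟨P, hP, subset_rfl, hPQ, Nat.le_zero.1 h⟩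
  | succ k ih =>
    intro h1 h2
    rcases Nat.lt_or_ge k (L.rk P) with hk | hk
    · exact ⟨P, hP, subset_rfl, hPQ, by omega⟩
    obtain ⟨G, hG, hPG, hGQ, hGk⟩ := ih hk (by omega)
    obtain ⟨i, hiQ, hiG⟩ := exists_of_ssubset
      (lt_of_le_of_ne hGQ fun e => by subst e; omega : G ⊂ Q)
    exact ⟨L.cl (insert i G), L.cl_cl _, hPG.trans ((subset_insert i G).trans (L.subset_cl _)),
      hQ ▸ L.cl_mono (insert_subset hiQ hGQ), by rw [L.rk_cl_insert hG hiG, hGk]⟩

theorem sum_covers {P Q : Finset α} (hP : L.cl P = P) (y : α → ℝ) :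
    ∑ G ∈ L.covers P Q, ∑ i ∈ G \ P, y i = ∑ i ∈ (Q \ P).filter
      (fun i => L.cl (insert i P) ⊆ Q), y i := by
  classical
  rw [← sum_biUnion]
  · refine sum_congr ?_ fun _ _ => rfl
    ext i
    simp only [mem_biUnion, covers, mem_filter, mem_univ, true_and, mem_sdiff]
    constructor
    · rintro ⟨G, ⟨hG, hPG, hGQ, hr⟩, hiG, hiP⟩
      exact ⟨⟨hGQ hiG, hiP⟩, by rw [L.cl_insert_eq hP hG hPG hr hiG hiP]; exact hGQ⟩
    · rintro ⟨⟨-, hiP⟩, hsub⟩
      exact ⟨L.cl (insert i P), ⟨L.cl_cl _, (subset_insert i P).trans (L.subset_cl _), hsub,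
        L.rk_cl_insert hP hiP⟩, L.subset_cl _ (mem_insert_self i P), hiP⟩
  · intro G hG G' hG' hne
    simp only [covers, coe_filter, mem_univ, true_and, Set.mem_ofPred_eq] at hG hG'
    refine disjoint_left.2 fun i h h' => hne ?_
    rw [mem_sdiff] at h h'
    rw [← L.cl_insert_eq hP hG.1 hG.2.1 hG.2.2.2 h.1 h.2,
      L.cl_insert_eq hP hG'.1 hG'.2.1 hG'.2.2.2 h'.1 h.2]

theorem sum_covers_eq {P Q : Finset α} (hP : L.cl P = P) (hQ : L.cl Q = Q) (hPQ : P ⊆ Q)
    (y : α → ℝ) : ∑ G ∈ L.covers P Q, ∑ i ∈ G \ P, y i = ∑ i ∈ Q \ P, y i := by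
  rw [L.sum_covers hP, filter_true_of_mem fun i hi => ?_]
  rw [← hQ]
  exact L.cl_mono (insert_subset (mem_sdiff.1 hi).1 hPQ)

omit [Fintype α] in
/-- Weights interpolating prescribed values on a chain, uniform on the gaps. -/
theorem exists_weights (n : ℝ) : ∀ (N : ℕ) (F : Finset α) (σ : Finset (Finset α)), #σ ≤ N →
    (∀ K ∈ σ, K ⊂ F ∧ K.Nonempty) → (∀ K ∈ σ, ∀ K' ∈ σ, K ⊆ K' ∨ K' ⊆ K) → F.Nonempty →
    ∀ φ : Finset α → ℝ, ∃ x : α → ℝ, (∀ i, i ∉ F → x i = 0) ∧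
      (∀ K ∈ insert F σ, ∑ i ∈ K, x i = φ K) ∧
      ((∀ K, φ K = #K * (n - #K)) → ∀ G, G ⊂ F → G.Nonempty → G ∉ σ →
        (∀ K ∈ σ, K ⊆ G ∨ G ⊆ K) → ∑ i ∈ G, x i < φ G) := by
  intro N
  induction N with
  | zero =>
    intro F σ hN _ _ hF φ
    obtain rfl : σ = ∅ := card_eq_zero.1 (Nat.le_zero.1 hN)
    refine ⟨fun i => if i ∈ F then φ F / #F else 0, fun i hi => if_neg hi, fun K hK => ?_,
      fun hφ G hG hG0 _ _ => ?_⟩
    · obtain rfl : K = F := by simpa using hK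
      have : (#K : ℝ) ≠ 0 := Nat.cast_ne_zero.2 hF.card_pos.ne'
      simp only [sum_ite_mem, inter_self, sum_const, nsmul_eq_mul]
      field_simp
    · simp only [sum_ite_mem, inter_eq_left.2 hG.1, sum_const, nsmul_eq_mul, hφ]
      have h1 : (#G : ℝ) < #F := Nat.cast_lt.2 (card_lt_card hG)
      have h2 : (0 : ℝ) < #G := Nat.cast_pos.2 hG0.card_pos
      rw [mul_div_cancel_left₀ _ (by linarith : (#F : ℝ) ≠ 0)]
      exact mul_lt_mul_of_pos_left (by linarith) h2
  | succ N ih =>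
    intro F σ hN hsub hch hF φ
    rcases σ.eq_empty_or_nonempty with rfl | hne
    · exact ih F ∅ (by simp) (by simp) (by simp) hF φ
    obtain ⟨P, hP, hmax⟩ := exists_max_image σ (fun K => #K) hne
    have hbelow : ∀ K ∈ σ, K ⊆ P := fun K hK =>
      (hch K hK P hP).elim id fun h => (eq_of_subset_of_card_le h (hmax K hK)).ge
    obtain ⟨x', hx0, hx, hxamp⟩ := ih P (σ.erase P)
      (by rw [card_erase_of_mem hP]; omega)
      (fun K hK => ⟨lt_of_le_of_ne (hbelow K (mem_of_mem_erase hK)) (ne_of_mem_erase hK),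
        (hsub K (mem_of_mem_erase hK)).2⟩)
      (fun K hK K' hK' => hch K (mem_of_mem_erase hK) K' (mem_of_mem_erase hK'))
      (hsub P hP).2 φ
    rw [insert_erase hP] at hx
    obtain ⟨hPF, hP0⟩ := hsub P hP
    obtain ⟨s, hs⟩ : ∃ s, s = (φ F - φ P) / (#F - #P) := ⟨_, rfl⟩
    have hd : (#P : ℝ) < #F := Nat.cast_lt.2 (card_lt_card hPF)
    have hsum : ∀ G, G ⊆ F → ∑ i ∈ G, (x' i + if i ∈ F \ P then s else 0) =
        ∑ i ∈ G, x' i + #(G \ P) * s := fun G hG => by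
      rw [sum_add_distrib, sum_ite_mem, sum_const, nsmul_eq_mul]
      congr 3
      rw [inter_sdiff_left_comm, inter_eq_right.2 (sdiff_subset.trans hG)]
    have hlow : ∀ G, G ⊆ P → (#(G \ P) : ℝ) = 0 := fun G hG => by
      simp [sdiff_eq_empty_iff_subset.2 hG]
    have hup : ∀ G, P ⊆ G → ∑ i ∈ G, x' i = φ P := fun G hG => by
      rw [← hx P hP]
      exact (sum_subset hG fun i _ hi => hx0 i hi).symm
    refine ⟨fun i => x' i + if i ∈ F \ P then s else 0, fun i hi => ?_, fun K hK => ?_,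
      fun hφ G hG hG0 hGσ hcomp => ?_⟩
    · simp only
      rw [hx0 i fun h => hi (hPF.1 h), if_neg fun h => hi (mem_sdiff.1 h).1, add_zero]
    · rcases mem_insert.1 hK with rfl | hK
      · rw [hsum K subset_rfl, hup K hPF.1, card_sdiff_of_subset hPF.1,
          Nat.cast_sub (card_le_card hPF.1), hs]
        field_simp [sub_ne_zero.2 hd.ne']
        ring
      · rw [hsum K (hsub K hK).1.1, hlow K (hbelow K hK), hx K hK]
        simp
    · rw [hsum G hG.1]
      rcases hcomp P hP with hPG | hGP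
      · have hlt : (#P : ℝ) < #G := Nat.cast_lt.2
          (card_lt_card (lt_of_le_of_ne hPG fun e => hGσ (e ▸ hP)))
        have hGF : (#G : ℝ) < #F := Nat.cast_lt.2 (card_lt_card hG)
        rw [hup G hPG, card_sdiff_of_subset hPG, Nat.cast_sub (card_le_card hPG), hs, hφ G, hφ F,
          hφ P]
        rw [show (#F * (n - #F) - #P * (n - #P)) / ((#F : ℝ) - #P) = n - #F - #P by
          field_simp [sub_ne_zero.2 hd.ne']; ring]
        nlinarith [mul_pos (sub_pos.2 hlt) (sub_pos.2 hGF)]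
      · rw [hlow G hGP, zero_mul, add_zero]
        exact hxamp hφ G (lt_of_le_of_ne hGP fun e => hGσ (e ▸ hP)) hG0
          (fun h => hGσ (mem_of_mem_erase h)) fun K hK => hcomp K (mem_of_mem_erase hK)

/-- Linear functions on the rays. -/
def linear : Submodule ℝ (L.Ray → ℝ) where
  carrier := {m | ∃ x : α → ℝ, ∑ i, x i = 0 ∧ ∀ G : L.Ray, m G = ∑ i ∈ G.1, x i}
  zero_mem' := ⟨0, by simp, fun G => by simp⟩
  add_mem' := by
    rintro m m' ⟨x, hx, hm⟩ ⟨y, hy, hm'⟩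
    exact ⟨x + y, by simp [sum_add_distrib, hx, hy], fun G => by
      simp [sum_add_distrib, hm G, hm' G]⟩
  smul_mem' := by
    rintro a m ⟨x, hx, hm⟩
    exact ⟨a • x, by simp [← mul_sum, hx], fun G => by simp [← mul_sum, hm G]⟩

theorem exists_linear (σ : Finset L.Ray) (hσ : ∀ F ∈ σ, ∀ G ∈ σ, F.1 ⊆ G.1 ∨ G.1 ⊆ F.1)
    [Nonempty α] (φ : Finset α → ℝ) (hφ : φ univ = 0) :
    ∃ m ∈ L.linear, (∀ G ∈ σ, m G = φ G.1) ∧
      ((∀ K, φ K = #K * ((Fintype.card α : ℝ) - #K)) → ∀ G : L.Ray, G ∉ σ →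
        (∀ K ∈ σ, K.1 ⊆ G.1 ∨ G.1 ⊆ K.1) → m G < φ G.1) := by
  obtain ⟨x, -, hx, hamp⟩ := exists_weights (Fintype.card α : ℝ) _ univ
    (σ.map (Function.Embedding.subtype _)) le_rfl
    (fun K hK => by
      obtain ⟨F, -, rfl⟩ := mem_map.1 hK
      exact ⟨ssubset_univ_iff.2 F.2.2.2, F.2.2.1⟩)
    (fun K hK K' hK' => by
      obtain ⟨F, hF, rfl⟩ := mem_map.1 hK
      obtain ⟨F', hF', rfl⟩ := mem_map.1 hK'
      exact hσ F hF F' hF') univ_nonempty φ
  refine ⟨fun G => ∑ i ∈ G.1, x i, ⟨x, ?_, fun _ => rfl⟩, fun G hG => ?_, fun h G hG hcomp => ?_⟩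
  · rw [hx univ (mem_insert_self _ _), hφ]
  · exact hx G.1 (mem_insert_of_mem (mem_map_of_mem _ hG))
  · refine hamp h G.1 (ssubset_univ_iff.2 G.2.2.2) G.2.2.1 (fun hmem => hG ?_) fun K hK => ?_
    · obtain ⟨F, hF, e⟩ := mem_map.1 hmem
      rwa [← Subtype.ext (a1 := F) (a2 := G) e]
    · obtain ⟨F, hF, rfl⟩ := mem_map.1 hK
      exact hcomp F hF

/-- The Bergman fan. -/
def fan [Nonempty α] : RayFan L.Ray where
  IsCone σ := ∀ F ∈ σ, ∀ G ∈ σ, F.1 ⊆ G.1 ∨ G.1 ⊆ F.1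
  cone_down hsub h F hF G hG := h F (hsub hF) G (hsub hG)
  linFun := L.linear
  exists_interp σ hσ u := by
    classical
    obtain ⟨m, hm, hm', -⟩ := L.exists_linear σ hσ
      (fun K => if h : L.cl K = K ∧ K.Nonempty ∧ K ≠ univ then u ⟨K, h⟩ else 0)
      (dif_neg fun h => h.2.2 rfl)
    exact ⟨m, hm, fun G hG => (hm' G hG).trans (dif_pos G.2)⟩

end FlatLattice

end FA.MatroidLogConcave
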