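import Fermat.Agent.MatroidLogConcave.Signature
import Mathlib.Combinatorics.Matroid.Basic
import Mathlib.Algebra.Order.Chebyshev
import Mathlib.Data.Nat.Factorial.Basic
import Mathlib.Topology.Algebra.Order.Field

/-!
# Mason's conjecture

The derivatives of `∑ y ^ (n - |I|) x ^ I` over the independent sets of a matroid, at `x = 1` and
`y = ε`, are the sums `indepWeight`. Their Hessians satisfy the Alexandrov–Fenchel inequality: for
quadrics by the transitivity of parallelism, above by the signature lemma.
-/

set_option autoImplicit false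

noncomputable section

namespace FA.MatroidLogConcave

open Finset

variable {α : Type*} [Fintype α] [DecidableEq α] (M : Matroid α)

open scoped Classical in
/-- The independent sets. -/
def indepFinsets : Finset (Finset α) := univ.filter fun I => M.Indep ↑I

/-- The number of independent sets of size `k`. -/
def indepCount (k : ℕ) : ℕ := #((indepFinsets M).filter fun I => #I = k)

/-- `∂_y ^ a ∂_x ^ S` of the independence polynomial at `y = ε`, `x = 1`. -/
def indepWeight (ε : ℝ) (S : Finset α) (a : ℕ) : ℝ :=
  ∑ I ∈ (indepFinsets M).filter fun I => S ⊆ I,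
    ((M.E.ncard - #I).descFactorial a : ℝ) * ε ^ (M.E.ncard - #I - a)

/-- The gradient. -/
def gradW (ε : ℝ) (S : Finset α) (a : ℕ) : Option α → ℝ
  | none => indepWeight M ε S (a + 1)
  | some e => if e ∈ S then 0 else indepWeight M ε (insert e S) a

/-- The Hessian. -/
def hessW (ε : ℝ) (S : Finset α) (a : ℕ) : Option α → Option α → ℝ
  | none, j => gradW M ε S (a + 1) j
  | some e, j => if e ∈ S then 0 else gradW M ε (insert e S) a j

/-- The third derivatives. -/
def thirdW (ε : ℝ) (S : Finset α) (a : ℕ) : Option α → Option α → Option α → ℝ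
  | none => hessW M ε S (a + 1)
  | some e => fun i j => if e ∈ S then 0 else hessW M ε (insert e S) a i j

/-- The evaluation point. -/
def point (ε : ℝ) : Option α → ℝ
  | none => ε
  | some _ => 1

variable {M} {ε : ℝ}

omit [DecidableEq α] in
theorem mem_indepFinsets {I : Finset α} : I ∈ indepFinsets M ↔ M.Indep ↑I := by
  simp [indepFinsets]

omit [DecidableEq α] in
theorem card_le_of_indep {I : Finset α} (h : M.Indep ↑I) : #I ≤ M.E.ncard := by
  rw [← Set.ncard_coe_finset]
  exact Set.ncard_le_ncard h.subset_ground (Set.toFinite _)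

theorem indepWeight_nonneg (hε : 0 ≤ ε) (S : Finset α) (a : ℕ) : 0 ≤ indepWeight M ε S a :=
  sum_nonneg fun _ _ => mul_nonneg (Nat.cast_nonneg _) (pow_nonneg hε _)

theorem indep_of_indepWeight_ne_zero {S : Finset α} {a : ℕ} (h : indepWeight M ε S a ≠ 0) :
    M.Indep ↑S := by
  obtain ⟨I, hI⟩ := nonempty_of_sum_ne_zero h
  obtain ⟨hI, hSI⟩ := mem_filter.1 hI
  exact (mem_indepFinsets.1 hI).subset (coe_subset.2 hSI)

theorem indepWeight_pos (hε : 0 < ε) {S : Finset α} (hS : M.Indep ↑S) {a : ℕ}
    (ha : a + #S ≤ M.E.ncard) : 0 < indepWeight M ε S a :=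
  sum_pos' (fun I _ => mul_nonneg (Nat.cast_nonneg _) (pow_nonneg hε.le _))
    ⟨S, mem_filter.2 ⟨mem_indepFinsets.2 hS, subset_rfl⟩,
      mul_pos (Nat.cast_pos.2 (Nat.descFactorial_pos.2 (by omega))) (pow_pos hε _)⟩

theorem euler (S : Finset α) {a d : ℕ} (hd : #S + a + d = M.E.ncard) :
    ε * indepWeight M ε S (a + 1) +
      ∑ e, (if e ∈ S then 0 else indepWeight M ε (insert e S) a) =
        d * indepWeight M ε S a := by
  obtain ⟨t, ht⟩ : ∃ t : Finset α → ℝ,
      t = fun I => ((M.E.ncard - #I).descFactorial a : ℝ) * ε ^ (M.E.ncard - #I - a) := ⟨_, rfl⟩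
  have hsum : ∑ e, (if e ∈ S then 0 else indepWeight M ε (insert e S) a) =
      ∑ I ∈ (indepFinsets M).filter fun I => S ⊆ I, (#(I \ S) : ℝ) * t I := by
    calc ∑ e, (if e ∈ S then 0 else indepWeight M ε (insert e S) a)
        = ∑ e ∈ univ \ S, ∑ I ∈ (indepFinsets M).filter fun I => insert e S ⊆ I, t I := by
          rw [sum_ite, sum_const_zero, zero_add, filter_not, filter_mem_eq_inter, univ_inter]
          exact sum_congr rfl fun e _ => by rw [ht]; rfl
      _ = ∑ I ∈ (indepFinsets M).filter fun I => S ⊆ I, ∑ _e ∈ I \ S, t I := by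
          refine sum_comm' fun e I => ?_
          simp only [mem_sdiff, mem_univ, true_and, mem_filter, insert_subset_iff]
          tauto
      _ = _ := sum_congr rfl fun I _ => by rw [sum_const, nsmul_eq_mul]
  rw [hsum, indepWeight, indepWeight, mul_sum, mul_sum, ← sum_add_distrib]
  refine sum_congr rfl fun I hI => ?_
  obtain ⟨hI, hSI⟩ := mem_filter.1 hI
  have hc := card_le_of_indep (mem_indepFinsets.1 hI)
  have hS := card_le_card hSI
  rw [ht, card_sdiff_of_subset hSI]
  obtain ⟨m, hm⟩ : ∃ m, m = M.E.ncard - #I := ⟨_, rfl⟩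
  simp only [← hm]
  rcases lt_trichotomy m a with h | h | h
  · simp [Nat.descFactorial_eq_zero_iff_lt.2 h]
  · rw [h, Nat.descFactorial_eq_zero_iff_lt.2 (Nat.lt_succ_self a),
      show #I - #S = d by omega]
    simp
  · rw [Nat.descFactorial_succ, Nat.cast_mul]
    obtain ⟨j, hj⟩ : ∃ j, m = a + 1 + j := ⟨m - a - 1, by omega⟩
    rw [show m - (a + 1) = j by omega, show m - a = j + 1 by omega,
      show d = j + 1 + (#I - #S) by omega, pow_succ]
    push_cast
    ring

theorem indepWeight_top (S : Finset α) {a : ℕ} (h : #S + a = M.E.ncard) [Decidable (M.Indep ↑S)] :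
    indepWeight M ε S a = if M.Indep ↑S then (a.factorial : ℝ) else 0 := by
  by_cases hS : M.Indep ↑S
  · rw [if_pos hS, indepWeight, sum_eq_single_of_mem S
      (mem_filter.2 ⟨mem_indepFinsets.2 hS, subset_rfl⟩)]
    · rw [show M.E.ncard - #S = a by omega, Nat.descFactorial_self]
      simp
    · intro I hI hne
      obtain ⟨hI', hSI⟩ := mem_filter.1 hI
      have := card_le_of_indep (mem_indepFinsets.1 hI')
      have := card_lt_card (lt_of_le_of_ne hSI (Ne.symm hne) : S ⊂ I)
      rw [Nat.descFactorial_eq_zero_iff_lt.2 (by omega), Nat.cast_zero, zero_mul]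
  · rw [if_neg hS]
    by_contra hne
    exact hS (indep_of_indepWeight_ne_zero hne)

theorem gradW_nonneg (hε : 0 ≤ ε) (S : Finset α) (a : ℕ) (i : Option α) :
    0 ≤ gradW M ε S a i := by
  cases i with
  | none => exact indepWeight_nonneg hε _ _
  | some e =>
    simp only [gradW]; split_ifs <;> first | exact le_rfl | exact indepWeight_nonneg hε _ _

theorem hessW_nonneg (hε : 0 ≤ ε) (S : Finset α) (a : ℕ) (i j : Option α) :
    0 ≤ hessW M ε S a i j := by
  cases i with
  | none => exact gradW_nonneg hε _ _ _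
  | some e =>
    simp only [hessW]; split_ifs <;> first | exact le_rfl | exact gradW_nonneg hε _ _ _

theorem hessW_comm (S : Finset α) (a : ℕ) (i j : Option α) :
    hessW M ε S a i j = hessW M ε S a j i := by
  rcases i with _ | e <;> rcases j with _ | f <;> simp only [hessW, gradW]
  by_cases he : e ∈ S <;> by_cases hf : f ∈ S <;> simp [he, hf, Finset.insert_comm e f, eq_comm]

theorem thirdW_comm (S : Finset α) (a : ℕ) (k i j : Option α) :
    thirdW M ε S a k i j = thirdW M ε S a i k j := by
  rcases k with _ | e <;> rcases i with _ | f <;> simp only [thirdW, hessW]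
  by_cases he : e ∈ S <;> by_cases hf : f ∈ S <;> simp [he, hf, Finset.insert_comm e f, eq_comm]

theorem gradW_euler (S : Finset α) {a d : ℕ} (hd : #S + a + d = M.E.ncard) :
    ∑ j, gradW M ε S a j * point ε j = d * indepWeight M ε S a := by
  rw [Fintype.sum_option, ← euler S hd]
  simp [gradW, point, mul_comm ε]

theorem hessW_euler (S : Finset α) {a d : ℕ} (hd : #S + a + (d + 1) = M.E.ncard) (i : Option α) :
    ∑ j, hessW M ε S a i j * point ε j = d * gradW M ε S a i := by
  rcases i with _ | e
  · exact gradW_euler S (by omega)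
  · by_cases he : e ∈ S
    · simp [hessW, gradW, he]
    · simp only [hessW, gradW, if_neg he]
      exact gradW_euler _ (by rw [card_insert_of_notMem he]; omega)

omit [Fintype α] in
theorem sum_rel_nonneg_le {L : Finset α} (r : α → α → Prop) [DecidableRel r]
    (hrefl : ∀ e ∈ L, r e e) (hsymm : ∀ e ∈ L, ∀ f ∈ L, r e f → r f e)
    (htrans : ∀ e ∈ L, ∀ f ∈ L, ∀ g ∈ L, r e f → r f g → r e g) (u : α → ℝ) :
    0 ≤ ∑ e ∈ L, ∑ f ∈ L.filter (r e), u e * u f ∧
      (∑ e ∈ L, u e) ^ 2 ≤ #L * ∑ e ∈ L, ∑ f ∈ L.filter (r e), u e * u f := by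
  obtain ⟨C, hC⟩ : ∃ C : α → Finset α, C = fun e => L.filter (r e) := ⟨_, rfl⟩
  have hfib : ∀ e ∈ L, L.filter (fun f => C f = C e) = C e := fun e he => by
    ext f
    simp only [hC, mem_filter]
    refine and_congr_right fun hf => ⟨fun h => ?_, fun h => ?_⟩
    · have : f ∈ L.filter (r e) := h ▸ mem_filter.2 ⟨hf, hrefl f hf⟩
      exact (mem_filter.1 this).2
    · ext g
      simp only [mem_filter]
      exact and_congr_right fun hg =>
        ⟨fun hfg => htrans e he f hf g hg h hfg,
          fun heg => htrans f hf e he g hg (hsymm e he f hf h) heg⟩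
  have hblock : ∀ c ∈ L.image C, ∑ e ∈ L.filter (fun f => C f = c), u e = ∑ e ∈ c, u e := by
    intro c hc
    obtain ⟨e, he, rfl⟩ := mem_image.1 hc
    rw [hfib e he]
  have hQ : ∑ e ∈ L, ∑ f ∈ L.filter (r e), u e * u f = ∑ c ∈ L.image C, (∑ e ∈ c, u e) ^ 2 := by
    rw [← sum_fiberwise_of_maps_to (g := C) fun e he => mem_image_of_mem C he]
    refine sum_congr rfl fun c hc => ?_
    calc ∑ e ∈ L.filter (fun f => C f = c), ∑ f ∈ L.filter (r e), u e * u f
        = ∑ e ∈ L.filter (fun f => C f = c), u e * ∑ f ∈ c, u f := sum_congr rfl fun e he => by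
          rw [← (mem_filter.1 he).2, mul_sum, hC]
      _ = _ := by rw [← sum_mul, hblock c hc, sq]
  have hs : ∑ e ∈ L, u e = ∑ c ∈ L.image C, ∑ e ∈ c, u e := by
    rw [← sum_fiberwise_of_maps_to (g := C) fun e he => mem_image_of_mem C he]
    exact sum_congr rfl hblock
  refine ⟨hQ ▸ sum_nonneg fun c _ => sq_nonneg _, ?_⟩
  rw [hs, hQ]
  exact sq_sum_le_card_mul_sum_sq.trans (mul_le_mul_of_nonneg_right
    (Nat.cast_le.2 card_image_le) (sum_nonneg fun c _ => sq_nonneg _))

theorem hessW_quadric (hε : 0 < ε) {S : Finset α} (hS : M.Indep ↑S) {a : ℕ}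
    (hd : #S + a + 2 = M.E.ncard) (v : Option α → ℝ) :
    form (hessW M ε S a) v v * form (hessW M ε S a) (point ε) (point ε) ≤
      form (hessW M ε S a) (point ε) v ^ 2 := by
  classical
  obtain ⟨L, hL⟩ : ∃ L, L = univ.filter fun e => e ∉ S ∧ M.Indep ↑(insert e S) := ⟨_, rfl⟩
  obtain ⟨r, hr⟩ : ∃ r : α → α → Prop,
      r = fun e f => e = f ∨ ¬M.Indep ↑(insert f (insert e S)) := ⟨_, rfl⟩
  have hLc : #L ≤ a + 2 := by
    have : #(L ∪ S) ≤ M.E.ncard := by
      rw [← Set.ncard_coe_finset]
      refine Set.ncard_le_ncard (fun e he => ?_) (Set.toFinite _)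
      rcases mem_union.1 (mem_coe.1 he) with h | h
      · exact (mem_filter.1 (hL ▸ h)).2.2.subset_ground (mem_coe.2 (mem_insert_self e S))
      · exact hS.subset_ground h
    rw [card_union_of_disjoint (disjoint_left.2 fun e he => (mem_filter.1 (hL ▸ he)).2.1)] at this
    omega
  have hsymm : ∀ e ∈ L, ∀ f ∈ L, r e f → r f e := fun e _ f _ h => by
    rw [hr] at h ⊢
    rcases h with rfl | h
    · exact Or.inl rfl
    · exact Or.inr (by rwa [Finset.insert_comm])
  have htrans : ∀ e ∈ L, ∀ f ∈ L, ∀ g ∈ L, r e f → r f g → r e g := by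
    intro e he f hf g hg hef hfg
    rw [hr] at hef hfg ⊢
    by_contra hcon
    obtain ⟨hne, hind⟩ := not_or.1 hcon
    rcases hef with rfl | hef
    · rcases hfg with rfl | hfg
      · exact hne rfl
      · exact hfg (not_not.1 hind)
    rcases hfg with rfl | hfg
    · exact hef (not_not.1 hind)
    rw [hL, mem_filter] at he hf hg
    obtain ⟨x, hx, hxi⟩ := hf.2.2.augment (not_not.1 hind) (by
      rw [Set.encard_coe_eq_coe_finsetCard, Set.encard_coe_eq_coe_finsetCard, Nat.cast_lt,
        card_insert_of_notMem hf.2.1, card_insert_of_notMem (s := insert e S),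
        card_insert_of_notMem he.2.1]
      · omega
      · simp [Ne.symm hne, hg.2.1])
    simp only [Set.mem_sdiff, mem_coe, mem_insert, not_or] at hx
    rw [← coe_insert] at hxi
    rcases hx.1 with rfl | rfl | hxS
    · exact hfg hxi
    · rw [Finset.insert_comm] at hxi
      exact hef hxi
    · exact hx.2.2 hxS
  have hpoint : 0 < form (hessW M ε S a) (point ε) (point ε) := by
    have hp : ∀ i : Option α, 0 < point ε i := fun i => by cases i <;> simp [point, hε]
    refine sum_pos' (fun i _ => sum_nonneg fun j _ =>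
      mul_nonneg (mul_nonneg (hp i).le (hessW_nonneg hε.le _ _ _ _)) (hp j).le)
      ⟨none, mem_univ _, sum_pos' (fun j _ =>
        mul_nonneg (mul_nonneg (hp none).le (hessW_nonneg hε.le _ _ _ _)) (hp j).le)
        ⟨none, mem_univ _, ?_⟩⟩
    exact mul_pos (mul_pos hε (indepWeight_pos hε hS (by omega))) hε
  refine form_le_of_hyperplane (hessW_comm S a)
    (fun i => i.elim ((a : ℝ) + 2) fun e => if e ∈ L then 1 else 0) (fun u hu => ?_) hpoint v
  rw [Fintype.sum_option] at hu
  simp only [Option.elim_none, Option.elim_some, ite_mul, one_mul, zero_mul, sum_ite_mem,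
    univ_inter] at hu
  obtain ⟨hQ0, hCS⟩ := sum_rel_nonneg_le (L := L) r (fun e _ => hr ▸ Or.inl rfl) hsymm htrans
    fun e => u (some e)
  obtain ⟨Q, hQdef⟩ : ∃ Q, Q = ∑ e ∈ L, ∑ f ∈ L.filter (r e), u (some e) * u (some f) :=
    ⟨_, rfl⟩
  rw [← hQdef] at hCS hQ0
  have h00 : hessW M ε S a none none = a.factorial * ((a + 1) * (a + 2)) := by
    simp only [hessW, gradW]
    rw [indepWeight_top S (by omega), if_pos hS]
    simp only [Nat.factorial_succ]
    push_cast
    ring
  have h0e : ∀ e, hessW M ε S a none (some e) =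
      if e ∈ L then (a.factorial : ℝ) * (a + 1) else 0 := fun e => by
    simp only [hessW, gradW, hL, mem_filter, mem_univ, true_and]
    by_cases he : e ∈ S
    · simp [he]
    rw [if_neg he, indepWeight_top _ (by rw [card_insert_of_notMem he]; omega)]
    simp [he, Nat.factorial_succ, mul_comm]
  have hef : ∀ e f, hessW M ε S a (some e) (some f) =
      if e ∈ L ∧ f ∈ L ∧ ¬r e f then (a.factorial : ℝ) else 0 := fun e f => by
    simp only [hessW, gradW, hL, hr, mem_filter, mem_univ, true_and, mem_insert]
    by_cases he : e ∈ S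
    · simp [he]
    by_cases hf : f ∈ S ∨ f = e
    · rcases hf with hf | rfl
      · simp [he, hf]
      · simp [he]
    obtain ⟨hf, hfe⟩ := not_or.1 hf
    rw [if_neg he, if_neg (by simp [hf, hfe]), indepWeight_top _ (by
      rw [card_insert_of_notMem (by simp [hf, hfe]), card_insert_of_notMem he]; omega)]
    by_cases hi : M.Indep ↑(insert f (insert e S))
    · have hsub : insert e S ⊆ insert f (insert e S) ∧ insert f S ⊆ insert f (insert e S) :=
        ⟨subset_insert _ _, insert_subset_insert _ (subset_insert _ _)⟩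
      rw [if_pos hi, if_pos ⟨⟨he, hi.subset (coe_subset.2 hsub.1)⟩,
        ⟨hf, hi.subset (coe_subset.2 hsub.2)⟩, fun h => h.elim (fun h => hfe h.symm) fun h => h hi⟩]
    · rw [if_neg hi, if_neg fun h => h.2.2 (Or.inr hi)]
  obtain ⟨s, hs⟩ : ∃ s, s = ∑ e ∈ L, u (some e) := ⟨_, rfl⟩
  rw [← hs] at hu hCS
  have hval : form (hessW M ε S a) u u = a.factorial * ((a + 1) * (a + 2) * u none ^ 2 +
      2 * (a + 1) * u none * s + (s ^ 2 - Q)) := by
    have e1 : ∑ e, ∑ f, u (some e) * hessW M ε S a (some e) (some f) * u (some f) =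
        a.factorial * (s ^ 2 - Q) := by
      rw [hs, sq, sum_mul_sum, hQdef, ← sum_sub_distrib, mul_sum, ← sum_subset (subset_univ L)]
      · refine sum_congr rfl fun e he => ?_
        rw [← sum_filter_add_sum_filter_not L (r e) (fun f => u (some e) * u (some f)),
          add_sub_cancel_left, mul_sum, sum_filter, ← sum_subset (subset_univ L)]
        · refine sum_congr rfl fun f hf => ?_
          rw [hef]
          simp only [he, hf, true_and]
          split_ifs <;> ring
        · intro f _ hf; rw [hef]; simp [hf]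
      · intro e _ he; simp [hef, he]
    have e2 : ∑ e, u none * hessW M ε S a none (some e) * u (some e) =
        a.factorial * (a + 1) * u none * s := by
      simp only [h0e, mul_ite, mul_zero, ite_mul, zero_mul, sum_ite_mem, univ_inter, hs, mul_sum]
      exact sum_congr rfl fun e _ => by ring
    have e3 : ∑ e, u (some e) * hessW M ε S a (some e) none * u none =
        a.factorial * (a + 1) * u none * s := by
      rw [← e2]
      exact sum_congr rfl fun e _ => by rw [hessW_comm]; ring
    simp only [form, Fintype.sum_option, sum_add_distrib]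
    rw [h00, e1, e2, e3]
    ring
  rw [hval]
  refine mul_nonpos_of_nonneg_of_nonpos (by positivity) ?_
  obtain rfl : s = -((a + 2) * u none) := by linarith
  have hLc' : (#L : ℝ) ≤ a + 2 := by exact_mod_cast hLc
  have h2 : (a + 2 : ℝ) * ((a + 2) * u none ^ 2) ≤ (a + 2) * Q := by
    nlinarith [mul_le_mul_of_nonneg_right hLc' hQ0]
  nlinarith [le_of_mul_le_mul_left h2 (by positivity)]

/-- **The Hessians are Lorentzian.** -/
theorem hessW_signature (hε : 0 < ε) : ∀ (b : ℕ) {S : Finset α} {a : ℕ}, M.Indep ↑S →
    #S + a + (b + 2) = M.E.ncard → ∀ v,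
      form (hessW M ε S a) v v * form (hessW M ε S a) (point ε) (point ε) ≤
        form (hessW M ε S a) (point ε) v ^ 2 := by
  intro b
  induction b with
  | zero => exact fun hS hd => hessW_quadric hε hS hd
  | succ b ih =>
    intro S a hS hd v
    have hw : ∀ i : Option α, 0 < point ε i := fun i => by cases i <;> simp [point, hε]
    have hd' : #S + a + ((b + 2) + 1) = M.E.ncard := by omega
    have hTw : ∀ k i, ∑ j, thirdW M ε S a k i j * point ε j =
        (((b + 2 : ℕ) : ℝ) - 1) * hessW M ε S a k i := fun k i => by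
      rw [show (((b + 2 : ℕ) : ℝ) - 1) = ((b + 1 : ℕ) : ℝ) by push_cast; ring]
      rcases k with _ | e
      · exact hessW_euler S (by omega) i
      · by_cases he : e ∈ S
        · simp [thirdW, hessW, he]
        · simp only [thirdW, hessW, if_neg he]
          exact hessW_euler _ (by rw [card_insert_of_notMem he]; omega) i
    have hsym : ∀ k i j, thirdW M ε S a k i j = thirdW M ε S a k j i := fun k i j => by
      rcases k with _ | e
      · exact hessW_comm _ _ _ _
      · simp only [thirdW]; rw [hessW_comm]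
    refine signature_step (hessW M ε S a) (thirdW M ε S a) (point ε) (gradW M ε S a)
      (c := ((b + 2 : ℕ) : ℝ)) (by push_cast; linarith [Nat.cast_nonneg (α := ℝ) b])
      (hessW_comm S a) (hessW_nonneg hε.le S a) hw (gradW_nonneg hε.le S a)
      (fun i => hessW_euler S hd' i) (fun k i j => ?_) hTw (fun i j => ?_) hsym
      (fun k u hk => ?_) (y := none) (indepWeight_pos hε hS (by omega)) (fun j hj hjy => ?_) v
    · rcases k with _ | e
      · exact hessW_nonneg hε.le _ _ _ _
      · simp only [thirdW]
        split_ifs <;> first | exact le_rfl | exact hessW_nonneg hε.le _ _ _ _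
    · rw [← hTw i j]
      refine sum_congr rfl fun k _ => ?_
      rw [thirdW_comm, hsym]
      ring
    · rcases k with _ | e
      · exact ih hS (by omega) u
      · simp only [gradW] at hk
        split_ifs at hk with he
        · exact absurd hk (lt_irrefl 0)
        · have := ih (indep_of_indepWeight_ne_zero hk.ne') (a := a)
            (by rw [card_insert_of_notMem he]; omega) u
          simpa only [thirdW, if_neg he] using this
    · rcases j with _ | e
      · exact absurd rfl hjy
      · simp only [gradW] at hj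
        split_ifs at hj with he
        · exact absurd hj (lt_irrefl 0)
        · simp only [hessW, gradW, if_neg he]
          exact indepWeight_pos hε (indep_of_indepWeight_ne_zero hj.ne')
            (by rw [card_insert_of_notMem he]; omega)

theorem indepWeight_zero {a k : ℕ} (h : a + k = M.E.ncard) :
    indepWeight M 0 ∅ a = a.factorial * indepCount M k := by
  simp only [indepWeight, empty_subset, filter_true]
  rw [indepCount, ← sum_filter_add_sum_filter_not (indepFinsets M) (fun I => #I = k),
    sum_eq_zero (s := (indepFinsets M).filter fun I => ¬#I = k), add_zero,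
    sum_congr rfl fun I hI => ?_, sum_const, nsmul_eq_mul, mul_comm]
  · rw [(mem_filter.1 hI).2, show M.E.ncard - k = a by omega, Nat.descFactorial_self]
    simp
  · intro I hI
    obtain ⟨hI, hne⟩ := mem_filter.1 hI
    have := card_le_of_indep (mem_indepFinsets.1 hI)
    rcases lt_or_ge (M.E.ncard - #I) a with h1 | h1
    · rw [Nat.descFactorial_eq_zero_iff_lt.2 h1, Nat.cast_zero, zero_mul]
    · rw [zero_pow (by omega), mul_zero]

/-- **Mason's conjecture.** -/
theorem indepCount_ultra_logConcave {k : ℕ} (hk : 1 ≤ k) :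
    (k + 1) * (M.E.ncard - k + 1) * (indepCount M (k - 1) * indepCount M (k + 1)) ≤
      k * (M.E.ncard - k) * indepCount M k ^ 2 := by
  rcases Nat.lt_or_ge k M.E.ncard with hkn | hkn
  swap
  · have : indepCount M (k + 1) = 0 := card_eq_zero.2 (eq_empty_of_forall_notMem fun I hI => by
      have := card_le_of_indep (mem_indepFinsets.1 (mem_filter.1 hI).1)
      have := (mem_filter.1 hI).2
      omega)
    simp [this]
  obtain ⟨a, ha⟩ : ∃ a, M.E.ncard = a + (k + 1) := ⟨M.E.ncard - (k + 1), by omega⟩
  obtain ⟨b, rfl⟩ : ∃ b, k = b + 1 := ⟨k - 1, by omega⟩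
  have hcont : ∀ c, Continuous fun ε : ℝ => indepWeight M ε ∅ c := fun c => by
    unfold indepWeight; fun_prop
  have hineq : ∀ ε : ℝ, 0 < ε → indepWeight M ε ∅ (a + 2) *
      ((b + 1) * ((b + 2) * indepWeight M ε ∅ a)) ≤
        ((b + 1) * indepWeight M ε ∅ (a + 1)) ^ 2 := by
    intro ε hε
    have h := hessW_signature (M := M) (S := ∅) (a := a) hε b (by simp) (by simp; omega)
      (fun i => i.elim 1 fun _ => 0)
    have e1 : form (hessW M ε ∅ a) (fun i : Option α => i.elim 1 fun _ => 0)
        (fun i => i.elim 1 fun _ => 0) = indepWeight M ε ∅ (a + 2) := by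
      simp [form, Fintype.sum_option, hessW, gradW]
    have e2 : form (hessW M ε ∅ a) (point ε) (fun i : Option α => i.elim 1 fun _ => 0) =
        ((b : ℝ) + 1) * indepWeight M ε ∅ (a + 1) := by
      have he := hessW_euler (M := M) (ε := ε) (∅ : Finset α) (a := a) (d := b + 1)
        (by simp; omega) none
      rw [form_comm (hessW_comm ∅ a), form, Fintype.sum_option]
      simp only [Option.elim_none, Option.elim_some, zero_mul, sum_const_zero, add_zero, one_mul]
      rw [he]
      simp [gradW]
    have e3 : form (hessW M ε ∅ a) (point ε) (point ε) =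
        ((b : ℝ) + 1) * ((b + 2) * indepWeight M ε ∅ a) := by
      have he := gradW_euler (M := M) (ε := ε) (∅ : Finset α) (a := a) (d := b + 2) (by simp; omega)
      push_cast at he
      rw [form, ← he, mul_sum]
      refine sum_congr rfl fun i _ => ?_
      simp only [mul_assoc, ← mul_sum]
      rw [hessW_euler _ (d := b + 1) (by simp; omega)]
      push_cast
      ring
    rwa [e1, e2, e3] at h
  have h0 := le_of_tendsto_of_tendsto
    (((hcont (a + 2)).mul (continuous_const.mul (continuous_const.mul (hcont a)))).tendsto 0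
      |>.mono_left nhdsWithin_le_nhds)
    (((continuous_const.mul (hcont (a + 1))).pow 2).tendsto 0 |>.mono_left nhdsWithin_le_nhds)
    (eventually_nhdsWithin_of_forall (s := Set.Ioi (0:ℝ)) hineq)
  simp only [Pi.pow_apply, Pi.mul_apply] at h0
  rw [indepWeight_zero (show a + 2 + b = M.E.ncard by omega),
    indepWeight_zero (show a + (b + 2) = M.E.ncard by omega),
    indepWeight_zero (show a + 1 + (b + 1) = M.E.ncard by omega)] at h0
  simp only [Nat.factorial_succ, Nat.cast_mul, Nat.cast_succ] at h0
  rw [show M.E.ncard - (b + 1) = a + 1 by omega, show b + 1 - 1 = b from rfl,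
    show b + 1 + 1 = b + 2 from rfl]
  have hf : (0:ℝ) < (a.factorial : ℝ) ^ 2 * ((a + 1) * (b + 1)) := by positivity
  have : (((b + 2) * (a + 1 + 1) * (indepCount M b * indepCount M (b + 2)) : ℕ) : ℝ) ≤
      (((b + 1) * (a + 1) * indepCount M (b + 1) ^ 2 : ℕ) : ℝ) := by
    push_cast
    refine le_of_mul_le_mul_left ?_ hf
    ring_nf at h0 ⊢
    linarith
  exact_mod_cast this

/-- **Welsh–Mason log-concavity.** -/
theorem indepCount_logConcave {k : ℕ} (hk : 1 ≤ k) :
    indepCount M (k - 1) * indepCount M (k + 1) ≤ indepCount M k ^ 2 := by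
  rcases Nat.eq_zero_or_pos (M.E.ncard - k) with h0 | h0
  · have : indepCount M (k + 1) = 0 := card_eq_zero.2 (eq_empty_of_forall_notMem fun I hI => by
      have := card_le_of_indep (mem_indepFinsets.1 (mem_filter.1 hI).1)
      have := (mem_filter.1 hI).2
      omega)
    simp [this]
  have h := indepCount_ultra_logConcave (M := M) hk
  refine le_of_mul_le_mul_left (h.trans' ?_) (show 0 < k * (M.E.ncard - k) by positivity)
  exact Nat.mul_le_mul_right _ (Nat.mul_le_mul (by omega) (by omega))

end FA.MatroidLogConcave
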