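import Mathlib.Analysis.Matrix.Spectrum
import Mathlib.Analysis.Real.Sqrt
import Mathlib.Tactic

/-!
# The signature lemma for Hessians

If the Hessians of all first derivatives of a homogeneous polynomial with nonnegative coefficients
satisfy the Alexandrov–Fenchel inequality at a positive point, and the Hessian is connected, then
the Hessian satisfies it too (Oppenheim's trickle-down, Brändén–Huh): the normalised Hessian has
`A ≤ A ^ 2` and `A ≤ 1`, with equality only on the Perron vector.
-/

set_option autoImplicit false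

noncomputable section

namespace FA.MatroidLogConcave

open Finset Matrix

variable {V : Type*} [Fintype V]

/-- The bilinear form of a matrix. -/
def form (H : V → V → ℝ) (u v : V → ℝ) : ℝ := ∑ i, ∑ j, u i * H i j * v j

theorem form_comm {H : V → V → ℝ} (hH : ∀ i j, H i j = H j i) (u v : V → ℝ) :
    form H u v = form H v u := by
  rw [form, sum_comm]
  exact sum_congr rfl fun i _ => sum_congr rfl fun j _ => by rw [hH]; ring

theorem form_add_smul (H : V → V → ℝ) (hH : ∀ i j, H i j = H j i) (v w : V → ℝ) (t : ℝ) :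
    form H (fun i => v i + t * w i) (fun i => v i + t * w i) =
      form H v v + 2 * t * form H w v + t ^ 2 * form H w w := by
  have h : ∀ i j, (v i + t * w i) * H i j * (v j + t * w j) = v i * H i j * v j +
      t * (w i * H i j * v j) + t * (v i * H i j * w j) + t ^ 2 * (w i * H i j * w j) :=
    fun i j => by ring
  simp only [form, h, sum_add_distrib, ← mul_sum]
  have := form_comm hH v w
  simp only [form] at this
  rw [this]
  ring

/-- A form nonpositive on the kernel of a linear form satisfies the reverse Cauchy inequality. -/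
theorem form_le_of_hyperplane {H : V → V → ℝ} (hH : ∀ i j, H i j = H j i) (ℓ : V → ℝ)
    (hneg : ∀ u, ∑ i, ℓ i * u i = 0 → form H u u ≤ 0) {w : V → ℝ} (hw : 0 < form H w w)
    (v : V → ℝ) : form H v v * form H w w ≤ form H w v ^ 2 := by
  obtain ⟨a, ha⟩ : ∃ a, a = ∑ i, ℓ i * w i := ⟨_, rfl⟩
  obtain ⟨b, hb⟩ : ∃ b, b = ∑ i, ℓ i * v i := ⟨_, rfl⟩
  have ha0 : a ≠ 0 := fun h => absurd (hneg w (ha.symm.trans h)) (not_le.2 hw)
  have hu := hneg (fun i => v i + -(b / a) * w i) (by
    simp only [mul_add, sum_add_distrib, mul_left_comm _ (-(b / a)), ← mul_sum, ← ha, ← hb]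
    field_simp; ring)
  rw [form_add_smul H hH] at hu
  nlinarith [mul_nonpos_of_nonpos_of_nonneg hu hw.le,
    sq_nonneg (form H w v - b / a * form H w w)]

variable [DecidableEq V]

theorem quad_nonpos_of_eigen {A : Matrix V V ℝ} (hA : A.IsHermitian) {z : V → ℝ}
    (h : ∀ (μ : ℝ) (e : V → ℝ), A *ᵥ e = μ • e → e ≠ 0 → 0 < μ → e ⬝ᵥ z = 0) :
    z ⬝ᵥ (A *ᵥ z) ≤ 0 := by
  obtain ⟨e, he⟩ : ∃ e : V → V → ℝ, e = fun l => ⇑(hA.eigenvectorBasis l) := ⟨_, rfl⟩
  have heig : ∀ l, A *ᵥ e l = hA.eigenvalues l • e l := fun l => by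
    rw [he]; exact hA.mulVec_eigenvectorBasis l
  have hexp : z = ∑ l, (e l ⬝ᵥ z) • e l := by
    have h' := hA.eigenvectorBasis.sum_repr' (WithLp.toLp 2 z)
    have := congrArg WithLp.ofLp h'
    simp only [WithLp.ofLp_sum, WithLp.ofLp_smul] at this
    conv_lhs => rw [show z = WithLp.ofLp (WithLp.toLp 2 z) from rfl, ← this]
    refine sum_congr rfl fun l _ => ?_
    rw [he]
    congr 1
    simp [PiLp.inner_apply, dotProduct, mul_comm]
  have : z ⬝ᵥ (A *ᵥ z) = ∑ l, hA.eigenvalues l * (e l ⬝ᵥ z) ^ 2 := by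
    conv_lhs => arg 2; rw [hexp, mulVec_sum]
    rw [dotProduct_sum]
    refine sum_congr rfl fun l _ => ?_
    rw [mulVec_smul, heig, dotProduct_smul, dotProduct_smul, dotProduct_comm z]
    simp only [smul_eq_mul]
    ring
  rw [this]
  refine sum_nonpos fun l _ => ?_
  rcases le_or_gt (hA.eigenvalues l) 0 with hl | hl
  · exact mul_nonpos_of_nonpos_of_nonneg hl (sq_nonneg _)
  · have hne : e l ≠ 0 := fun h0 => hA.eigenvectorBasis.orthonormal.ne_zero l (by
      rw [he] at h0
      exact WithLp.ofLp_injective _ h0)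
    simp [h _ _ (heig l) hne hl]

/-- **The signature lemma.** -/
theorem signature_step (H : V → V → ℝ) (T : V → V → V → ℝ) (w g : V → ℝ) {c : ℝ} (hc : 1 < c)
    (hH : ∀ i j, H i j = H j i) (hH0 : ∀ i j, 0 ≤ H i j) (hw : ∀ i, 0 < w i)
    (hg : ∀ i, 0 ≤ g i) (hHw : ∀ i, ∑ j, H i j * w j = c * g i)
    (hT0 : ∀ k i j, 0 ≤ T k i j) (hTw : ∀ k i, ∑ j, T k i j * w j = (c - 1) * H k i)
    (hsum : ∀ i j, ∑ k, w k * T k i j = (c - 1) * H i j) (hTsymm : ∀ k i j, T k i j = T k j i)
    (hT : ∀ k v, 0 < g k → form (T k) v v * form (T k) w w ≤ form (T k) w v ^ 2)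
    {y : V} (hy : 0 < g y) (hhub : ∀ j, 0 < g j → j ≠ y → 0 < H y j) (v : V → ℝ) :
    form H v v * form H w w ≤ form H w v ^ 2 := by
  have hHwF : ∀ u, form H w u = c * ∑ i, g i * u i := fun u => by
    rw [form_comm hH, form, mul_sum]
    refine sum_congr rfl fun i _ => ?_
    simp only [mul_assoc, ← mul_sum]
    rw [hHw]; ring
  have hww : 0 < form H w w := by
    rw [hHwF]
    exact mul_pos (by linarith) (sum_pos' (fun i _ => mul_nonneg (hg i) (hw i).le)
      ⟨y, mem_univ y, mul_pos hy (hw y)⟩)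
  have hdead : ∀ i, g i = 0 → ∀ j, H i j = 0 := fun i hi j => by
    have h := hHw i
    rw [hi, mul_zero, sum_eq_zero_iff_of_nonneg fun j _ => mul_nonneg (hH0 i j) (hw j).le] at h
    exact (mul_eq_zero.1 (h j (mem_univ j))).resolve_right (hw j).ne'
  -- the inequality `c H ≤ H (w / g) H`
  have hsq : ∀ u, c * form H u u ≤ ∑ k, w k / g k * (∑ j, H k j * u j) ^ 2 := fun u => by
    have hk : ∀ k, w k * form (T k) u u ≤
        (c - 1) / c * (w k / g k * (∑ j, H k j * u j) ^ 2) := fun k => by
      have hwu : ∀ u, form (T k) w u = (c - 1) * ∑ j, H k j * u j := fun u => by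
        rw [form_comm (hTsymm k), form, mul_sum]
        refine sum_congr rfl fun i _ => ?_
        simp only [mul_assoc, ← mul_sum]
        rw [hTw]; ring
      have hwwk : form (T k) w w = (c - 1) * (c * g k) := by rw [hwu, hHw]
      rcases (hg k).eq_or_lt with h0 | h0
      · have : ∀ i j, T k i j = 0 := fun i j => by
          have h := hTw k i
          rw [hdead k h0.symm, mul_zero,
            sum_eq_zero_iff_of_nonneg fun j _ => mul_nonneg (hT0 k i j) (hw j).le] at h
          exact (mul_eq_zero.1 (h j (mem_univ j))).resolve_right (hw j).ne'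
        simp [form, this, ← h0]
      · have h := hT k u h0
        rw [hwwk, hwu u] at h
        have h1 : form (T k) u u ≤ (c - 1) / c * ((∑ j, H k j * u j) ^ 2 / g k) := by
          rw [div_mul_div_comm, le_div_iff₀ (mul_pos (by linarith) h0)]
          exact le_of_mul_le_mul_left (a := c - 1) (by linarith) (by linarith)
        calc w k * form (T k) u u ≤ w k * ((c - 1) / c * ((∑ j, H k j * u j) ^ 2 / g k)) :=
              mul_le_mul_of_nonneg_left h1 (hw k).le
          _ = _ := by ring
    have h := sum_le_sum fun k (_ : k ∈ univ) => hk k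
    have e : ∑ k, w k * form (T k) u u = (c - 1) * form H u u := by
      simp only [form, mul_sum]
      rw [sum_comm]
      refine sum_congr rfl fun i _ => ?_
      rw [sum_comm]
      refine sum_congr rfl fun j _ => ?_
      rw [show (c - 1) * (u i * H i j * u j) = u i * ((c - 1) * H i j) * u j by ring, ← hsum,
        mul_sum, sum_mul]
      exact sum_congr rfl fun k _ => by ring
    rw [e, ← mul_sum, div_mul_eq_mul_div, le_div_iff₀ (by linarith)] at h
    exact le_of_mul_le_mul_left (a := c - 1) (by linarith) (by linarith)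
  -- Schur's bound and its equality case
  have hschur : ∀ u, c * ∑ i, g i * u i ^ 2 / w i - form H u u =
      (∑ i, ∑ j, H i j * w i * w j * (u i / w i - u j / w j) ^ 2) / 2 := fun u => by
    have e : ∀ i j, H i j * w i * w j * (u i / w i - u j / w j) ^ 2 =
        H i j * w j * (u i ^ 2 / w i) - 2 * (u i * H i j * u j) +
          H j i * w i * (u j ^ 2 / w j) := fun i j => by
      have := (hw i).ne'; have := (hw j).ne'
      rw [hH j i]; field_simp; ring
    simp only [e, sum_add_distrib, sum_sub_distrib, ← mul_sum]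
    rw [sum_comm (f := fun i j => H j i * w i * (u j ^ 2 / w j))]
    simp only [← sum_mul, hHw, form, mul_sum]
    have e2 : ∑ x, ∑ y, u x * H x y * u y * 2 = 2 * ∑ x, ∑ y, u x * H x y * u y := by
      simp only [mul_sum]
      exact sum_congr rfl fun _ _ => sum_congr rfl fun _ _ => mul_comm _ _
    ring_nf at e2 ⊢
    linarith
  refine form_le_of_hyperplane hH g (fun u hu => ?_) hww v
  obtain ⟨s, hs⟩ : ∃ s : V → ℝ, s = fun i => Real.sqrt (w i / g i) := ⟨_, rfl⟩
  obtain ⟨z, hz⟩ : ∃ z : V → ℝ, z = fun i => Real.sqrt (g i / w i) * u i := ⟨_, rfl⟩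
  obtain ⟨A, hAdef⟩ : ∃ A : Matrix V V ℝ, A = Matrix.of fun i j => s i * H i j * s j / c :=
    ⟨_, rfl⟩
  have hs1 : ∀ i, 0 < g i → s i * Real.sqrt (g i / w i) = 1 := fun i hi => by
    simp only [hs]
    rw [← Real.sqrt_mul (div_nonneg (hw i).le hi.le), div_mul_div_cancel₀ hi.ne',
      div_self (hw i).ne', Real.sqrt_one]
  have hA : A.IsHermitian := Matrix.IsHermitian.ext fun i j => by
    simp only [hAdef, Matrix.of_apply, star_trivial]
    rw [hH]; ring
  have hAform : ∀ x, x ⬝ᵥ (A *ᵥ x) = form H (fun i => s i * x i) (fun i => s i * x i) / c :=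
    fun x => by
    simp only [dotProduct, mulVec, hAdef, Matrix.of_apply, form, mul_sum, sum_div]
    exact sum_congr rfl fun i _ => sum_congr rfl fun j _ => by ring
  have hAz : form H u u = c * (z ⬝ᵥ (A *ᵥ z)) := by
    rw [hAform, mul_div_cancel₀ _ (by linarith : c ≠ 0)]
    refine sum_congr rfl fun i _ => sum_congr rfl fun j _ => ?_
    rcases (hg i).eq_or_lt with hi | hi
    · simp [hdead i hi.symm]
    rcases (hg j).eq_or_lt with hj | hj
    · rw [hH i j]; simp [hdead j hj.symm]
    simp only [hz]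
    rw [← mul_assoc (s i), hs1 i hi, one_mul, ← mul_assoc (s j), hs1 j hj, one_mul]
  rw [hAz]
  refine mul_nonpos_of_nonneg_of_nonpos (by linarith)
    (quad_nonpos_of_eigen hA fun μ e he hne hμ => ?_)
  obtain ⟨x, hx⟩ : ∃ x : V → ℝ, x = fun i => s i * e i := ⟨_, rfl⟩
  have hAe : ∀ k, μ * e k = s k * (∑ j, H k j * x j) / c := fun k => by
    have := congrFun he k
    simp only [mulVec, dotProduct, hAdef, Matrix.of_apply, Pi.smul_apply, smul_eq_mul] at this
    rw [← this, mul_sum, sum_div]
    exact sum_congr rfl fun j _ => by rw [hx]; ring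
  have hedead : ∀ i, g i = 0 → e i = 0 := fun i hi => by
    have := hAe i
    simp only [hs, hi, div_zero, Real.sqrt_zero, zero_mul, zero_div] at this
    exact (mul_eq_zero.1 this).resolve_left hμ.ne'
  have hxx : form H x x = c * μ * (e ⬝ᵥ e) := by
    have := hAform e
    rw [he, dotProduct_smul, smul_eq_mul, ← hx, eq_div_iff (by linarith : c ≠ 0)] at this
    linarith
  have hee : e ⬝ᵥ e = ∑ i, g i * x i ^ 2 / w i := sum_congr rfl fun i _ => by
    rcases (hg i).eq_or_lt with hi | hi
    · simp [hedead i hi.symm, ← hi]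
    · simp only [hx, hs, mul_pow, Real.sq_sqrt (div_nonneg (hw i).le (hg i))]
      have := (hw i).ne'
      field_simp
  have hepos : 0 < e ⬝ᵥ e := by
    refine lt_of_le_of_ne (sum_nonneg fun i _ => mul_self_nonneg _) fun h0 => hne ?_
    exact dotProduct_self_eq_zero.1 h0.symm
  have hμge : 1 ≤ μ := by
    have h := hsq x
    have e2 : ∑ k, w k / g k * (∑ j, H k j * x j) ^ 2 = (c * μ) ^ 2 * (e ⬝ᵥ e) := by
      rw [dotProduct, mul_sum]
      refine sum_congr rfl fun k _ => ?_
      have := hAe k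
      rw [eq_div_iff (by linarith : c ≠ 0)] at this
      rw [show (c * μ) ^ 2 * (e k * e k) = (μ * e k * c) ^ 2 by ring, this, mul_pow, hs,
        Real.sq_sqrt (div_nonneg (hw k).le (hg k))]
    rw [hxx, e2] at h
    have hcc : 0 < c * c * μ * (e ⬝ᵥ e) := by positivity
    nlinarith
  have hsch := hschur x
  rw [hxx, ← hee] at hsch
  have hterm : ∀ i j, 0 ≤ H i j * w i * w j * (x i / w i - x j / w j) ^ 2 := fun i j =>
    mul_nonneg (mul_nonneg (mul_nonneg (hH0 i j) (hw i).le) (hw j).le) (sq_nonneg _)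
  have hzero : ∑ i, ∑ j, H i j * w i * w j * (x i / w i - x j / w j) ^ 2 = 0 := by
    refine le_antisymm ?_ (sum_nonneg fun i _ => sum_nonneg fun j _ => hterm i j)
    have : 0 ≤ (μ - 1) * (c * (e ⬝ᵥ e)) :=
      mul_nonneg (sub_nonneg.2 hμge) (mul_nonneg (by linarith) hepos.le)
    linarith
  rw [sum_eq_zero_iff_of_nonneg fun i _ => sum_nonneg fun j _ => hterm i j] at hzero
  have hconst : ∀ j, 0 < g j → x j = x y / w y * w j := fun j hj => by
    rcases eq_or_ne j y with rfl | hjy
    · rw [div_mul_cancel₀ _ (hw j).ne']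
    have h := (sum_eq_zero_iff_of_nonneg fun j _ => hterm y j).1 (hzero y (mem_univ y)) j
      (mem_univ j)
    have hpos : 0 < H y j * w y * w j := mul_pos (mul_pos (hhub j hj hjy) (hw y)) (hw j)
    have := pow_eq_zero_iff two_ne_zero |>.1 ((mul_eq_zero.1 h).resolve_left hpos.ne')
    rw [sub_eq_zero] at this
    rw [this, div_mul_cancel₀ _ (hw j).ne']
  calc e ⬝ᵥ z = ∑ i, x y / w y * (g i * u i) := sum_congr rfl fun i _ => by
        rcases (hg i).eq_or_lt with hi | hi
        · simp [hedead i hi.symm, ← hi]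
        · have h := hconst i hi
          simp only [hx, hs, hz] at h ⊢
          rw [Real.sqrt_div (hw i).le] at h
          rw [Real.sqrt_div hi.le]
          have h1 := (Real.sqrt_pos.2 hi).ne'
          have h2 := (Real.sqrt_pos.2 (hw i)).ne'
          field_simp at h ⊢
          have h3 := Real.mul_self_sqrt hi.le
          have h4 := Real.mul_self_sqrt (hw i).le
          grind
    _ = 0 := by rw [← mul_sum, hu, mul_zero]

/-- **The signature lemma for connected Hessians**, whose diagonal may be negative. -/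
theorem signature_connected [Nonempty V] (H : V → V → ℝ) (T : V → V → V → ℝ) (w g : V → ℝ)
    {c : ℝ} (hc : 1 < c) (hH : ∀ i j, H i j = H j i) (hoff : ∀ i j, i ≠ j → 0 ≤ H i j)
    (hw : ∀ i, 0 < w i) (hg : ∀ i, 0 < g i) (hHw : ∀ i, ∑ j, H i j * w j = c * g i)
    (hTw : ∀ k i, ∑ j, T k i j * w j = (c - 1) * H k i)
    (hsum : ∀ i j, ∑ k, w k * T k i j = (c - 1) * H i j) (hTsymm : ∀ k i j, T k i j = T k j i)
    (hT : ∀ k v, form (T k) v v * form (T k) w w ≤ form (T k) w v ^ 2)
    (hconn : ∀ u : V → ℝ, (∀ i j, i ≠ j → 0 < H i j → u i = u j) → ∀ i j, u i = u j)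
    (v : V → ℝ) : form H v v * form H w w ≤ form H w v ^ 2 := by
  have hHwF : ∀ u, form H w u = c * ∑ i, g i * u i := fun u => by
    rw [form_comm hH, form, mul_sum]
    refine sum_congr rfl fun i _ => ?_
    simp only [mul_assoc, ← mul_sum]
    rw [hHw]; ring
  have hww : 0 < form H w w := by
    rw [hHwF]
    exact mul_pos (by linarith) (sum_pos (fun i _ => mul_pos (hg i) (hw i)) univ_nonempty)
  have hsq : ∀ u, c * form H u u ≤ ∑ k, w k / g k * (∑ j, H k j * u j) ^ 2 := fun u => by
    have hk : ∀ k, w k * form (T k) u u ≤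
        (c - 1) / c * (w k / g k * (∑ j, H k j * u j) ^ 2) := fun k => by
      have hwu : ∀ u, form (T k) w u = (c - 1) * ∑ j, H k j * u j := fun u => by
        rw [form_comm (hTsymm k), form, mul_sum]
        refine sum_congr rfl fun i _ => ?_
        simp only [mul_assoc, ← mul_sum]
        rw [hTw]; ring
      have h := hT k u
      rw [hwu u, hwu w, hHw] at h
      have h1 : form (T k) u u ≤ (c - 1) / c * ((∑ j, H k j * u j) ^ 2 / g k) := by
        rw [div_mul_div_comm, le_div_iff₀ (mul_pos (by linarith) (hg k))]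
        exact le_of_mul_le_mul_left (a := c - 1) (by linarith) (by linarith)
      calc w k * form (T k) u u ≤ w k * ((c - 1) / c * ((∑ j, H k j * u j) ^ 2 / g k)) :=
            mul_le_mul_of_nonneg_left h1 (hw k).le
        _ = _ := by ring
    have h := sum_le_sum fun k (_ : k ∈ univ) => hk k
    have e : ∑ k, w k * form (T k) u u = (c - 1) * form H u u := by
      simp only [form, mul_sum]
      rw [sum_comm]
      refine sum_congr rfl fun i _ => ?_
      rw [sum_comm]
      refine sum_congr rfl fun j _ => ?_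
      rw [show (c - 1) * (u i * H i j * u j) = u i * ((c - 1) * H i j) * u j by ring, ← hsum,
        mul_sum, sum_mul]
      exact sum_congr rfl fun k _ => by ring
    rw [e, ← mul_sum, div_mul_eq_mul_div, le_div_iff₀ (by linarith)] at h
    exact le_of_mul_le_mul_left (a := c - 1) (by linarith) (by linarith)
  refine form_le_of_hyperplane hH g (fun u hu => ?_) hww v
  obtain ⟨s, hs⟩ : ∃ s : V → ℝ, s = fun i => Real.sqrt (w i / g i) := ⟨_, rfl⟩
  obtain ⟨z, hz⟩ : ∃ z : V → ℝ, z = fun i => u i / s i := ⟨_, rfl⟩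
  have hs0 : ∀ i, 0 < s i := fun i => hs ▸ Real.sqrt_pos.2 (div_pos (hw i) (hg i))
  have hs2 : ∀ i, g i * (s i * s i) = w i := fun i => by
    rw [hs]
    simp only
    rw [Real.mul_self_sqrt (div_nonneg (hw i).le (hg i).le), mul_div_cancel₀ _ (hg i).ne']
  obtain ⟨A, hAdef⟩ : ∃ A : Matrix V V ℝ, A = Matrix.of fun i j => s i * H i j * s j / c :=
    ⟨_, rfl⟩
  have hA : A.IsHermitian := Matrix.IsHermitian.ext fun i j => by
    simp only [hAdef, Matrix.of_apply, star_trivial]
    rw [hH]; ring
  have hAform : ∀ x, x ⬝ᵥ (A *ᵥ x) = form H (fun i => s i * x i) (fun i => s i * x i) / c :=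
    fun x => by
    simp only [dotProduct, mulVec, hAdef, Matrix.of_apply, form, mul_sum, sum_div]
    exact sum_congr rfl fun i _ => sum_congr rfl fun j _ => by ring
  have hsz : (fun i => s i * z i) = u := funext fun i => by
    simp only [hz]; field_simp [(hs0 i).ne']
  have hAz : form H u u = c * (z ⬝ᵥ (A *ᵥ z)) := by
    rw [hAform, hsz, mul_div_cancel₀ _ (by linarith : c ≠ 0)]
  rw [hAz]
  refine mul_nonpos_of_nonneg_of_nonpos (by linarith)
    (quad_nonpos_of_eigen hA fun μ e he hne hμ => ?_)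
  obtain ⟨x, hx⟩ : ∃ x : V → ℝ, x = fun i => s i * e i := ⟨_, rfl⟩
  have hAe : ∀ k, μ * e k = s k * (∑ j, H k j * x j) / c := fun k => by
    have := congrFun he k
    simp only [mulVec, dotProduct, hAdef, Matrix.of_apply, Pi.smul_apply, smul_eq_mul] at this
    rw [← this, mul_sum, sum_div]
    exact sum_congr rfl fun j _ => by rw [hx]; ring
  have hxx : form H x x = c * μ * (e ⬝ᵥ e) := by
    have := hAform e
    rw [he, dotProduct_smul, smul_eq_mul, ← hx, eq_div_iff (by linarith : c ≠ 0)] at this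
    linarith
  have hee : e ⬝ᵥ e = ∑ i, g i * x i ^ 2 / w i := sum_congr rfl fun i _ => by
    rw [eq_div_iff (hw i).ne', hx, ← hs2 i]; ring
  have hepos : 0 < e ⬝ᵥ e :=
    lt_of_le_of_ne (sum_nonneg fun i _ => mul_self_nonneg _)
      fun h0 => hne (dotProduct_self_eq_zero.1 h0.symm)
  have hμge : 1 ≤ μ := by
    have h := hsq x
    have e2 : ∑ k, w k / g k * (∑ j, H k j * x j) ^ 2 = (c * μ) ^ 2 * (e ⬝ᵥ e) := by
      rw [dotProduct, mul_sum]
      refine sum_congr rfl fun k _ => ?_
      have := hAe k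
      rw [eq_div_iff (by linarith : c ≠ 0)] at this
      rw [show (c * μ) ^ 2 * (e k * e k) = (μ * e k * c) ^ 2 by ring, this, mul_pow, hs,
        Real.sq_sqrt (div_nonneg (hw k).le (hg k).le)]
    rw [hxx, e2] at h
    have hcc : 0 < c * c * μ * (e ⬝ᵥ e) := by positivity
    nlinarith
  have hterm : ∀ i j, 0 ≤ H i j * w i * w j * (x i / w i - x j / w j) ^ 2 := fun i j => by
    rcases eq_or_ne i j with rfl | h
    · simp
    · exact mul_nonneg (mul_nonneg (mul_nonneg (hoff i j h) (hw i).le) (hw j).le) (sq_nonneg _)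
  have hzero : ∑ i, ∑ j, H i j * w i * w j * (x i / w i - x j / w j) ^ 2 ≤ 0 := by
    have e1 : ∀ i j, H i j * w i * w j * (x i / w i - x j / w j) ^ 2 =
        H i j * w j * (x i ^ 2 / w i) - 2 * (x i * H i j * x j) +
          H j i * w i * (x j ^ 2 / w j) := fun i j => by
      have := (hw i).ne'; have := (hw j).ne'
      rw [hH j i]; field_simp; ring
    simp only [e1, sum_add_distrib, sum_sub_distrib, ← mul_sum]
    rw [sum_comm (f := fun i j => H j i * w i * (x j ^ 2 / w j))]
    simp only [← sum_mul, hHw]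
    rw [show ∑ i, ∑ j, x i * H i j * x j = form H x x from rfl, hxx,
      show ∑ i, c * g i * (x i ^ 2 / w i) = c * (e ⬝ᵥ e) by
        rw [hee, mul_sum]; exact sum_congr rfl fun i _ => by ring]
    have : 0 ≤ (μ - 1) * (c * (e ⬝ᵥ e)) :=
      mul_nonneg (sub_nonneg.2 hμge) (mul_nonneg (by linarith) hepos.le)
    linarith
  have hrow : ∀ i j, H i j * w i * w j * (x i / w i - x j / w j) ^ 2 = 0 := fun i j => by
    have h1 := (sum_eq_zero_iff_of_nonneg fun i _ => sum_nonneg fun j _ => hterm i j).1
      (le_antisymm hzero (sum_nonneg fun i _ => sum_nonneg fun j _ => hterm i j)) i (mem_univ i)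
    exact (sum_eq_zero_iff_of_nonneg fun j _ => hterm i j).1 h1 j (mem_univ j)
  obtain ⟨y⟩ := ‹Nonempty V›
  have hconst : ∀ i, x i = x y / w y * w i := fun i => by
    have h := hconn (fun i => x i / w i) (fun i j _ hij => by
      have hpos : 0 < H i j * w i * w j := mul_pos (mul_pos hij (hw i)) (hw j)
      exact sub_eq_zero.1 (pow_eq_zero_iff two_ne_zero |>.1
        ((mul_eq_zero.1 (hrow i j)).resolve_left hpos.ne'))) i y
    rw [← h, div_mul_cancel₀ _ (hw i).ne']
  calc e ⬝ᵥ z = ∑ i, x y / w y * (g i * u i) := sum_congr rfl fun i _ => by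
        have h := hconst i
        simp only [hx] at h
        rw [← hs2 i] at h
        have he' : e i = x y / w y * (g i * s i) :=
          mul_left_cancel₀ (hs0 i).ne' (by rw [hx]; linarith)
        rw [he', hz]
        field_simp [(hs0 i).ne']
    _ = 0 := by rw [← mul_sum, hu, mul_zero]

end FA.MatroidLogConcave
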