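import Fermat.Agent.MatroidLogConcave.Degree
import Mathlib.Combinatorics.Matroid.Loop
import Mathlib.Combinatorics.Matroid.Rank.ENat

/-!
# The Whitney numbers of a matroid

The flats of a loopless matroid form a lattice to which log-concavity applies; a loop kills all
the alternating sums.
-/

set_option autoImplicit false

noncomputable section

namespace FA.MatroidLogConcave

open Finset

open scoped Classical

variable {α : Type*} [Fintype α] (M : Matroid α)

/-- The Whitney number of the first kind. -/
def whitney (k : ℕ) : ℤ :=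
  ∑ A ∈ univ.filter (fun A : Finset α => ↑A ⊆ M.E ∧ M.eRk ↑A = k), (-1) ^ #A

/-- The coefficient of the reduced characteristic polynomial. -/
def reducedWhitney (k : ℕ) : ℤ :=
  ∑ A ∈ univ.filter (fun A : Finset α => ↑A ⊆ M.E ∧ M.eRk ↑A ≤ k), (-1) ^ #A

/-- The points of the matroid. -/
abbrev Point : Type _ := {x : α // x ∈ M.E}

/-- A set of points in the ambient type. -/
def pointImage (A : Finset (Point M)) : Finset α := A.map (Function.Embedding.subtype _)

variable {M}

omit [Fintype α] in
theorem pointImage_subset (A : Finset (Point M)) : ↑(pointImage M A) ⊆ M.E := fun x hx => by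
  obtain ⟨y, -, rfl⟩ := mem_map.1 hx
  exact y.2

theorem eRk_ne_top (X : Set α) : M.eRk X ≠ ⊤ :=
  (Matroid.eRk_lt_top_iff.2 (M.isRkFinite_of_finite X.toFinite)).ne

/-- The points in the closure. -/
def pointClosure (A : Finset (Point M)) : Finset (Point M) :=
  univ.filter fun x => x.1 ∈ M.closure ↑(pointImage M A)

theorem pointImage_closure (A : Finset (Point M)) :
    (↑(pointImage M (pointClosure A)) : Set α) = M.closure ↑(pointImage M A) := by
  ext x
  simp only [pointImage, pointClosure, coe_map, Set.mem_image, mem_coe, mem_filter, mem_univ,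
    true_and, Function.Embedding.coe_subtype]
  exact ⟨fun ⟨y, hy, e⟩ => e ▸ hy, fun h => ⟨⟨x, M.closure_subset_ground _ h⟩, h, rfl⟩⟩

omit [Fintype α] in
theorem pointImage_insert (A : Finset (Point M)) (i : Point M) :
    (↑(pointImage M (insert i A)) : Set α) = insert i.1 ↑(pointImage M A) := by
  simp [pointImage, map_insert]

/-- The lattice of flats of a loopless matroid. -/
def flatLattice (hloop : M.closure ∅ = ∅) : FlatLattice (Point M) where
  cl := pointClosure
  rk A := (M.eRk ↑(pointImage M A)).toNat
  subset_cl A x hx := by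
    simp only [pointClosure, mem_filter, mem_univ, true_and]
    exact M.subset_closure _ (pointImage_subset A) (mem_map_of_mem _ hx)
  cl_cl A := by
    ext x
    simp only [pointClosure, mem_filter, mem_univ, true_and]
    rw [show (↑(pointImage M (univ.filter fun x : Point M => x.1 ∈ M.closure ↑(pointImage M A))) :
      Set α) = M.closure ↑(pointImage M A) from pointImage_closure A, M.closure_closure]
  cl_mono {A B} h x hx := by
    simp only [pointClosure, mem_filter, mem_univ, true_and] at hx ⊢
    exact M.closure_subset_closure (coe_subset.2 (map_subset_map.2 h)) hx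
  cl_empty := by
    ext x
    simp [pointClosure, pointImage, hloop]
  rk_empty := by simp [pointImage]
  rk_lt {F G} hF hG h := by
    by_contra hle
    rw [not_lt] at hle
    have hle' : M.eRk ↑(pointImage M G) ≤ M.eRk ↑(pointImage M F) := by
      rw [← ENat.natCast_toNat (eRk_ne_top (M := M) ↑(pointImage M G)),
        ← ENat.natCast_toNat (eRk_ne_top (M := M) ↑(pointImage M F))]
      exact_mod_cast hle
    have he := (M.isRkFinite_of_finite (Set.toFinite _)).closure_eq_closure_of_subset_of_eRk_ge_eRk
      (coe_subset.2 (map_subset_map.2 h.1) :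
        (↑(pointImage M F) : Set α) ⊆ ↑(pointImage M G)) hle'
    refine h.ne ?_
    calc F = pointClosure F := hF.symm
      _ = pointClosure G := by simp only [pointClosure, he]
      _ = G := hG
  rk_cl_insert {F i} hF hi := by
    rw [pointImage_closure, M.eRk_closure_eq, pointImage_insert, M.eRk_insert_eq_add_one,
      ENat.toNat_add (eRk_ne_top _) (by simp), ENat.toNat_one]
    refine ⟨i.2, fun h => hi ?_⟩
    rw [← hF]
    simp only [pointClosure, mem_filter, mem_univ, true_and]
    exact h

/-- Sums over sets of points are sums over subsets of the ground set. -/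
theorem sum_points (p : ℕ∞ → Prop) :
    ∑ A ∈ univ.filter (fun A : Finset (Point M) => p (M.eRk ↑(pointImage M A))), (-1 : ℤ) ^ #A =
      ∑ A ∈ univ.filter (fun A : Finset α => ↑A ⊆ M.E ∧ p (M.eRk ↑A)), (-1) ^ #A := by
  refine sum_bij (fun A _ => pointImage M A) (fun A hA => ?_) (fun A _ B _ h => map_injective _ h)
    (fun A hA => ?_) fun A _ => by rw [pointImage, card_map]
  · simp only [mem_filter, mem_univ, true_and] at hA ⊢
    exact ⟨pointImage_subset A, hA⟩
  · simp only [mem_filter, mem_univ, true_and] at hA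
    have e : pointImage M (A.subtype fun x => x ∈ M.E) = A :=
      subtype_map_of_mem fun x hx => hA.1 hx
    refine ⟨A.subtype fun x => x ∈ M.E, ?_, e⟩
    simp only [mem_filter, mem_univ, true_and]
    rw [e]
    exact hA.2

variable (hloop : M.closure ∅ = ∅)

theorem flatLattice_rk_cl (A : Finset (Point M)) :
    (flatLattice hloop).rk ((flatLattice hloop).cl A) = (M.eRk ↑(pointImage M A)).toNat := by
  change (M.eRk ↑(pointImage M (pointClosure A))).toNat = _
  rw [pointImage_closure, M.eRk_closure_eq]

theorem flatLattice_rank : (flatLattice hloop).rank = M.eRank.toNat := by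
  change (M.eRk ↑(pointImage M univ)).toNat = _
  rw [show (↑(pointImage M univ) : Set α) = M.E from ?_, M.eRk_ground]
  refine subset_antisymm (pointImage_subset _) fun x hx => ?_
  exact mem_coe.2 (mem_map.2 ⟨⟨x, hx⟩, mem_univ _, rfl⟩)

theorem bal_eq_reducedWhitney (k : ℕ) :
    (flatLattice hloop).bal univ k = (-1) ^ k * reducedWhitney M k := by
  rw [FlatLattice.bal, reducedWhitney, powerset_univ]
  congr 1
  refine Eq.trans ?_ ((sum_points (M := M) fun x => x ≤ (k : ℕ∞)).trans ?_) <;>
    refine sum_congr ?_ fun _ _ => rfl <;> ext A <;> simp only [mem_filter, mem_univ, true_and]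
  rw [flatLattice_rk_cl, ← ENat.natCast_le_natCast, ENat.natCast_toNat (eRk_ne_top _)]

theorem whitney_succ (k : ℕ) :
    whitney M (k + 1) = reducedWhitney M (k + 1) - reducedWhitney M k := by
  rw [whitney, reducedWhitney, reducedWhitney, eq_sub_iff_add_eq, ← sum_union]
  · refine sum_congr ?_ fun _ _ => rfl
    ext A
    obtain ⟨r, hr⟩ : ∃ r : ℕ, (r : ℕ∞) = M.eRk ↑A := ⟨_, ENat.natCast_toNat (eRk_ne_top _)⟩
    simp only [mem_union, mem_filter, mem_univ, true_and, ← hr, Nat.cast_inj, Nat.cast_le]
    by_cases hA : (↑A : Set α) ⊆ M.E <;> simp only [hA, true_and, false_and, or_self]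
    omega
  · refine disjoint_filter.2 fun A _ h1 h2 => ?_
    have h := h1.2 ▸ h2.2
    rw [Nat.cast_le] at h
    omega

theorem whitney_zero : whitney M 0 = reducedWhitney M 0 := by
  simp [whitney, reducedWhitney, nonpos_iff_eq_zero]

/-- A loop kills the alternating sums. -/
theorem sum_loop {e : α} (he : e ∈ M.closure ∅) (p : ℕ∞ → Prop)
    [DecidablePred fun A : Finset α => ↑A ⊆ M.E ∧ p (M.eRk ↑A)] :
    ∑ A ∈ univ.filter (fun A : Finset α => ↑A ⊆ M.E ∧ p (M.eRk ↑A)), (-1 : ℤ) ^ #A = 0 := by
  have hins : ∀ A : Finset α, M.eRk ↑(insert e A) = M.eRk ↑A := fun A => by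
    rw [coe_insert, ← M.eRk_closure_eq (insert e _), Matroid.closure_insert_eq_of_mem_closure
      (M.closure_subset_closure (Set.empty_subset _) he), M.eRk_closure_eq]
  refine sum_involution (fun A _ => if e ∈ A then A.erase e else insert e A) (fun A _ => ?_)
    (fun A _ _ => ?_) (fun A hA => ?_) fun A _ => ?_
  · split
    · rename_i h
      rw [← card_erase_add_one h, pow_succ]; ring
    · rename_i h
      rw [card_insert_of_notMem h, pow_succ]; ring
  · split
    · rename_i h
      exact fun e' => notMem_erase e A (by rw [e']; exact h)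
    · rename_i h
      exact fun e' => h (e' ▸ mem_insert_self e A)
  · simp only [mem_filter, mem_univ, true_and] at hA ⊢
    split
    · rename_i h
      refine ⟨(coe_subset.2 (erase_subset e A)).trans hA.1, ?_⟩
      rw [← hins, insert_erase h]
      exact hA.2
    · refine ⟨?_, by rw [hins]; exact hA.2⟩
      rw [coe_insert]
      exact Set.insert_subset (M.closure_subset_ground _ he) hA.1
  · by_cases h : e ∈ A
    · simp [h]
    · simp [h]

theorem reducedWhitney_loop {e : α} (he : e ∈ M.closure ∅) (k : ℕ) : reducedWhitney M k = 0 := by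
  exact sum_loop he fun x => x ≤ k

theorem whitney_loop {e : α} (he : e ∈ M.closure ∅) (k : ℕ) : whitney M k = 0 := by
  exact sum_loop he fun x => x = k

variable (M)

/-- The signless reduced coefficient. -/
def reducedAbs (k : ℕ) : ℤ := (-1) ^ k * reducedWhitney M k

variable {M}

theorem reducedAbs_pos (hloop : M.closure ∅ = ∅) {k : ℕ} (hk : (k : ℕ∞) < M.eRank) :
    0 < reducedAbs M k := by
  rw [reducedAbs, ← bal_eq_reducedWhitney hloop]
  refine FlatLattice.bal_pos k (flatLattice hloop).cl_univ ?_
  change k < (flatLattice hloop).rank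
  rw [flatLattice_rank]
  rwa [← ENat.natCast_lt_natCast, ENat.natCast_toNat (by rw [← M.eRk_ground]; exact eRk_ne_top _)]

theorem reducedAbs_eq_zero (hloop : M.closure ∅ = ∅) (hE : M.E.Nonempty) {k : ℕ}
    (hk : M.eRank ≤ k) : reducedAbs M k = 0 := by
  have : Nonempty (Point M) := hE.to_subtype
  rw [reducedAbs, ← bal_eq_reducedWhitney hloop]
  refine FlatLattice.bal_full (flatLattice hloop).cl_univ univ_nonempty ?_
  change (flatLattice hloop).rank ≤ k
  rw [flatLattice_rank]
  exact ENat.toNat_le_of_le_natCast hk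

theorem reducedAbs_empty (hE : M.E = ∅) (k : ℕ) : reducedAbs M k = (-1) ^ k := by
  rw [reducedAbs, reducedWhitney, show univ.filter (fun A : Finset α => ↑A ⊆ M.E ∧ M.eRk ↑A ≤ k)
    = {∅} from ?_]
  · simp
  ext A
  simp only [mem_filter, mem_univ, true_and, mem_singleton, hE, Set.subset_empty_iff,
    coe_eq_empty]
  exact ⟨fun h => h.1, fun h => ⟨h, by simp [h]⟩⟩

theorem reducedAbs_logConcave (j : ℕ) :
    reducedAbs M j * reducedAbs M (j + 2) ≤ reducedAbs M (j + 1) ^ 2 := by
  by_cases hloop : M.closure ∅ = ∅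
  · by_cases hE : M.E.Nonempty
    · have : Nonempty (Point M) := hE.to_subtype
      have h := (flatLattice hloop).bal_logConcave j
      simp only [bal_eq_reducedWhitney hloop] at h
      exact h
    · rw [Set.not_nonempty_iff_eq_empty] at hE
      simp only [reducedAbs_empty hE]
      rw [← pow_add, ← pow_mul, show j + (j + 2) = (j + 1) * 2 by omega]
  · obtain ⟨e, he⟩ := Set.nonempty_iff_ne_empty.2 hloop
    simp [reducedAbs, reducedWhitney_loop he]

theorem reducedWhitney_mul_nonneg (k : ℕ) :
    0 ≤ reducedWhitney M k * reducedWhitney M (k + 2) := by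
  rw [show reducedWhitney M k * reducedWhitney M (k + 2) =
    reducedAbs M k * reducedAbs M (k + 2) by
      rw [reducedAbs, reducedAbs, pow_add]
      have h2 : ((-1 : ℤ) ^ k) ^ 2 = 1 := by rw [← pow_mul, Even.neg_one_pow (by simp)]
      linear_combination -(reducedWhitney M k * reducedWhitney M (k + 2)) * h2]
  by_cases hloop : M.closure ∅ = ∅
  swap
  · obtain ⟨e, he⟩ := Set.nonempty_iff_ne_empty.2 hloop
    simp [reducedAbs, reducedWhitney_loop he]
  rcases M.E.eq_empty_or_nonempty with hE | hE
  · rw [reducedAbs_empty hE, reducedAbs_empty hE, ← pow_add]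
    exact Even.pow_nonneg (even_iff_two_dvd.2 ⟨k + 1, by omega⟩) _
  have hnn : ∀ i, 0 ≤ reducedAbs M i := fun i => by
    rcases lt_or_ge (i : ℕ∞) M.eRank with h | h
    exacts [(reducedAbs_pos hloop h).le, (reducedAbs_eq_zero hloop hE h).ge]
  exact mul_nonneg (hnn _) (hnn _)

/-- The reduced characteristic polynomial has log-concave coefficients. -/
theorem reducedWhitney_logConcave (k : ℕ) :
    |reducedWhitney M k| * |reducedWhitney M (k + 2)| ≤ reducedWhitney M (k + 1) ^ 2 := by
  rw [← abs_mul, abs_of_nonneg (reducedWhitney_mul_nonneg k)]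
  have h := reducedAbs_logConcave (M := M) k
  have h2 : ((-1 : ℤ) ^ k) ^ 2 = 1 := by rw [← pow_mul, Even.neg_one_pow (by simp)]
  simp only [reducedAbs, pow_add] at h
  nlinarith [h2]

theorem whitneyAbs_succ (k : ℕ) :
    (-1) ^ (k + 1) * whitney M (k + 1) = reducedAbs M (k + 1) + reducedAbs M k := by
  rw [whitney_succ, reducedAbs, reducedAbs, pow_succ]; ring

/-- **The Heron–Rota–Welsh conjecture.** -/
theorem whitney_logConcave (j : ℕ) :
    |whitney M j| * |whitney M (j + 2)| ≤ whitney M (j + 1) ^ 2 := by
  by_cases hloop : M.closure ∅ = ∅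
  swap
  · obtain ⟨e, he⟩ := Set.nonempty_iff_ne_empty.2 hloop
    simp [whitney_loop he]
  rcases M.E.eq_empty_or_nonempty with hE | hE
  · have h : ∀ i, whitney M (i + 1) = 0 := fun i => by
      have h := whitneyAbs_succ (M := M) i
      rw [reducedAbs_empty hE, reducedAbs_empty hE, pow_succ] at h
      ring_nf at h ⊢
      simpa using h
    rw [h, h]; simp
  obtain ⟨a, ha⟩ : ∃ a, a = reducedAbs M := ⟨_, rfl⟩
  have hnn : ∀ i, 0 ≤ a i := fun i => by
    rw [ha]
    rcases lt_or_ge (i : ℕ∞) M.eRank with h | h
    exacts [(reducedAbs_pos hloop h).le, (reducedAbs_eq_zero hloop hE h).ge]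
  have hzero : ∀ i, a i = 0 → a (i + 1) = 0 := fun i hi => by
    rw [ha] at hi ⊢
    refine reducedAbs_eq_zero hloop hE ((not_lt.1 fun h => ?_).trans
      (Nat.cast_le.2 (Nat.le_succ i)))
    exact (reducedAbs_pos hloop h).ne' hi
  have hlc : ∀ i, a i * a (i + 2) ≤ a (i + 1) ^ 2 := ha ▸ reducedAbs_logConcave
  have habs : ∀ i, |whitney M (i + 1)| = a (i + 1) + a i := fun i => by
    rw [← abs_of_nonneg (add_nonneg (hnn (i + 1)) (hnn i)), ha, ← whitneyAbs_succ, abs_mul,
      abs_pow, abs_neg, abs_one, one_pow, one_mul]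
  rw [← sq_abs (whitney M (j + 1)), habs, habs]
  cases j with
  | zero =>
    have h0 : |whitney M 0| = a 0 := by
      rw [← abs_of_nonneg (hnn 0), ha, reducedAbs, whitney_zero, pow_zero, one_mul]
    rw [h0]
    nlinarith [hlc 0, hnn 0, hnn 1]
  | succ i =>
    rw [habs]
    have h3 : a i * a (i + 3) ≤ a (i + 1) * a (i + 2) := by
      rcases eq_or_lt_of_le (hnn (i + 3)) with h | h
      · rw [← h, mul_zero]; exact mul_nonneg (hnn _) (hnn _)
      have h2 : 0 < a (i + 2) :=
        lt_of_le_of_ne (hnn _) fun e => h.ne' (hzero _ e.symm)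
      have h1 : 0 < a (i + 1) :=
        lt_of_le_of_ne (hnn _) fun e => h2.ne' (hzero _ e.symm)
      refine le_of_mul_le_mul_right ?_ (mul_pos h1 h2)
      nlinarith [mul_le_mul (hlc i) (hlc (i + 1))
        (mul_nonneg (hnn _) (hnn _)) (sq_nonneg (a (i + 1)))]
    nlinarith [hlc i, hlc (i + 1), h3]

/-- The Whitney numbers alternate in sign. -/
theorem whitney_sign (hloop : M.closure ∅ = ∅) {k : ℕ} (hk : (k : ℕ∞) ≤ M.eRank) :
    0 < (-1) ^ k * whitney M k := by
  cases k with
  | zero =>
    rcases eq_or_lt_of_le hk with h | h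
    · have hE : M.E = ∅ := by
        rcases M.E.eq_empty_or_nonempty with h' | ⟨x, hx⟩
        · exact h'
        exfalso
        have h1 := M.eRk_insert_eq_add_one (e := x) (X := ∅)
          ⟨hx, by rw [hloop]; exact Set.notMem_empty x⟩
        rw [M.eRk_empty, zero_add] at h1
        have h2 := h1 ▸ M.eRk_le_eRank (insert x ∅)
        rw [← h] at h2
        simp at h2
      have := reducedAbs_empty hE 0
      rw [whitney_zero]
      rw [reducedAbs, pow_zero, one_mul] at this
      simp [this]
    · rw [whitney_zero]; exact reducedAbs_pos hloop h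
  | succ k =>
    have hlt : (k : ℕ∞) < M.eRank :=
      lt_of_lt_of_le (Nat.cast_lt.2 (Nat.lt_succ_self k)) hk
    have hE : M.E.Nonempty := by
      by_contra h
      rw [Set.not_nonempty_iff_eq_empty] at h
      rw [← M.eRk_ground, h, M.eRk_empty] at hlt
      exact not_lt_zero hlt
    rw [whitneyAbs_succ]
    refine add_pos_of_nonneg_of_pos ?_ (reducedAbs_pos hloop hlt)
    rcases lt_or_ge ((k + 1 : ℕ) : ℕ∞) M.eRank with h | h
    exacts [(reducedAbs_pos hloop h).le, (reducedAbs_eq_zero hloop hE h).ge]

end FA.MatroidLogConcave
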